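/-
MW / function-field row of chief ruling #4 (2) (helper83) — **class zero ⟺ divisor of zeros of a
function**, the facts behind the fields `cl_zdiv`, `w₁_cl` and `exists_fun` of `HG.CurveData₀`,
in RAW vocabulary (`Place Qb (FN N)`, `HG.IsZDiv`, `Pic0.mk`, `arithmeticGalois`), independent of
the final choice of `cl`.

Generic part (`K`, `F` arbitrary):
* `zdiv : (Place K F →₀ ℕ) →+ Divisor K F`, the effective divisor as a `ℤ`-divisor;
* `isZDiv_unique`, `isZDiv_smul_raw`, `mapDomain_eq_of_fixed` : the divisor of zeros off `pinf`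
  of a function fixed by `g` (with `g • pinf = pinf`) is `g`-stable;
* `smul_sum_smul_of_fixed`, `baseAut_coeff_eq_of_fixed` : a combination `∑ a i • w i` of
  `g`-fixed linearly independent functions is `g`-fixed iff all `a i` are.

Modular part (`F = FN N = ℚ̄ · F_N`, `pinf N` the cusp `∞`):
* `zDeg0 N Z = Z − deg Z · ∞` (degree zero), `clPl N Z = [Z − deg Z · ∞] ∈ J₀(N)` additive on ALL
  effective divisors of places; `clPl_mapDomain_val : clPl N (D.mapDomain Subtype.val) = clFull N D`;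
* **`clPl_eq_zero_of_isZDiv`** (i): the divisor of zeros `Z` of `φ ≠ 0` has class `0`
  (`clFull_eq_zero_of_isZDiv` for `Pt N →₀ ℕ`);
* **`exists_fixed_fun`** (ii): `Z` stable under `U ⊆ G_ℚ`, `Z ∞ = 0`, class `0` ⟹ `Z` is the
  divisor of zeros of a `U`-FIXED `ψ`, regular off `∞`, of pole order exactly `deg Z` at `∞`
  (`exists_fixed_fun_clFull` for `Pt N →₀ ℕ`).  Descent = `CAR/Formal/DescentCore`
  (`exists_fixed_generator_modular`: normalised generator, no cocycle).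
-/
import Mathlib
import Fermat.Agent.MW.Ht.Defs
import Fermat.Agent.MW.HG.Defs
import Fermat.Agent.CAR.Formal.DescentCore

set_option autoImplicit false
set_option linter.unusedSectionVars false

noncomputable section

namespace Fermat.Agent.MW.Gen.ClassZero

open AlgebraicCurve ModularCurve
open Fermat.Agent.MW Fermat.Agent.MW.Ht.Defs Fermat.Agent.MW.HG

section Generic

variable {K F : Type*} [Field K] [Field F] [Algebra K F]

/-- An effective divisor on the places, as a divisor. -/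
def zdiv : (Place K F →₀ ℕ) →+ Divisor K F :=
  Finsupp.mapRange.addMonoidHom (Nat.castAddMonoidHom ℤ)

@[simp] theorem zdiv_apply (Z : Place K F →₀ ℕ) (P : Place K F) : zdiv Z P = (Z P : ℤ) := rfl

theorem zdiv_single (P : Place K F) (n : ℕ) :
    zdiv (Finsupp.single P n) = Finsupp.single P (n : ℤ) := by
  simp [zdiv]

/-- The divisor of zeros off `pinf` is unique. -/
theorem isZDiv_unique {pinf : Place K F} {φ : F} {Z Z' : Place K F →₀ ℕ}
    (h : IsZDiv pinf φ Z) (h' : IsZDiv pinf φ Z') : Z = Z' := by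
  ext P
  by_cases hP : P = pinf
  · rw [hP, h.1, h'.1]
  · have := (h.2 P hP).trans (h'.2 P hP).symm
    exact_mod_cast this

/-- The divisor of zeros off `pinf` is equivariant under the automorphisms fixing `pinf`. -/
theorem isZDiv_smul_raw {pinf : Place K F} (g : SemilinearAut K F) (hg : g • pinf = pinf)
    {φ : F} {Z : Place K F →₀ ℕ} (h : IsZDiv pinf φ Z) :
    IsZDiv pinf (g • φ) (Z.mapDomain fun P => g • P) := by
  have hinj : Function.Injective fun P : Place K F => g • P := MulAction.injective g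
  refine ⟨?_, fun P hP => ?_⟩
  · have h1 := Finsupp.mapDomain_apply hinj Z pinf
    simp only [hg] at h1
    rw [h1]
    exact h.1
  · have hP' : g⁻¹ • P ≠ pinf := fun h2 => hP (by
      have := congrArg (fun Q => g • Q) h2
      simpa [hg] using this)
    have h1 := Finsupp.mapDomain_apply hinj Z (g⁻¹ • P)
    simp only [smul_inv_smul] at h1
    rw [h1, h.2 _ hP']
    have h2 := SemilinearAut.ord_smul g (g⁻¹ • P) φ
    rw [smul_inv_smul] at h2
    exact h2.symm

/-- The divisor of zeros off `pinf` of a `g`-fixed function is `g`-stable. -/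
theorem mapDomain_eq_of_fixed {pinf : Place K F} (g : SemilinearAut K F) (hg : g • pinf = pinf)
    {φ : F} (hφ : g • φ = φ) {Z : Place K F →₀ ℕ} (h : IsZDiv pinf φ Z) :
    Z.mapDomain (fun P => g • P) = Z := by
  have h1 := isZDiv_smul_raw g hg h
  rw [hφ] at h1
  exact isZDiv_unique h1 h

/-- Pointwise form of the stability of an effective divisor. -/
theorem apply_inv_smul_of_stable (g : SemilinearAut K F) {Z : Place K F →₀ ℕ}
    (hZ : Z.mapDomain (fun P => g • P) = Z) (P : Place K F) : Z (g⁻¹ • P) = Z P := by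
  have hinj : Function.Injective fun P : Place K F => g • P := MulAction.injective g
  have h1 := Finsupp.mapDomain_apply hinj Z (g⁻¹ • P)
  simp only [smul_inv_smul] at h1
  rw [hZ] at h1
  exact h1.symm

theorem smul_zdiv_of_stable (g : SemilinearAut K F) {Z : Place K F →₀ ℕ}
    (hZ : Z.mapDomain (fun P => g • P) = Z) : g • zdiv Z = zdiv Z := by
  ext P
  rw [SemilinearAut.divisor_smul_apply, zdiv_apply, zdiv_apply, apply_inv_smul_of_stable g hZ]

/-- A combination of `g`-fixed functions with `g`-fixed coefficients is `g`-fixed. -/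
theorem smul_sum_smul_of_fixed {ι : Type*} [Fintype ι] (g : SemilinearAut K F) {w : ι → F}
    (hw : ∀ i, g • w i = w i) {a : ι → K} (ha : ∀ i, SemilinearAut.baseAut g (a i) = a i) :
    g • (∑ i, a i • w i) = ∑ i, a i • w i := by
  rw [Finset.smul_sum]
  refine Finset.sum_congr rfl fun i _ => ?_
  rw [Algebra.smul_def, smul_mul', SemilinearAut.smul_algebraMap, hw i, ha i]

/-- The coefficients of a `g`-fixed combination of `g`-fixed linearly independent functions are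
`g`-fixed. -/
theorem baseAut_coeff_eq_of_fixed {ι : Type*} [Fintype ι] (g : SemilinearAut K F) {w : ι → F}
    (hli : LinearIndependent K w) (hw : ∀ i, g • w i = w i) (a : ι → K)
    (h : g • (∑ i, a i • w i) = ∑ i, a i • w i) (i : ι) :
    SemilinearAut.baseAut g (a i) = a i := by
  have h1 : g • (∑ i, a i • w i) = ∑ i, SemilinearAut.baseAut g (a i) • w i := by
    rw [Finset.smul_sum]
    refine Finset.sum_congr rfl fun i _ => ?_
    rw [Algebra.smul_def, smul_mul', SemilinearAut.smul_algebraMap, hw i, ← Algebra.smul_def]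
  rw [h1] at h
  have h2 : ∑ i, (SemilinearAut.baseAut g (a i) - a i) • w i = 0 := by
    simp only [sub_smul, Finset.sum_sub_distrib, h, sub_self]
  exact sub_eq_zero.mp (Fintype.linearIndependent_iff.mp hli _ h2 i)

/-- Two divisors of the same degree which agree off a place of nonzero degree are equal. -/
theorem divisor_eq_of_eq_off {D E : Divisor K F} (P : Place K F) (hP : (P.deg : ℤ) ≠ 0)
    (h : ∀ v, v ≠ P → D v = E v) (hdeg : Divisor.degree D = Divisor.degree E) : D = E := by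
  classical
  have h1 : D - E = Finsupp.single P (D P - E P) := by
    ext v
    by_cases hv : v = P
    · rw [hv, Finsupp.sub_apply, Finsupp.single_eq_same]
    · rw [Finsupp.sub_apply, h v hv, sub_self, Finsupp.single_eq_of_ne hv]
  have h2 : Divisor.degree (D - E) = 0 := by rw [map_sub, hdeg, sub_self]
  rw [h1, Divisor.degree_single] at h2
  have h3 : D P = E P := by
    rcases mul_eq_zero.mp h2 with h4 | h4
    · exact sub_eq_zero.mp h4
    · exact absurd h4 hP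
  ext v
  by_cases hv : v = P
  · rw [hv, h3]
  · exact h v hv

end Generic

section Modular

local notation "Qb" => AlgebraicClosure ℚ
local notation "GQ" => (AlgebraicClosure ℚ ≃ₐ[ℚ] AlgebraicClosure ℚ)

variable (N : ℕ) [NeZero N]

theorem degree_zdiv (Z : Pl N →₀ ℕ) : Divisor.degree (zdiv Z) = (HQ.deg Z : ℤ) := by
  induction Z using Finsupp.induction_linear with
  | zero => simp
  | add D E hD hE => rw [map_add, map_add, hD, hE, HQ.deg_add]; push_cast; rfl
  | single p n =>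
    rw [zdiv_single, Divisor.degree_single, deg_eq_one, HQ.deg]
    simp

/-- `Z − deg Z · ∞` as a divisor of degree zero, for an effective divisor `Z` on ALL places. -/
def zDeg0 : (Pl N →₀ ℕ) →+ Divisor.degZero (K := Qb) (F := FN N) where
  toFun Z := ⟨zdiv Z - (HQ.deg Z : ℤ) • Finsupp.single (pinf N) 1, by
    rw [Divisor.mem_degZero, map_sub, map_zsmul, degree_zdiv, Divisor.degree_single,
      deg_eq_one]
    simp⟩
  map_zero' := by
    ext1
    simp
  map_add' D E := by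
    ext1
    simp only [map_add, HQ.deg_add, Nat.cast_add, add_smul, AddSubgroup.coe_add]
    abel

theorem coe_zDeg0 (Z : Pl N →₀ ℕ) :
    (zDeg0 N Z : Divisor Qb (FN N)) = zdiv Z - (HQ.deg Z : ℤ) • Finsupp.single (pinf N) 1 := rfl

theorem zDeg0_apply_of_ne (Z : Pl N →₀ ℕ) {P : Pl N} (hP : P ≠ pinf N) :
    (zDeg0 N Z : Divisor Qb (FN N)) P = (Z P : ℤ) := by
  rw [coe_zDeg0, Finsupp.sub_apply, Finsupp.smul_apply, Finsupp.single_eq_of_ne hP, smul_zero,
    sub_zero, zdiv_apply]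

theorem zDeg0_apply_pinf (Z : Pl N →₀ ℕ) :
    (zDeg0 N Z : Divisor Qb (FN N)) (pinf N) = (Z (pinf N) : ℤ) - (HQ.deg Z : ℤ) := by
  rw [coe_zDeg0, Finsupp.sub_apply, Finsupp.smul_apply, Finsupp.single_eq_same, zdiv_apply]
  simp

/-- **The class** `[Z − deg Z · ∞] ∈ J₀(N)(ℚ̄)` of an effective divisor on ALL places (additive;
the coefficient of `Z` at `∞` does not matter). -/
def clPl : (Pl N →₀ ℕ) →+ JZero N :=
  (QuotientAddGroup.mk' _).comp (zDeg0 N)

theorem clPl_apply (Z : Pl N →₀ ℕ) : clPl N Z = Pic0.mk (zDeg0 N Z) := rfl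

theorem deg_mapDomain_val (D : Pt N →₀ ℕ) :
    HQ.deg (D.mapDomain (Subtype.val : Pt N → Pl N)) = HQ.deg D := by
  unfold HQ.deg
  exact Finsupp.sum_mapDomain_index_addMonoidHom (h := fun _ => AddMonoidHom.id ℕ)

theorem zdiv_mapDomain_val (D : Pt N →₀ ℕ) :
    zdiv (D.mapDomain (Subtype.val : Pt N → Pl N)) = toDiv N D := by
  induction D using Finsupp.induction_linear with
  | zero => simp
  | add D E hD hE => rw [Finsupp.mapDomain_add, map_add, hD, hE, map_add]
  | single p n => rw [Finsupp.mapDomain_single, zdiv_single, toDiv_single]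

/-- On divisors of points, `clPl` is the class map `clFull` of `Ht/Defs`. -/
theorem clPl_mapDomain_val (D : Pt N →₀ ℕ) :
    clPl N (D.mapDomain (Subtype.val : Pt N → Pl N)) = clFull N D := by
  rw [clPl_apply, clFull_apply]
  congr 1
  apply Subtype.ext
  rw [coe_zDeg0, zdiv_mapDomain_val, deg_mapDomain_val]
  rfl

/-- The value at `∞` of an effective divisor of points is `0`. -/
theorem mapDomain_val_apply_pinf (D : Pt N →₀ ℕ) :
    (D.mapDomain (Subtype.val : Pt N → Pl N)) (pinf N) = 0 := by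
  classical
  rw [Finsupp.mapDomain, Finsupp.sum_apply]
  refine Finset.sum_eq_zero fun p _ => ?_
  exact Finsupp.single_eq_of_ne (Ne.symm p.2)

/-- A degree-zero divisor agreeing off `∞` with the divisor of zeros of `φ ≠ 0` is `div φ`. -/
theorem isDiv_of_isZDiv {φ : FN N} (hφ : φ ≠ 0) {Z : Pl N →₀ ℕ} (hZ : IsZDiv (pinf N) φ Z)
    (E : Divisor Qb (FN N)) (hdeg : Divisor.degree E = 0)
    (hE : ∀ P : Pl N, P ≠ pinf N → E P = (Z P : ℤ)) : Fermat.Agent.BAD.Dict.IsDiv E φ := by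
  obtain ⟨D, hD⟩ := Fermat.Agent.CAR.Formal.DescentCore.exists_isDiv
    (Fermat.Agent.Lib.FF.Res.isFF1_modular N) hφ
  have hdegD := Fermat.Agent.CAR.Formal.DescentCore.degree_of_isDiv
    (Fermat.Agent.Lib.FF.Res.isFF1_modular N) hD
  have e : E = D := by
    refine divisor_eq_of_eq_off (pinf N) ?_ (fun v hv => ?_) (by rw [hdeg, hdegD])
    · rw [deg_eq_one]; norm_num
    · rw [hE v hv, hD.2 v, hZ.2 v hv]
  rw [e]
  exact hD

/-- **(i)** The divisor of zeros off `∞` of a nonzero function has class `0`. -/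
theorem clPl_eq_zero_of_isZDiv {φ : FN N} (hφ : φ ≠ 0) {Z : Pl N →₀ ℕ}
    (hZ : IsZDiv (pinf N) φ Z) : clPl N Z = 0 := by
  rw [clPl_apply, Fermat.Agent.BAD.Dict.mk_eq_zero_iff]
  have h := isDiv_of_isZDiv N hφ hZ (zDeg0 N Z) (zDeg0 N Z).2
    (fun P hP => zDeg0_apply_of_ne N Z hP)
  exact ⟨φ, h.1, h.2⟩

/-- **(i)**, `Pt`-form: the class `clFull` of the divisor of zeros of a nonzero function is `0`. -/
theorem clFull_eq_zero_of_isZDiv {φ : FN N} (hφ : φ ≠ 0) {D : Pt N →₀ ℕ}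
    (hZ : IsZDiv (pinf N) φ (D.mapDomain (Subtype.val : Pt N → Pl N))) : clFull N D = 0 := by
  rw [← clPl_mapDomain_val]
  exact clPl_eq_zero_of_isZDiv N hφ hZ

/-- The pole order at `∞` is the degree of the divisor of zeros. -/
theorem ord_pinf_of_isZDiv {φ : FN N} (hφ : φ ≠ 0) {Z : Pl N →₀ ℕ}
    (hZ : IsZDiv (pinf N) φ Z) : (pinf N).ord φ = -(HQ.deg Z : ℤ) := by
  have h := isDiv_of_isZDiv N hφ hZ (zDeg0 N Z) (zDeg0 N Z).2
    (fun P hP => zDeg0_apply_of_ne N Z hP)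
  rw [← h.2 (pinf N), zDeg0_apply_pinf, hZ.1]
  simp

/-- **(ii)** An effective divisor `Z` off `∞`, stable under a set `U ⊆ G_ℚ` and of class `0`, is
the divisor of zeros of a `U`-FIXED function `ψ`, regular off `∞`, with pole order exactly
`deg Z` at `∞`. -/
theorem exists_fixed_fun (U : Set GQ) {Z : Pl N →₀ ℕ} (hZ0 : Z (pinf N) = 0)
    (hZU : ∀ σ ∈ U,
      Z.mapDomain (fun P => arithmeticGalois (modularFunctionFieldFull N) σ • P) = Z)
    (hcl : clPl N Z = 0) :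
    ∃ ψ : FN N, ψ ≠ 0 ∧
      (∀ σ ∈ U, arithmeticGalois (modularFunctionFieldFull N) σ • ψ = ψ) ∧
      RegOff (pinf N) ψ ∧ (pinf N).ord ψ = -(HQ.deg Z : ℤ) ∧ IsZDiv (pinf N) ψ Z := by
  rw [clPl_apply, Fermat.Agent.BAD.Dict.mk_eq_zero_iff] at hcl
  have hfixE : ∀ σ ∈ U, arithmeticGalois (modularFunctionFieldFull N) σ •
      (zDeg0 N Z : Divisor Qb (FN N)) = zDeg0 N Z := by
    intro σ hσ
    rw [coe_zDeg0, smul_sub, smul_zdiv_of_stable _ (hZU σ hσ), smul_comm,
      SemilinearAut.smul_single]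
    congr 3
    exact galPl_pinf N σ
  obtain ⟨g, hg, -, hfix⟩ :=
    Fermat.Agent.CAR.Formal.DescentCore.exists_fixed_generator_modular N U _ hcl hfixE
  have hoff : ∀ P : Pl N, P ≠ pinf N → (Z P : ℤ) = P.ord g := fun P hP => by
    rw [← hg.2 P, zDeg0_apply_of_ne N Z hP]
  have hZg : IsZDiv (pinf N) g Z := ⟨hZ0, hoff⟩
  refine ⟨g, hg.1, hfix, fun P hP => ?_, ord_pinf_of_isZDiv N hg.1 hZg, hZg⟩
  rw [← hoff P hP]
  exact Int.natCast_nonneg _

/-- **(ii)**, `Pt`-form. -/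
theorem exists_fixed_fun_clFull (U : Set GQ) {D : Pt N →₀ ℕ}
    (hDU : ∀ σ ∈ U, galDiv N σ D = D) (hcl : clFull N D = 0) :
    ∃ ψ : FN N, ψ ≠ 0 ∧
      (∀ σ ∈ U, arithmeticGalois (modularFunctionFieldFull N) σ • ψ = ψ) ∧
      RegOff (pinf N) ψ ∧ (pinf N).ord ψ = -(HQ.deg D : ℤ) ∧
      IsZDiv (pinf N) ψ (D.mapDomain (Subtype.val : Pt N → Pl N)) := by
  have h := exists_fixed_fun N U (Z := D.mapDomain (Subtype.val : Pt N → Pl N))
    (mapDomain_val_apply_pinf N D) (fun σ hσ => ?_) (by rw [clPl_mapDomain_val]; exact hcl)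
  · rwa [deg_mapDomain_val] at h
  · have h1 : Finsupp.mapDomain (fun P => galPl N σ P)
        (Finsupp.mapDomain (Subtype.val : Pt N → Pl N) D)
        = Finsupp.mapDomain (Subtype.val : Pt N → Pl N) (galDiv N σ D) := by
      show _ = Finsupp.mapDomain Subtype.val (Finsupp.mapDomain (galPt N σ) D)
      rw [← Finsupp.mapDomain_comp, ← Finsupp.mapDomain_comp]
      rfl
    rw [hDU σ hσ] at h1
    exact h1

/-! ### Galois equivariance of `clPl` -/

theorem smul_zdiv (g : SemilinearAut Qb (FN N)) (Z : Pl N →₀ ℕ) :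
    g • zdiv Z = zdiv (Z.mapDomain fun P => g • P) := by
  have hinj : Function.Injective fun P : Pl N => g • P := MulAction.injective g
  ext P
  have h1 := Finsupp.mapDomain_apply hinj Z (g⁻¹ • P)
  simp only [smul_inv_smul] at h1
  rw [SemilinearAut.divisor_smul_apply, zdiv_apply, zdiv_apply, h1]

theorem deg_mapDomain_smul (g : SemilinearAut Qb (FN N)) (Z : Pl N →₀ ℕ) :
    HQ.deg (Z.mapDomain fun P => g • P) = HQ.deg Z := by
  unfold HQ.deg
  exact Finsupp.sum_mapDomain_index_addMonoidHom (h := fun _ => AddMonoidHom.id ℕ)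

/-- `clPl` is Galois-equivariant. -/
theorem clPl_mapDomain_smul (σ : GQ) (Z : Pl N →₀ ℕ) :
    clPl N (Z.mapDomain fun P => arithmeticGalois (modularFunctionFieldFull N) σ • P)
      = σ • clPl N Z := by
  rw [clPl_apply, clPl_apply, galois_smul_pic0_def]
  show _ = Pic0.mk (SemilinearAut.degZeroSMulHom _ (zDeg0 N Z))
  congr 1
  apply Subtype.ext
  rw [SemilinearAut.coe_degZeroSMulHom, coe_zDeg0, coe_zDeg0, smul_sub, smul_zdiv,
    deg_mapDomain_smul, smul_comm, SemilinearAut.smul_single]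
  congr 3
  exact (galPl_pinf N σ).symm

/-- The class of a `σ`-stable divisor is `σ`-fixed. -/
theorem smul_clPl_of_stable (σ : GQ) {Z : Pl N →₀ ℕ}
    (hZ : Z.mapDomain (fun P => arithmeticGalois (modularFunctionFieldFull N) σ • P) = Z) :
    σ • clPl N Z = clPl N Z := by
  rw [← clPl_mapDomain_smul, hZ]

end Modular

/-! ### The fields `cl_zdiv`, `w₁_cl`, `exists_fun` of `HG.CurveD₀`, literally

`c₀` is the class map on all effective divisors (`clPl N` in the modular case), `cl` a class map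
with values in `J` which agrees with `c₀` on the rational divisors through an injective additive
map `ιJ : J →+ J₀` (e.g. `J` a subgroup of `J₀` and `cl` from `HG/ClOrbit.lean`). -/

section Wrap

open Fermat.Agent.MW.HtM Fermat.Agent.MW.HQ

variable {K F V : Type*} [Field K] [Field F] [Algebra K F]
variable {Ab : AbsFamily K V} {pinf : Place K F} {t : F} {m : ℕ} (𝒮 : Setting Ab pinf t m)

/-- A combination with `U`-fixed coefficients of a `Γ`-fixed family is `U`-fixed. -/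
theorem smul_sum_of_uFix {ι : Type*} [Fintype ι] {w : ι → F} {M : ℕ} (hw : 𝒮.Fam w M)
    {a : ι → K} (ha : 𝒮.UFix a) {u : SemilinearAut K F} (hu : u ∈ 𝒮.U) :
    u • (∑ i, a i • w i) = ∑ i, a i • w i :=
  smul_sum_smul_of_fixed u (fun i => hw.fixed u (𝒮.U_le hu) i) (fun i => ha u hu i)

/-- The coefficients of a `U`-fixed function in a `Γ`-fixed linearly independent family are
`U`-fixed. -/
theorem uFix_of_fixed {ι : Type*} [Fintype ι] {w : ι → F} {M : ℕ} (hw : 𝒮.Fam w M)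
    (hli : LinearIndependent K w) (a : ι → K)
    (h : ∀ u ∈ 𝒮.U, u • (∑ i, a i • w i) = ∑ i, a i • w i) : 𝒮.UFix a :=
  fun u hu i =>
    baseAut_coeff_eq_of_fixed u hli (fun i => hw.fixed u (𝒮.U_le hu) i) a (h u hu) i

/-- The divisor of zeros of a `U`-fixed function is rational. -/
theorem mem_ratU_of_isZDiv {φ : F} (hφ : ∀ u ∈ 𝒮.U, u • φ = φ) {Z : Place K F →₀ ℕ}
    (hZ : IsZDiv pinf φ Z) : Z ∈ 𝒮.RatU :=
  ⟨hZ.1, fun u hu => mapDomain_eq_of_fixed u (𝒮.inf_fixed u (𝒮.U_le hu)) (hφ u hu) hZ⟩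

/-- **The fields `cl_zdiv` and `w₁_cl`** (literal conclusion): the divisor of zeros of a
`U`-fixed combination of a `Γ`-fixed family has `cl = 0`. -/
theorem cl_zdiv_of {J₀ J : Type*} [AddCommGroup J₀] [AddCommGroup J] (ιJ : J →+ J₀)
    (hι : Function.Injective ιJ) (c₀ : (Place K F →₀ ℕ) →+ J₀) (cl : (Place K F →₀ ℕ) →+ J)
    (hcl : ∀ D : Place K F →₀ ℕ, D ∈ 𝒮.RatU → ιJ (cl D) = c₀ D)
    (hc₀ : ∀ (φ : F) (Z : Place K F →₀ ℕ), φ ≠ 0 → IsZDiv pinf φ Z → c₀ Z = 0)
    {ι : Type*} [Fintype ι] {w : ι → F} {M : ℕ} (hw : 𝒮.Fam w M) (a : ι → K) (ha : 𝒮.UFix a)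
    (hne : (∑ i, a i • w i) ≠ 0) (Z : Place K F →₀ ℕ) (hZ : IsZDiv pinf (∑ i, a i • w i) Z) :
    cl Z = 0 := by
  apply hι
  rw [map_zero, hcl Z (mem_ratU_of_isZDiv 𝒮 (fun u hu => smul_sum_of_uFix 𝒮 hw ha hu) hZ)]
  exact hc₀ _ Z hne hZ

/-- **The field `exists_fun`** (literal conclusion): a rational divisor of class `0` is the
divisor of zeros of a `U`-fixed combination of the basis `w (deg Z)` of `L(deg Z · pinf)`. -/
theorem exists_fun_of {J₀ J : Type*} [AddCommGroup J₀] [AddCommGroup J] (ιJ : J →+ J₀)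
    (c₀ : (Place K F →₀ ℕ) →+ J₀) (cl : (Place K F →₀ ℕ) →+ J)
    (hcl : ∀ D : Place K F →₀ ℕ, D ∈ 𝒮.RatU → ιJ (cl D) = c₀ D)
    (hfun : ∀ Z : Place K F →₀ ℕ, Z ∈ 𝒮.RatU → c₀ Z = 0 →
      ∃ ψ : F, ψ ≠ 0 ∧ (∀ u ∈ 𝒮.U, u • ψ = ψ) ∧ RegOff pinf ψ ∧
        -(deg Z : ℤ) ≤ pinf.ord ψ ∧ IsZDiv pinf ψ Z)
    (l : ℕ → ℕ) (w : ∀ M : ℕ, Fin (l M) → F) (w_fam : ∀ M, 𝒮.Fam (w M) M)
    (w_li : ∀ M, LinearIndependent K (w M))
    (w_span : ∀ (M : ℕ) (ψ : F), RegOff pinf ψ → -(M : ℤ) ≤ pinf.ord ψ →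
      ψ ∈ Submodule.span K (Set.range (w M))) :
    ∀ Z ∈ 𝒮.RatU, cl Z = 0 → ∃ a : Fin (l (deg Z)) → K, 𝒮.UFix a ∧
      (∑ i, a i • w (deg Z) i) ≠ 0 ∧ IsZDiv pinf (∑ i, a i • w (deg Z) i) Z := by
  intro Z hZ hclZ
  have h0 : c₀ Z = 0 := by rw [← hcl Z hZ, hclZ, map_zero]
  obtain ⟨ψ, hψ, hfix, hreg, hpole, hZψ⟩ := hfun Z hZ h0
  obtain ⟨a, ha⟩ :=
    (Submodule.mem_span_range_iff_exists_fun K).mp (w_span (deg Z) ψ hreg hpole)
  refine ⟨a, ?_, by rw [ha]; exact hψ, by rw [ha]; exact hZψ⟩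
  exact uFix_of_fixed 𝒮 (w_fam _) (w_li _) a (fun u hu => by rw [ha]; exact hfix u hu)

end Wrap

/-! ### The modular case: `c₀ = clPl N` -/

section ModularWrap

open Fermat.Agent.MW.HtM Fermat.Agent.MW.HQ

local notation "Qb" => AlgebraicClosure ℚ
local notation "GQ" => (AlgebraicClosure ℚ ≃ₐ[ℚ] AlgebraicClosure ℚ)

variable (N : ℕ) [NeZero N] {V : Type*} {Ab : AbsFamily Qb V} {t : FN N} {m : ℕ}
  (𝒮 : Setting Ab (pinf N) t m)

/-- The hypothesis `hc₀` of `cl_zdiv_of` for `c₀ = clPl N`. -/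
theorem hc₀_modular (φ : FN N) (Z : Pl N →₀ ℕ) (hφ : φ ≠ 0) (hZ : IsZDiv (pinf N) φ Z) :
    clPl N Z = 0 :=
  clPl_eq_zero_of_isZDiv N hφ hZ

/-- The hypothesis `hfun` of `exists_fun_of` for `c₀ = clPl N`, when `U` consists of Galois
automorphisms. -/
theorem hfun_modular
    (hU : ∀ u ∈ 𝒮.U, ∃ σ : GQ, arithmeticGalois (modularFunctionFieldFull N) σ = u)
    (Z : Pl N →₀ ℕ) (hZ : Z ∈ 𝒮.RatU) (hcl : clPl N Z = 0) :
    ∃ ψ : FN N, ψ ≠ 0 ∧ (∀ u ∈ 𝒮.U, u • ψ = ψ) ∧ RegOff (pinf N) ψ ∧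
      -(deg Z : ℤ) ≤ (pinf N).ord ψ ∧ IsZDiv (pinf N) ψ Z := by
  obtain ⟨ψ, hψ, hfix, hreg, hpole, hZψ⟩ := exists_fixed_fun N
    {σ : GQ | arithmeticGalois (modularFunctionFieldFull N) σ ∈ 𝒮.U} hZ.1
    (fun σ hσ => hZ.2 _ hσ) hcl
  refine ⟨ψ, hψ, fun u hu => ?_, hreg, hpole.ge, hZψ⟩
  obtain ⟨σ, rfl⟩ := hU u hu
  exact hfix σ hu

/-- **`cl_zdiv` / `w₁_cl` for the modular function field**, for any `cl` agreeing with `clPl N`
on the rational divisors. -/
theorem cl_zdiv_modular {J : Type*} [AddCommGroup J] (ιJ : J →+ JZero N)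
    (hι : Function.Injective ιJ) (cl : (Pl N →₀ ℕ) →+ J)
    (hcl : ∀ D : Pl N →₀ ℕ, D ∈ 𝒮.RatU → ιJ (cl D) = clPl N D)
    {ι : Type*} [Fintype ι] {w : ι → FN N} {M : ℕ} (hw : 𝒮.Fam w M) (a : ι → Qb)
    (ha : 𝒮.UFix a) (hne : (∑ i, a i • w i) ≠ 0) (Z : Pl N →₀ ℕ)
    (hZ : IsZDiv (pinf N) (∑ i, a i • w i) Z) : cl Z = 0 :=
  cl_zdiv_of 𝒮 ιJ hι (clPl N) cl hcl (hc₀_modular N) hw a ha hne Z hZ

/-- **`exists_fun` for the modular function field**, for any `cl` agreeing with `clPl N` on the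
rational divisors and bases `w M` of `L(M · ∞)`. -/
theorem exists_fun_modular
    (hU : ∀ u ∈ 𝒮.U, ∃ σ : GQ, arithmeticGalois (modularFunctionFieldFull N) σ = u)
    {J : Type*} [AddCommGroup J] (ιJ : J →+ JZero N) (cl : (Pl N →₀ ℕ) →+ J)
    (hcl : ∀ D : Pl N →₀ ℕ, D ∈ 𝒮.RatU → ιJ (cl D) = clPl N D)
    (l : ℕ → ℕ) (w : ∀ M : ℕ, Fin (l M) → FN N) (w_fam : ∀ M, 𝒮.Fam (w M) M)
    (w_li : ∀ M, LinearIndependent Qb (w M))
    (w_span : ∀ (M : ℕ) (ψ : FN N), RegOff (pinf N) ψ → -(M : ℤ) ≤ (pinf N).ord ψ →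
      ψ ∈ Submodule.span Qb (Set.range (w M))) :
    ∀ Z ∈ 𝒮.RatU, cl Z = 0 → ∃ a : Fin (l (deg Z)) → Qb, 𝒮.UFix a ∧
      (∑ i, a i • w (deg Z) i) ≠ 0 ∧ IsZDiv (pinf N) (∑ i, a i • w (deg Z) i) Z :=
  exists_fun_of 𝒮 ιJ (clPl N) cl hcl (hfun_modular N 𝒮 hU) l w w_fam w_li w_span

end ModularWrap

end Fermat.Agent.MW.Gen.ClassZero
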