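/-
MW / function-field instance side (helper69) — THE SHARED BRIDGE between effective divisors on the
points `Pt N →₀ ℕ` (vocabulary of `Ht/Defs.lean`: `RatU`, `clFull`, `galDiv`) and effective
divisors on all places `Pl N →₀ ℕ` (vocabulary of `HG/Defs.lean`: `Setting.RatU`), and the field
`rep` of `HG.CurveD₀` in its literal shape.

* `toPl` (extension by zero at `∞`), `ofPl` (restriction), `ofPl_toPl`, `toPl_ofPl`, degrees,
  supports, Galois equivariance (`toPl_galDiv`, `ofPl_mapDomain`), `mem_RatU_ofPl`,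
  `stable_toPl`;
* `clPl N : (Pl N →₀ ℕ) →+ JZero N`, `D ↦ [D − deg D · ∞]` (the coefficient at `∞` is ignored),
  equivariant (`clPl_mapDomain`), `clPl_toPl`, `clPl_fixed`;
* `exists_cl` : a class map `cl : (Pl N →₀ ℕ) →+ J` into any subgroup `J` containing the
  `U₀`-fixed classes, equal to `clPl` on the `U₀`-stable divisors;
* `exists_rep_pl` : the moving lemma in the vocabulary of places;
* `rep_field` : the fields `d₀`, `rep` of `HG.CurveD₀` for any `HG.Setting` whose `RatU` is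
  "off `∞` and `U₀`-stable" and any class map equal to `clPl` on `RatU`.
-/
import Mathlib
import Fermat.Agent.MW.Ht.Defs
import Fermat.Agent.MW.Ht.RepPt
import Fermat.Agent.MW.HG.Defs
import Fermat.Agent.MW.HG.ClOrbit
import Fermat.Agent.MW.HG.RecUp

set_option autoImplicit false

noncomputable section

namespace Fermat.Agent.MW.Gen.PlBridge

open AlgebraicCurve ModularCurve
open Fermat.Agent.MW Fermat.Agent.MW.Ht.Defs Fermat.Agent.MW.HtM Fermat.Agent.MW.Ht.AbsQb
open Fermat.Agent.Lib.FF.PlaceInf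

local notation "Qb" => AlgebraicClosure ℚ
local notation "GQ" => (AlgebraicClosure ℚ ≃ₐ[ℚ] AlgebraicClosure ℚ)

variable (N : ℕ) [NeZero N]

/-! ### Extension and restriction -/

/-- Extension by zero at `∞`. -/
def toPl : (Pt N →₀ ℕ) →+ (Pl N →₀ ℕ) :=
  Finsupp.mapDomain.addMonoidHom (Subtype.val : Pt N → Pl N)

/-- Restriction to the points. -/
def ofPl : (Pl N →₀ ℕ) →+ (Pt N →₀ ℕ) :=
  Finsupp.comapDomain.addMonoidHom (Subtype.val_injective : Function.Injective
    (Subtype.val : Pt N → Pl N))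

theorem toPl_apply (D : Pt N →₀ ℕ) (p : Pt N) : toPl N D (p : Pl N) = D p :=
  Finsupp.mapDomain_apply Subtype.val_injective D p

theorem toPl_pinf (D : Pt N →₀ ℕ) : toPl N D (pinf N) = 0 := by
  refine Finsupp.mapDomain_of_notMem_range D (pinf N) ?_
  rintro ⟨p, hp⟩
  exact p.2 hp

theorem ofPl_apply (D : Pl N →₀ ℕ) (p : Pt N) : ofPl N D p = D (p : Pl N) := rfl

theorem ofPl_toPl (D : Pt N →₀ ℕ) : ofPl N (toPl N D) = D := by
  ext p
  rw [ofPl_apply, toPl_apply]

theorem toPl_ofPl {D : Pl N →₀ ℕ} (h : D (pinf N) = 0) : toPl N (ofPl N D) = D := by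
  ext P
  by_cases hP : P = pinf N
  · rw [hP, toPl_pinf, h]
  · exact toPl_apply N (ofPl N D) ⟨P, hP⟩

theorem toPl_injective : Function.Injective (toPl N) := fun D E h => by
  rw [← ofPl_toPl N D, ← ofPl_toPl N E, h]

theorem deg_toPl (D : Pt N →₀ ℕ) : HQ.deg (toPl N D) = HQ.deg D := by
  unfold HQ.deg
  exact Finsupp.sum_mapDomain_index (fun _ => rfl) (fun _ _ _ => rfl)

theorem deg_ofPl {D : Pl N →₀ ℕ} (h : D (pinf N) = 0) : HQ.deg (ofPl N D) = HQ.deg D := by
  rw [← deg_toPl, toPl_ofPl N h]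

theorem mem_support_toPl {D : Pt N →₀ ℕ} {P : Pl N} (hP : P ∈ (toPl N D).support) :
    ∃ p ∈ D.support, (p : Pl N) = P := by
  have hne : P ≠ pinf N := by
    rintro rfl
    exact (Finsupp.mem_support_iff.mp hP) (toPl_pinf N D)
  refine ⟨⟨P, hne⟩, ?_, rfl⟩
  rw [Finsupp.mem_support_iff] at hP ⊢
  rwa [← toPl_apply N D ⟨P, hne⟩]

/-! ### Galois action -/

theorem toPl_galDiv (σ : GQ) (D : Pt N →₀ ℕ) :
    toPl N (galDiv N σ D)
      = (toPl N D).mapDomain (fun P => arithmeticGalois (modularFunctionFieldFull N) σ • P) := by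
  show Finsupp.mapDomain Subtype.val (Finsupp.mapDomain (galPt N σ) D)
    = Finsupp.mapDomain (fun P : Pl N => arithmeticGalois (modularFunctionFieldFull N) σ • P)
      (Finsupp.mapDomain Subtype.val D)
  rw [← Finsupp.mapDomain_comp, ← Finsupp.mapDomain_comp]
  rfl

theorem ofPl_mapDomain (σ : GQ) (D : Pl N →₀ ℕ) :
    ofPl N (D.mapDomain fun P => arithmeticGalois (modularFunctionFieldFull N) σ • P)
      = galDiv N σ (ofPl N D) := by
  ext p
  have hp : galPt N σ (galPt N σ⁻¹ p) = p := by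
    rw [← galPt_mul, mul_inv_cancel, galPt_one]
  have h1 : ofPl N (D.mapDomain fun P => arithmeticGalois (modularFunctionFieldFull N) σ • P)
      (galPt N σ (galPt N σ⁻¹ p)) = D (galPt N σ⁻¹ p : Pl N) :=
    Finsupp.mapDomain_apply (MulAction.injective (arithmeticGalois (modularFunctionFieldFull N) σ))
      D (galPt N σ⁻¹ p : Pl N)
  have h2 : galDiv N σ (ofPl N D) (galPt N σ (galPt N σ⁻¹ p)) = ofPl N D (galPt N σ⁻¹ p) :=
    galDiv_apply N σ (ofPl N D) (galPt N σ⁻¹ p)
  rw [hp] at h1 h2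
  rw [h1, h2, ofPl_apply]

/-- The restriction of a `U`-stable divisor is `U`-rational. -/
theorem mem_RatU_ofPl {U : Subgroup GQ} {D : Pl N →₀ ℕ}
    (hD : ∀ σ ∈ U, D.mapDomain (fun P => arithmeticGalois (modularFunctionFieldFull N) σ • P)
      = D) : ofPl N D ∈ RatU N U := by
  intro σ hσ
  rw [← ofPl_mapDomain, hD σ hσ]

/-- The extension of a `U`-rational divisor is `U`-stable. -/
theorem stable_toPl {U : Subgroup GQ} {D : Pt N →₀ ℕ} (hD : D ∈ RatU N U) :
    ∀ σ ∈ U, (toPl N D).mapDomain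
      (fun P => arithmeticGalois (modularFunctionFieldFull N) σ • P) = toPl N D := by
  intro σ hσ
  rw [← toPl_galDiv, hD σ hσ]

/-- For divisors off `∞`: `U`-stable if and only if the restriction is `U`-rational. -/
theorem stable_iff_ofPl_mem {U : Subgroup GQ} {D : Pl N →₀ ℕ} (h : D (pinf N) = 0) :
    (∀ σ ∈ U, D.mapDomain (fun P => arithmeticGalois (modularFunctionFieldFull N) σ • P) = D)
      ↔ ofPl N D ∈ RatU N U := by
  refine ⟨mem_RatU_ofPl N, fun hD => ?_⟩
  have h1 := stable_toPl N hD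
  rwa [toPl_ofPl N h] at h1

/-- The divisor of a tuple of points, as the extension of a divisor on the points. -/
theorem tdiv_eq_toPl {n : ℕ} (P : Fin n → Pl N) (hP : ∀ j, P j ≠ pinf N) :
    HG.tdiv P = toPl N (∑ j, Finsupp.single (⟨P j, hP j⟩ : Pt N) 1) := by
  unfold HG.tdiv
  rw [map_sum]
  refine Finset.sum_congr rfl fun j _ => ?_
  show _ = Finsupp.mapDomain Subtype.val (Finsupp.single (⟨P j, hP j⟩ : Pt N) 1)
  rw [Finsupp.mapDomain_single]

/-! ### The class map on divisors of places -/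

/-- **The class map** `D ↦ [D − deg D · ∞]` on effective divisors of places (the coefficient at
`∞` does not matter). -/
def clPl : (Pl N →₀ ℕ) →+ JZero N := (clFull N).comp (ofPl N)

theorem clPl_apply (D : Pl N →₀ ℕ) : clPl N D = clFull N (ofPl N D) := rfl

theorem clPl_toPl (D : Pt N →₀ ℕ) : clPl N (toPl N D) = clFull N D := by
  rw [clPl_apply, ofPl_toPl]

theorem clPl_mapDomain (σ : GQ) (D : Pl N →₀ ℕ) :
    clPl N (D.mapDomain fun P => arithmeticGalois (modularFunctionFieldFull N) σ • P)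
      = σ • clPl N D := by
  rw [clPl_apply, ofPl_mapDomain, clFull_galDiv, clPl_apply]

/-- The class of a `U`-stable divisor is `U`-fixed. -/
theorem clPl_fixed {U : Subgroup GQ} {D : Pl N →₀ ℕ}
    (hD : ∀ σ ∈ U, D.mapDomain (fun P => arithmeticGalois (modularFunctionFieldFull N) σ • P)
      = D) (σ : GQ) (hσ : σ ∈ U) : σ • clPl N D = clPl N D := by
  rw [← clPl_mapDomain, hD σ hσ]

/-- **A class map into the `U₀`-fixed classes**, additive on ALL effective divisors of places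
and equal to `clPl` on the `U₀`-stable ones. -/
theorem exists_cl (U₀ : Subgroup GQ) (J : AddSubgroup (JZero N))
    (hJ : ∀ x : JZero N, (∀ σ ∈ U₀, σ • x = x) → x ∈ J) :
    ∃ cl : (Pl N →₀ ℕ) →+ J, ∀ D : Pl N →₀ ℕ,
      (∀ σ ∈ U₀, D.mapDomain (fun P => arithmeticGalois (modularFunctionFieldFull N) σ • P)
        = D) → (cl D : JZero N) = clPl N D := by
  have hiff : ∀ D : Pl N →₀ ℕ,
      (∀ u ∈ U₀.map (arithmeticGalois (modularFunctionFieldFull N)),
          D.mapDomain (fun P => u • P) = D) ↔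
        ∀ σ ∈ U₀, D.mapDomain
          (fun P => arithmeticGalois (modularFunctionFieldFull N) σ • P) = D := by
    intro D
    constructor
    · intro h σ hσ
      exact h _ (Subgroup.mem_map_of_mem _ hσ)
    · rintro h u ⟨σ, hσ, rfl⟩
      exact h σ hσ
  obtain ⟨cl, hcl⟩ := HG.ClOrbit.exists_cl_subgroup (clPl N) J
    (U₀.map (arithmeticGalois (modularFunctionFieldFull N)))
    (fun D hD => hJ _ fun σ hσ => clPl_fixed N ((hiff D).mp hD) σ hσ)
  exact ⟨cl, fun D hD => hcl D ((hiff D).mpr hD)⟩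

/-- Transport of a class equation from the points to the places: for a class map equal to
`clPl` on the stable divisors, the class of the extension of a `U₀`-rational divisor is its
`clFull`. -/
theorem coe_cl_toPl {U₀ : Subgroup GQ} {J : AddSubgroup (JZero N)} (cl : (Pl N →₀ ℕ) →+ J)
    (hcl : ∀ D : Pl N →₀ ℕ,
      (∀ σ ∈ U₀, D.mapDomain (fun P => arithmeticGalois (modularFunctionFieldFull N) σ • P)
        = D) → (cl D : JZero N) = clPl N D)
    {E : Pt N →₀ ℕ} (hE : E ∈ RatU N U₀) : (cl (toPl N E) : JZero N) = clFull N E := by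
  rw [hcl _ (stable_toPl N hE), clPl_toPl]

/-! ### The moving lemma -/

/-- **The moving lemma in the vocabulary of places**: every `U`-fixed class is the class of a
`U`-stable effective divisor off `∞`, of bounded degree, in `t`-general position with respect to
any finite set of places. -/
theorem exists_rep_pl {t : FN N} (ht : ∀ c : Qb, t ≠ algebraMap Qb (FN N) c) :
    ∃ d₀ : ℕ, ∀ (U : Subgroup GQ) (x : JZero N), (∀ σ ∈ U, σ • x = x) →
      ∀ S : Finset (Pl N), ∃ D : Pl N →₀ ℕ, D (pinf N) = 0 ∧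
        (∀ σ ∈ U, D.mapDomain
          (fun P => arithmeticGalois (modularFunctionFieldFull N) σ • P) = D) ∧
        clPl N D = x ∧ HQ.deg D ≤ d₀ ∧
        ∀ p ∈ D.support, ∀ q ∈ S, pval p t ≠ pval q t := by
  classical
  obtain ⟨d₀, h⟩ := Ht.RepPt.exists_rep_RatU N
  refine ⟨d₀, fun U x hx S => ?_⟩
  obtain ⟨D, hD, hcl, hdeg, hS⟩ :=
    h U x hx (S.biUnion fun q => (Ht.RepPt.finite_pval_eq N ht (pval q t)).toFinset)
  refine ⟨toPl N D, toPl_pinf N D, stable_toPl N hD, ?_, ?_, ?_⟩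
  · rw [clPl_toPl, hcl]
  · rw [deg_toPl]
    exact hdeg
  · intro P hP q hq hPq
    obtain ⟨p, hp, rfl⟩ := mem_support_toPl N hP
    refine hS p hp ?_
    rw [Finset.mem_biUnion]
    exact ⟨q, hq, by rw [Set.Finite.mem_toFinset]; exact hPq⟩

/-- **The fields `d₀`, `rep` of `HG.CurveD₀`**, for any setting whose rational divisors are the
`U₀`-stable divisors off `∞` (`SettingInst.mem_RatU_iff`), any subgroup `J` of `U₀`-fixed classes
and any class map equal to `clPl` on the rational divisors. -/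
theorem rep_field {t : FN N} {m : ℕ} (𝒮 : HG.Setting absFamily (placeInfL Qb N) t m)
    (U₀ : Subgroup GQ)
    (h𝒮 : ∀ D : Pl N →₀ ℕ, D ∈ 𝒮.RatU ↔ D (placeInfL Qb N) = 0 ∧
      ∀ σ ∈ U₀, D.mapDomain (fun P => arithmeticGalois (modularFunctionFieldFull N) σ • P) = D)
    (J : AddSubgroup (JZero N)) (hJ : ∀ x ∈ J, ∀ σ ∈ U₀, σ • x = x)
    (cl : (Pl N →₀ ℕ) →+ J) (hcl : ∀ D ∈ 𝒮.RatU, (cl D : JZero N) = clPl N D) :
    ∃ d₀ : ℕ, ∀ (x : J) (S : Finset (Pl N)), ∃ D ∈ 𝒮.RatU, cl D = x ∧ HQ.deg D ≤ d₀ ∧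
      ∀ p ∈ D.support, ∀ q ∈ S, 𝒮.far p q := by
  have ht : ∀ c : Qb, t ≠ algebraMap Qb (FN N) c := fun c h =>
    HG.RecUp.t_sub_ne_zero 𝒮 c (sub_eq_zero.mpr h)
  obtain ⟨d₀, h⟩ := exists_rep_pl N ht
  refine ⟨d₀, fun x S => ?_⟩
  obtain ⟨D, hD0, hDU, hDcl, hDdeg, hDS⟩ := h U₀ (x : JZero N) (hJ _ x.2) S
  have hmem : D ∈ 𝒮.RatU := (h𝒮 D).mpr ⟨hD0, hDU⟩
  refine ⟨D, hmem, ?_, hDdeg, hDS⟩
  apply Subtype.ext
  rw [hcl D hmem, hDcl]

end Fermat.Agent.MW.Gen.PlBridge
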