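/-
MW / Gen / ClSeam (helper9) — SEAM TEST of the fields `cl`, `d₀`, `rep` of `HG.CurveD₀` for the
modular setting `HG.SettingInst.modSetting` and `J := FixedPoints.addSubgroup ↥U₀ (JZero N)`
(as an `AddSubgroup (JZero N)`; the `J` of `MW/Top/Wire.lean`).

Suppliers: `Gen.PlBridge.exists_cl` (helper69, through helper33's `HG.ClOrbit`),
`Gen.PlBridge.rep_field`, and `Gen.ClassZero` (helper83) for the class-zero fields.
Output: the binders `cl`, `hcl0`, `hfun`, `d₀`, `hrep` of `HG.CurveInst.mkD₀` verbatim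
(`exists_cl_fields_closed`), and the `CurveD₀` term from the remaining function-level data
(`nonempty_curveD₀`).

SEAM FOUND: `Gen.PlBridge.clPl` (`= clFull ∘ ofPl`) and `Gen.ClassZero.clPl` (`= mk ∘ zDeg0`) are
two different terms; they agree on the divisors off `∞` (`clPl_eq`), which is all that is used.
-/
import Mathlib
import Fermat.Agent.MW.Gen.PlBridge
import Fermat.Agent.MW.Gen.ClassZero
import Fermat.Agent.MW.HG.SettingInst
import Fermat.Agent.MW.HG.CurveInst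

set_option autoImplicit false

noncomputable section

namespace Fermat.Agent.MW.Gen.ClSeam

open AlgebraicCurve ModularCurve
open Fermat.Agent.MW Fermat.Agent.MW.HtM Fermat.Agent.MW.HQ Fermat.Agent.MW.HG
open Fermat.Agent.MW.HG.SettingInst Fermat.Agent.MW.Gen.PlBridge
open Fermat.Agent.MW.Ht.AbsQb Fermat.Agent.Lib.FF.PlaceInf

local notation "Qb" => AlgebraicClosure ℚ
local notation "GQ" => (AlgebraicClosure ℚ ≃ₐ[ℚ] AlgebraicClosure ℚ)

variable {N : ℕ} [NeZero N]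
variable {t : ↥(modularFunctionFieldBar N)} {m : ℕ}

/-- The group of `U₀`-fixed classes, as a subgroup of `JZero N`. -/
abbrev JU (N : ℕ) [NeZero N] (U₀ : Subgroup GQ) : AddSubgroup (JZero N) :=
  FixedPoints.addSubgroup ↥U₀ (JZero N)

theorem mem_JU {U₀ : Subgroup GQ} {x : JZero N} : x ∈ JU N U₀ ↔ ∀ σ ∈ U₀, σ • x = x := by
  rw [FixedPoints.mem_addSubgroup]
  exact ⟨fun h σ hσ => h ⟨σ, hσ⟩, fun h u => h (u : GQ) u.2⟩

/-- The rational points lie in `JU`. -/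
theorem fixed_mem_JU (U₀ : Subgroup GQ) (x : JZero N) (hx : ∀ σ : GQ, σ • x = x) :
    x ∈ JU N U₀ :=
  mem_JU.mpr fun σ _ => hx σ

/-- **Seam `cl` + `rep`**: for the modular setting there are `cl`, `d₀` with `cl = clPl` on the
rational divisors and the field `rep` of `CurveD₀` verbatim. -/
theorem exists_cl_rep (L : LocalHt absFamily (placeInfL Qb N) t m) (hm : 0 < m)
    (htfix : ∀ σ : GQ, gal N σ • t = t)
    (htreg : ∀ P : Place Qb ↥(modularFunctionFieldBar N), P ≠ placeInfL Qb N → 0 ≤ P.ord t)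
    (htpole : (placeInfL Qb N).ord t = -(m : ℤ))
    (U₀ : Subgroup GQ) (Sg₀ : Finset GQ)
    (hS : Subgroup.IsComplement (Sg₀ : Set GQ) (U₀ : Set GQ)) :
    ∃ cl : (Place Qb ↥(modularFunctionFieldBar N) →₀ ℕ) →+ ↥(JU N U₀),
      (∀ D ∈ (modSetting L hm htfix htreg htpole U₀ Sg₀ hS).RatU,
        (cl D : JZero N) = clPl N D) ∧
      ∃ d₀ : ℕ, ∀ (x : ↥(JU N U₀)) (S : Finset (Place Qb ↥(modularFunctionFieldBar N))),
        ∃ D ∈ (modSetting L hm htfix htreg htpole U₀ Sg₀ hS).RatU, cl D = x ∧ deg D ≤ d₀ ∧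
          ∀ p ∈ D.support, ∀ q ∈ S, (modSetting L hm htfix htreg htpole U₀ Sg₀ hS).far p q := by
  obtain ⟨cl, hcl⟩ := exists_cl N U₀ (JU N U₀) (fun x hx => mem_JU.mpr hx)
  have hcl' : ∀ D ∈ (modSetting L hm htfix htreg htpole U₀ Sg₀ hS).RatU,
      (cl D : JZero N) = clPl N D := fun D hD =>
    hcl D ((mem_RatU_iff L hm htfix htreg htpole U₀ Sg₀ hS).mp hD).2
  refine ⟨cl, hcl', ?_⟩
  exact rep_field N (modSetting L hm htfix htreg htpole U₀ Sg₀ hS) U₀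
    (fun _ => mem_RatU_iff L hm htfix htreg htpole U₀ Sg₀ hS) (JU N U₀)
    (fun x hx => mem_JU.mp hx) cl hcl'

/-- **Seam of the whole `cl`-group of fields** of `CurveD₀` (`cl`, `hcl0`, `hfun`, `d₀`, `hrep` in the
literal binder shapes of `HG.CurveInst.mkD₀`) for the modular setting, from the two RAW class-zero
statements:

* `hzero` : the divisor of zeros (off `∞`) of a nonzero function has class `0`;
* `hfix`  : a `U₀`-stable effective divisor off `∞` of class `0` is the divisor of zeros of a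
            nonzero `U₀`-fixed function. -/
theorem exists_cl_fields (L : LocalHt absFamily (placeInfL Qb N) t m) (hm : 0 < m)
    (htfix : ∀ σ : GQ, gal N σ • t = t)
    (htreg : ∀ P : Place Qb ↥(modularFunctionFieldBar N), P ≠ placeInfL Qb N → 0 ≤ P.ord t)
    (htpole : (placeInfL Qb N).ord t = -(m : ℤ))
    (U₀ : Subgroup GQ) (Sg₀ : Finset GQ)
    (hS : Subgroup.IsComplement (Sg₀ : Set GQ) (U₀ : Set GQ))
    (hzero : ∀ (ψ : ↥(modularFunctionFieldBar N))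
      (Z : Place Qb ↥(modularFunctionFieldBar N) →₀ ℕ), ψ ≠ 0 →
      IsZDiv (placeInfL Qb N) ψ Z → clPl N Z = 0)
    (hfix : ∀ Z : Place Qb ↥(modularFunctionFieldBar N) →₀ ℕ, Z (placeInfL Qb N) = 0 →
      (∀ σ ∈ U₀, Z.mapDomain (fun P => gal N σ • P) = Z) → clPl N Z = 0 →
      ∃ ψ : ↥(modularFunctionFieldBar N), ψ ≠ 0 ∧ (∀ σ ∈ U₀, gal N σ • ψ = ψ) ∧
        IsZDiv (placeInfL Qb N) ψ Z) :
    ∃ (cl : (Place Qb ↥(modularFunctionFieldBar N) →₀ ℕ) →+ ↥(JU N U₀)) (d₀ : ℕ),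
      (∀ D ∈ (modSetting L hm htfix htreg htpole U₀ Sg₀ hS).RatU,
        (cl D : JZero N) = clPl N D) ∧
      (∀ ψ : ↥(modularFunctionFieldBar N), ψ ≠ 0 →
        (∀ u ∈ (modSetting L hm htfix htreg htpole U₀ Sg₀ hS).U, u • ψ = ψ) →
        ∀ Z : Place Qb ↥(modularFunctionFieldBar N) →₀ ℕ,
          IsZDiv (placeInfL Qb N) ψ Z → cl Z = 0) ∧
      (∀ Z ∈ (modSetting L hm htfix htreg htpole U₀ Sg₀ hS).RatU, cl Z = 0 →
        ∃ ψ : ↥(modularFunctionFieldBar N), ψ ≠ 0 ∧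
          (∀ u ∈ (modSetting L hm htfix htreg htpole U₀ Sg₀ hS).U, u • ψ = ψ) ∧
          IsZDiv (placeInfL Qb N) ψ Z) ∧
      (∀ (x : ↥(JU N U₀)) (S : Finset (Place Qb ↥(modularFunctionFieldBar N))),
        ∃ D ∈ (modSetting L hm htfix htreg htpole U₀ Sg₀ hS).RatU, cl D = x ∧ deg D ≤ d₀ ∧
          ∀ p ∈ D.support, ∀ q ∈ S,
            (modSetting L hm htfix htreg htpole U₀ Sg₀ hS).far p q) := by
  obtain ⟨cl, hcl, d₀, hrep⟩ := exists_cl_rep L hm htfix htreg htpole U₀ Sg₀ hS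
  refine ⟨cl, d₀, hcl, ?_, ?_, hrep⟩
  · -- the divisor of zeros of a `U`-fixed function is rational, of class `0`
    intro ψ hψ hfixψ Z hZ
    have hZmem : Z ∈ (modSetting L hm htfix htreg htpole U₀ Sg₀ hS).RatU := by
      refine ⟨hZ.1, fun u hu => ?_⟩
      have h1 := HG.RecUp.isZDiv_smul (modSetting L hm htfix htreg htpole U₀ Sg₀ hS)
        ((modSetting L hm htfix htreg htpole U₀ Sg₀ hS).U_le hu) hZ
      rw [hfixψ u hu] at h1
      exact HG.RecUp.isZDiv_unique h1 hZ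
    apply Subtype.ext
    rw [hcl Z hZmem, hzero ψ Z hψ hZ]
    rfl
  · intro Z hZ hclZ
    have hZ' := (mem_RatU_iff L hm htfix htreg htpole U₀ Sg₀ hS).mp hZ
    have h0 : clPl N Z = 0 := by
      rw [← hcl Z hZ, hclZ]
      rfl
    obtain ⟨ψ, hψ, hψfix, hψZ⟩ := hfix Z hZ'.1 hZ'.2 h0
    refine ⟨ψ, hψ, fun u hu => ?_, hψZ⟩
    obtain ⟨σ, hσ, rfl⟩ := (mem_U L hm htfix htreg htpole U₀ Sg₀ hS).mp hu
    exact hψfix σ hσ

/-- **The two class maps agree** off `∞`: `Gen.ClassZero.clPl` (`[Z − deg Z · ∞]` through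
`zDeg0`) and `Gen.PlBridge.clPl` (`clFull ∘ ofPl`). -/
theorem clPl_eq (Z : Place Qb ↥(modularFunctionFieldBar N) →₀ ℕ)
    (h : Z (placeInfL Qb N) = 0) :
    Fermat.Agent.MW.Gen.ClassZero.clPl N Z = clPl N Z := by
  have h1 : toPl N (ofPl N Z) = Z := toPl_ofPl N h
  conv_lhs => rw [← h1]
  exact Fermat.Agent.MW.Gen.ClassZero.clPl_mapDomain_val N (ofPl N Z)

/-- The raw statement `hzero` of `exists_cl_fields`, from `Gen.ClassZero`. -/
theorem hzero_closed (ψ : ↥(modularFunctionFieldBar N))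
    (Z : Place Qb ↥(modularFunctionFieldBar N) →₀ ℕ) (hψ : ψ ≠ 0)
    (hZ : IsZDiv (placeInfL Qb N) ψ Z) : clPl N Z = 0 := by
  rw [← clPl_eq Z hZ.1]
  exact Fermat.Agent.MW.Gen.ClassZero.clPl_eq_zero_of_isZDiv N hψ hZ

/-- The raw statement `hfix` of `exists_cl_fields`, from `Gen.ClassZero`. -/
theorem hfix_closed (U₀ : Subgroup GQ)
    (Z : Place Qb ↥(modularFunctionFieldBar N) →₀ ℕ) (hZ0 : Z (placeInfL Qb N) = 0)
    (hZU : ∀ σ ∈ U₀, Z.mapDomain (fun P => gal N σ • P) = Z) (hcl : clPl N Z = 0) :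
    ∃ ψ : ↥(modularFunctionFieldBar N), ψ ≠ 0 ∧ (∀ σ ∈ U₀, gal N σ • ψ = ψ) ∧
      IsZDiv (placeInfL Qb N) ψ Z := by
  obtain ⟨ψ, hψ, hfix, -, -, hZψ⟩ :=
    Fermat.Agent.MW.Gen.ClassZero.exists_fixed_fun N (U₀ : Set GQ) hZ0
      (fun σ hσ => hZU σ hσ) (by rw [clPl_eq Z hZ0]; exact hcl)
  exact ⟨ψ, hψ, fun σ hσ => hfix σ hσ, hZψ⟩

/-- **The `cl`-group of fields of `CurveD₀` for the modular setting, CLOSED** (no hypothesis):
`cl`, `d₀` with the binders `hcl0`, `hfun`, `hrep` of `HG.CurveInst.mkD₀` verbatim. -/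
theorem exists_cl_fields_closed (L : LocalHt absFamily (placeInfL Qb N) t m) (hm : 0 < m)
    (htfix : ∀ σ : GQ, gal N σ • t = t)
    (htreg : ∀ P : Place Qb ↥(modularFunctionFieldBar N), P ≠ placeInfL Qb N → 0 ≤ P.ord t)
    (htpole : (placeInfL Qb N).ord t = -(m : ℤ))
    (U₀ : Subgroup GQ) (Sg₀ : Finset GQ)
    (hS : Subgroup.IsComplement (Sg₀ : Set GQ) (U₀ : Set GQ)) :
    ∃ (cl : (Place Qb ↥(modularFunctionFieldBar N) →₀ ℕ) →+ ↥(JU N U₀)) (d₀ : ℕ),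
      (∀ D ∈ (modSetting L hm htfix htreg htpole U₀ Sg₀ hS).RatU,
        (cl D : JZero N) = clPl N D) ∧
      (∀ ψ : ↥(modularFunctionFieldBar N), ψ ≠ 0 →
        (∀ u ∈ (modSetting L hm htfix htreg htpole U₀ Sg₀ hS).U, u • ψ = ψ) →
        ∀ Z : Place Qb ↥(modularFunctionFieldBar N) →₀ ℕ,
          IsZDiv (placeInfL Qb N) ψ Z → cl Z = 0) ∧
      (∀ Z ∈ (modSetting L hm htfix htreg htpole U₀ Sg₀ hS).RatU, cl Z = 0 →
        ∃ ψ : ↥(modularFunctionFieldBar N), ψ ≠ 0 ∧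
          (∀ u ∈ (modSetting L hm htfix htreg htpole U₀ Sg₀ hS).U, u • ψ = ψ) ∧
          IsZDiv (placeInfL Qb N) ψ Z) ∧
      (∀ (x : ↥(JU N U₀)) (S : Finset (Place Qb ↥(modularFunctionFieldBar N))),
        ∃ D ∈ (modSetting L hm htfix htreg htpole U₀ Sg₀ hS).RatU, cl D = x ∧ deg D ≤ d₀ ∧
          ∀ p ∈ D.support, ∀ q ∈ S,
            (modSetting L hm htfix htreg htpole U₀ Sg₀ hS).far p q) :=
  exists_cl_fields L hm htfix htreg htpole U₀ Sg₀ hS hzero_closed (hfix_closed U₀)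

/-- **The `CurveD₀` term for the modular setting** with `J` the `U₀`-fixed classes, from the
remaining function-level data (`ram`, the fixed bases `w`, `w₁`, the family `κ`, the ramification
divisor `𝔯`): the fields `mle`, `lip`, `harch`, `cl`, `cl_zdiv`, `exists_fun`, `d₀`, `rep`,
`w_norm`, `w_zdiv`, … are closed. -/
theorem nonempty_curveD₀ (L : LocalHt absFamily (placeInfL Qb N) t m) (hm : 0 < m)
    (htfix : ∀ σ : GQ, gal N σ • t = t)
    (htreg : ∀ P : Place Qb ↥(modularFunctionFieldBar N), P ≠ placeInfL Qb N → 0 ≤ P.ord t)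
    (htpole : (placeInfL Qb N).ord t = -(m : ℤ))
    (U₀ : Subgroup GQ) (Sg₀ : Finset GQ)
    (hS : Subgroup.IsComplement (Sg₀ : Set GQ) (U₀ : Set GQ))
    {x : ↥(modularFunctionFieldBar N)}
    (h : Fermat.Agent.Lib.FF.IsFF1 Qb ↥(modularFunctionFieldBar N) x)
    (hram : (modSetting L hm htfix htreg htpole U₀ Sg₀ hS).RamLe)
    (γ : ℕ) (l : ℕ → ℕ) (w : ∀ M : ℕ, Fin (l M) → ↥(modularFunctionFieldBar N))
    (hw : ∀ M, CurveInst.IsFixedBasis (modSetting L hm htfix htreg htpole U₀ Sg₀ hS) (w M) M)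
    (MK : ℕ) (hMK : MK + 1 ≤ 2 * γ) (κ : Fin γ → ↥(modularFunctionFieldBar N))
    (hκ : (modSetting L hm htfix htreg htpole U₀ Sg₀ hS).Fam κ MK)
    (𝔯 : Place Qb ↥(modularFunctionFieldBar N) →₀ ℕ) (h𝔯inf : 𝔯 (placeInfL Qb N) = 0)
    (h𝔯 : ∀ P : Place Qb ↥(modularFunctionFieldBar N), P ≠ placeInfL Qb N →
      (𝔯 P : ℤ) = P.ord (t - algebraMap Qb _ (pval P t)) - 1)
    (hRH : 2 * γ + m ≤ deg 𝔯 + 1)
    (n : ℕ) (w₁ : Fin (n + 1) → ↥(modularFunctionFieldBar N))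
    (hw₁ : CurveInst.IsFixedBasis (modSetting L hm htfix htreg htpole U₀ Sg₀ hS) w₁ (n + γ)) :
    ∃ 𝒟 : CurveD₀ (modSetting L hm htfix htreg htpole U₀ Sg₀ hS) ↥(JU N U₀),
      𝒟.γ = γ ∧ 𝒟.n = n ∧ 𝒟.MK = MK ∧ 𝒟.𝔯 = 𝔯 ∧
      (∀ D ∈ (modSetting L hm htfix htreg htpole U₀ Sg₀ hS).RatU,
        (𝒟.cl D : JZero N) = clPl N D) := by
  obtain ⟨cl, d₀, hcl, hcl0, hfun, hrep⟩ :=
    exists_cl_fields_closed L hm htfix htreg htpole U₀ Sg₀ hS
  exact ⟨CurveInst.mkD₀ _ h (modSetting_mle L hm htfix htreg htpole U₀ Sg₀ hS)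
    (modSetting_lip L hm htfix htreg htpole U₀ Sg₀ hS) hram harch_absFamily γ cl l w hw hcl0 hfun
    d₀ hrep MK hMK κ hκ 𝔯 h𝔯inf h𝔯 hRH n w₁ hw₁, rfl, rfl, rfl, rfl, hcl⟩

end Fermat.Agent.MW.Gen.ClSeam
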