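/-
MW / function-field instance side (helper83) — the hypotheses `hcl0` and `hfun` of
`HG.CurveInst.mkD₀` / `nonempty_curveD` (helper4) in their LITERAL shape, for the modular function
field and any class map `cl` equal to helper69's `PlBridge.clPl N` on the rational divisors
(e.g. the one of `PlBridge.exists_cl`).

* `clPl_eq` : `ClassZero.clPl N = PlBridge.clPl N` (both are `Z ↦ [Z − deg Z · ∞]`);
* `hcl0` : the divisor of zeros of a nonzero `U`-fixed function has `cl = 0`;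
* `hfun` : a rational divisor with `cl = 0` is the divisor of zeros of a `U`-fixed function;
* `hfun_ord` : the same with `RegOff` and the exact pole order `deg Z` at `∞`.
-/
import Mathlib
import Fermat.Agent.MW.Gen.ClassZero
import Fermat.Agent.MW.Gen.PlBridge

set_option autoImplicit false
set_option linter.unusedSectionVars false

noncomputable section

namespace Fermat.Agent.MW.Gen.ClassZeroInst

open AlgebraicCurve ModularCurve
open Fermat.Agent.MW Fermat.Agent.MW.Ht.Defs Fermat.Agent.MW.HG Fermat.Agent.MW.HtM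
open Fermat.Agent.Lib.FF.PlaceInf

local notation "Qb" => AlgebraicClosure ℚ
local notation "GQ" => (AlgebraicClosure ℚ ≃ₐ[ℚ] AlgebraicClosure ℚ)

variable (N : ℕ) [NeZero N]

/-- The two descriptions of the class map `Z ↦ [Z − deg Z · ∞]` on effective divisors of places
agree. -/
theorem clPl_eq (Z : Pl N →₀ ℕ) : ClassZero.clPl N Z = PlBridge.clPl N Z := by
  induction Z using Finsupp.induction_linear with
  | zero => rw [map_zero, map_zero]
  | add D E hD hE => rw [map_add, map_add, hD, hE]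
  | single P n =>
    by_cases hP : P = pinf N
    · rw [hP]
      have h1 : ClassZero.clPl N (Finsupp.single (pinf N) n) = 0 := by
        rw [ClassZero.clPl_apply]
        have h3 : ClassZero.zDeg0 N (Finsupp.single (pinf N) n) = 0 := by
          apply Subtype.ext
          rw [ClassZero.coe_zDeg0, ClassZero.zdiv_single]
          have h4 : HQ.deg (Finsupp.single (pinf N) n) = n := by
            unfold HQ.deg
            exact Finsupp.sum_single_index rfl
          rw [h4, Finsupp.smul_single, smul_eq_mul, mul_one, sub_self]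
          rfl
        rw [h3]
        rfl
      have h2 : PlBridge.clPl N (Finsupp.single (pinf N) n) = 0 := by
        rw [PlBridge.clPl_apply]
        have h3 : PlBridge.ofPl N (Finsupp.single (pinf N) n) = 0 := by
          ext p
          rw [PlBridge.ofPl_apply, Finsupp.single_eq_of_ne p.2]
          rfl
        rw [h3, map_zero]
      rw [h1, h2]
    · have e : (Finsupp.single P n : Pl N →₀ ℕ)
          = PlBridge.toPl N (Finsupp.single ⟨P, hP⟩ n) := by
        show _ = Finsupp.mapDomain (Subtype.val : Pt N → Pl N) (Finsupp.single ⟨P, hP⟩ n)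
        rw [Finsupp.mapDomain_single]
      rw [e, PlBridge.clPl_toPl]
      exact ClassZero.clPl_mapDomain_val N _

variable {V : Type*} {Ab : AbsFamily Qb V} {t : FN N} {m : ℕ}
  (𝒮 : Setting Ab (placeInfL Qb N) t m)

/-- **`hcl0` of `CurveInst.mkD₀`**: the divisor of zeros of a nonzero `U`-fixed function has
`cl = 0`. -/
theorem hcl0 {J : AddSubgroup (JZero N)} (cl : (Pl N →₀ ℕ) →+ J)
    (hcl : ∀ D ∈ 𝒮.RatU, (cl D : JZero N) = PlBridge.clPl N D) :
    ∀ ψ : FN N, ψ ≠ 0 → (∀ u ∈ 𝒮.U, u • ψ = ψ) →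
      ∀ Z : Place Qb (FN N) →₀ ℕ, IsZDiv (placeInfL Qb N) ψ Z → cl Z = 0 := by
  intro ψ hψ hfix Z hZ
  apply Subtype.ext
  rw [hcl Z (ClassZero.mem_ratU_of_isZDiv 𝒮 hfix hZ), ← clPl_eq]
  exact ClassZero.clPl_eq_zero_of_isZDiv N hψ hZ

/-- **`hfun` of `CurveInst.mkD₀`**, with the extra information (regular off `∞`, pole order
exactly `deg Z` at `∞`). -/
theorem hfun_ord
    (hU : ∀ u ∈ 𝒮.U, ∃ σ : GQ, arithmeticGalois (modularFunctionFieldFull N) σ = u)
    {J : AddSubgroup (JZero N)} (cl : (Pl N →₀ ℕ) →+ J)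
    (hcl : ∀ D ∈ 𝒮.RatU, (cl D : JZero N) = PlBridge.clPl N D) :
    ∀ Z ∈ 𝒮.RatU, cl Z = 0 →
      ∃ ψ : FN N, ψ ≠ 0 ∧ (∀ u ∈ 𝒮.U, u • ψ = ψ) ∧ RegOff (placeInfL Qb N) ψ ∧
        (placeInfL Qb N).ord ψ = -(HQ.deg Z : ℤ) ∧ IsZDiv (placeInfL Qb N) ψ Z := by
  intro Z hZ h0
  have h1 : ClassZero.clPl N Z = 0 := by
    rw [clPl_eq, ← hcl Z hZ, h0]
    rfl
  obtain ⟨ψ, hψ, hfix, hreg, hpole, hZψ⟩ := ClassZero.exists_fixed_fun N
    {σ : GQ | arithmeticGalois (modularFunctionFieldFull N) σ ∈ 𝒮.U} hZ.1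
    (fun σ hσ => hZ.2 _ hσ) h1
  refine ⟨ψ, hψ, fun u hu => ?_, hreg, hpole, hZψ⟩
  obtain ⟨σ, rfl⟩ := hU u hu
  exact hfix σ hu

/-- **`hfun` of `CurveInst.mkD₀`**: a rational divisor with `cl = 0` is the divisor of zeros of
a `U`-fixed function. -/
theorem hfun
    (hU : ∀ u ∈ 𝒮.U, ∃ σ : GQ, arithmeticGalois (modularFunctionFieldFull N) σ = u)
    {J : AddSubgroup (JZero N)} (cl : (Pl N →₀ ℕ) →+ J)
    (hcl : ∀ D ∈ 𝒮.RatU, (cl D : JZero N) = PlBridge.clPl N D) :
    ∀ Z ∈ 𝒮.RatU, cl Z = 0 →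
      ∃ ψ : FN N, ψ ≠ 0 ∧ (∀ u ∈ 𝒮.U, u • ψ = ψ) ∧ IsZDiv (placeInfL Qb N) ψ Z := by
  intro Z hZ h0
  obtain ⟨ψ, hψ, hfix, -, -, hZψ⟩ := hfun_ord N 𝒮 hU cl hcl Z hZ h0
  exact ⟨ψ, hψ, hfix, hZψ⟩

end Fermat.Agent.MW.Gen.ClassZeroInst
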