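/-
MW / GEN-0 (second seat, helper28) — THE DOUBLE-POINT BOUND.

`K` algebraically closed of characteristic zero, `F/K` a function field of one variable,
`t f ∈ F` transcendental with `gcd([F : K(t)], [F : K(f)]) = 1`.  If `T ⊂ K` is a finite set of
values `c` such that the fibre `f = c` contains two DISTINCT places `Q ≠ Q'` (with `t` regular at
both) at which `t` takes the same value, then

  `|T| + g ≤ ([F : K(t)] - 1) * ([F : K(f)] - 1)`.

* `linearIndependent_pow_of_coprime` : `1, t, …, t ^ (n - 1)` are `K(f)`-linearly independent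
  (`n = [F : K(f)]`), because `K(f, t) = F` by coprimality of the degrees;
* `card_bad_values_le` : the bound;
* `exists_finset_bad` : the set of bad values is finite, with at most `(m - 1) * (n - 1)` elements.

Proof of the bound (Riemann–Roch only): the `(a + 1) * n` monomials `f ^ i * t ^ j`
(`i ≤ a`, `j < n`) are `K`-independent and lie in `L(D)`, `D = a * (f)_∞ + (n - 1) * (t)_∞`;
evaluation at the `Q_c` has kernel in `L(D - ∑ (Q_c + Q'_c))`.
-/
import Mathlib
import Fermat.Agent.Lib.FF.WeilCanonical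
import Fermat.Agent.MW.HtM.PVal

set_option autoImplicit false

namespace Fermat.Agent.MW.Gen.DoublePtsB

open AlgebraicCurve IntermediateField Fermat.Agent.Lib.FF

variable {K F : Type*} [Field K] [Field F] [Algebra K F]

/-- `ord` of a natural power. -/
theorem ord_npow (v : Place K F) (x : F) (k : ℕ) : v.ord (x ^ k) = (k : ℤ) * v.ord x := by
  rw [← zpow_natCast, v.ord_zpow]

/-- `[F : K(f)(t)] = [F : K(t)(f)]`. -/
theorem finrank_adjoin_adjoin_comm (t f : F) :
    Module.finrank (K⟮f⟯⟮t⟯) F = Module.finrank (K⟮t⟯⟮f⟯) F := by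
  have h := IntermediateField.adjoin_adjoin_comm K ({f} : Set F) ({t} : Set F)
  have h1 : Module.finrank ((K⟮f⟯⟮t⟯).restrictScalars K) F
      = Module.finrank ((K⟮t⟯⟮f⟯).restrictScalars K) F := by
    rw [h]
  exact h1

/-- Coprime degrees: `1, t, …, t ^ (n - 1)` are `K(f)`-linearly independent, `n = [F : K(f)]`. -/
theorem linearIndependent_pow_of_coprime (t f : F) [FiniteDimensional K⟮t⟯ F]
    [FiniteDimensional K⟮f⟯ F]
    (hcop : Nat.Coprime (Module.finrank K⟮t⟯ F) (Module.finrank K⟮f⟯ F)) :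
    LinearIndependent K⟮f⟯ (fun j : Fin (Module.finrank K⟮f⟯ F) => t ^ (j : ℕ)) := by
  have hint : IsIntegral K⟮f⟯ t := IsIntegral.of_finite _ _
  have h1 : Module.finrank K⟮f⟯ (K⟮f⟯⟮t⟯) = (minpoly K⟮f⟯ t).natDegree :=
    IntermediateField.adjoin.finrank hint
  have h2 : Module.finrank K⟮f⟯ (K⟮f⟯⟮t⟯) * Module.finrank (K⟮f⟯⟮t⟯) F
      = Module.finrank K⟮f⟯ F := by
    have : Module.Free K⟮f⟯ (K⟮f⟯⟮t⟯) := Module.Free.of_divisionRing _ _
    have : Module.Free (K⟮f⟯⟮t⟯) F := Module.Free.of_divisionRing _ _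
    exact Module.finrank_mul_finrank _ _ _
  have h3 : Module.finrank K⟮t⟯ (K⟮t⟯⟮f⟯) * Module.finrank (K⟮t⟯⟮f⟯) F
      = Module.finrank K⟮t⟯ F := by
    have : Module.Free K⟮t⟯ (K⟮t⟯⟮f⟯) := Module.Free.of_divisionRing _ _
    have : Module.Free (K⟮t⟯⟮f⟯) F := Module.Free.of_divisionRing _ _
    exact Module.finrank_mul_finrank _ _ _
  have h4 := finrank_adjoin_adjoin_comm (K := K) t f
  have h5 : Module.finrank (K⟮f⟯⟮t⟯) F = 1 := by
    have hd1 : Module.finrank (K⟮f⟯⟮t⟯) F ∣ Module.finrank K⟮f⟯ F := Dvd.intro_left _ h2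
    have hd2 : Module.finrank (K⟮f⟯⟮t⟯) F ∣ Module.finrank K⟮t⟯ F := by
      rw [h4]; exact Dvd.intro_left _ h3
    exact Nat.eq_one_of_dvd_coprimes hcop hd2 hd1
  have h6 : (minpoly K⟮f⟯ t).natDegree = Module.finrank K⟮f⟯ F := by
    rw [← h1, ← h2, h5, mul_one]
  have h7 := linearIndependent_pow (K := K⟮f⟯) t
  rw [h6] at h7
  exact h7

/-- **The double-point bound.** -/
theorem card_bad_values_le [IsAlgClosed K] [CharZero K] (t f : F) (ht : Transcendental K t)
    (hf : Transcendental K f) [FiniteDimensional K⟮t⟯ F] [FiniteDimensional K⟮f⟯ F]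
    (hcop : Nat.Coprime (Module.finrank K⟮t⟯ F) (Module.finrank K⟮f⟯ F)) (T : Finset K)
    (hT : ∀ c ∈ T, ∃ Q Q' : Place K F, Q ≠ Q' ∧ 0 ≤ Q.ord t ∧ 0 ≤ Q'.ord t ∧
      Q.adicValuation (f - algebraMap K F c) < 1 ∧
      Q'.adicValuation (f - algebraMap K F c) < 1 ∧
      HtM.pval Q t = HtM.pval Q' t) :
    (T.card : ℤ) + genusFF K F ≤
      ((Module.finrank K⟮t⟯ F : ℤ) - 1) * ((Module.finrank K⟮f⟯ F : ℤ) - 1) := by
  classical
  have hFF : IsFF1 K F f := isFF1_of_charZero f hf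
  have hres : ∀ v : Place K F, RR.ResK v := hFF.resK
  have hne : Nonempty (Place K F) := RR.exists_place (K := K) f hf
  have hf0 : f ≠ 0 := by
    rintro rfl
    exact hf (isAlgebraic_zero)
  have ht0 : t ≠ 0 := by
    rintro rfl
    exact ht (isAlgebraic_zero)
  have hm1 : 1 ≤ Module.finrank K⟮t⟯ F := Module.finrank_pos
  have hn1 : 1 ≤ Module.finrank K⟮f⟯ F := Module.finrank_pos
  choose! Q Q' hQ using hT
  -- the special places
  have hspec : ∀ c ∈ T, ∀ v : Place K F, (v = Q c ∨ v = Q' c) →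
      HtM.pval v f = c ∧ 0 ≤ v.ord t ∧ 0 ≤ v.ord f := by
    intro c hc v hv
    obtain ⟨-, h1, h2, h3, h4, -⟩ := hQ c hc
    have key : ∀ w : Place K F, w.adicValuation (f - algebraMap K F c) < 1 → 0 ≤ w.ord f := by
      intro w hw
      apply Fermat.Agent.S24.ord_nonneg_of_mem
      have e : f = (f - algebraMap K F c) + algebraMap K F c := by ring
      rw [e]
      exact add_mem (HtM.mem_of_adicValuation_lt_one w hw) (w.algebraMap_mem' c)
    rcases hv with rfl | rfl
    · exact ⟨HtM.pval_eq _ h3, h1, key _ h3⟩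
    · exact ⟨HtM.pval_eq _ h4, h2, key _ h4⟩
  have hdisj : ∀ c ∈ T, ∀ c' ∈ T, ∀ v : Place K F, (v = Q c ∨ v = Q' c) →
      (v = Q c' ∨ v = Q' c') → c = c' := by
    intro c hc c' hc' v hv hv'
    rw [← (hspec c hc v hv).1, ← (hspec c' hc' v hv').1]
  -- the divisors
  set m := Module.finrank K⟮t⟯ F with hm
  set n := Module.finrank K⟮f⟯ F with hn
  set a : ℕ := 2 * genusFF K F + 2 * T.card with ha
  set D : Divisor K F := (a : ℤ) • RR.poleDiv K f + ((n : ℤ) - 1) • RR.poleDiv K t with hD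
  set Sg : Divisor K F := ∑ c ∈ T, (Finsupp.single (Q c) 1 + Finsupp.single (Q' c) 1) with hSg
  have hDv : ∀ v : Place K F,
      D v = (a : ℤ) * max (-(v.ord f)) 0 + ((n : ℤ) - 1) * max (-(v.ord t)) 0 := by
    intro v
    rw [hD, Finsupp.add_apply, Finsupp.smul_apply, Finsupp.smul_apply, RR.poleDiv_apply,
      RR.poleDiv_apply, smul_eq_mul, smul_eq_mul]
  have hdegD : Divisor.degree D = (a : ℤ) * n + ((n : ℤ) - 1) * m := by
    rw [hD, map_add, map_zsmul, map_zsmul, RR.degree_poleDiv f hf, RR.degree_poleDiv t ht,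
      smul_eq_mul, smul_eq_mul]
  have hdegS : Divisor.degree Sg = 2 * (T.card : ℤ) := by
    rw [hSg, map_sum]
    have : ∀ c ∈ T, Divisor.degree (Finsupp.single (Q c) (1 : ℤ) + Finsupp.single (Q' c) 1)
        = 2 := by
      intro c _
      rw [map_add, Divisor.degree_single, Divisor.degree_single, RR.deg_eq_one (hres _),
        RR.deg_eq_one (hres _)]
      norm_num
    rw [Finset.sum_congr rfl this]
    simp [mul_comm]
  have hDspec : ∀ c ∈ T, ∀ v : Place K F, (v = Q c ∨ v = Q' c) → D v = 0 := by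
    intro c hc v hv
    obtain ⟨-, h1, h2⟩ := hspec c hc v hv
    rw [hDv, max_eq_right (by omega), max_eq_right (by omega)]
    simp
  have hSgv : ∀ v : Place K F, Sg v = ∑ c ∈ T,
      ((Finsupp.single (Q c) (1 : ℤ)) v + (Finsupp.single (Q' c) (1 : ℤ)) v) := by
    intro v
    rw [hSg, Finsupp.finsetSum_apply]
    rfl
  have hSg_le : ∀ c ∈ T, ∀ v : Place K F, (v = Q c ∨ v = Q' c) → Sg v ≤ 1 := by
    intro c hc v hv
    rw [hSgv, Finset.sum_eq_single_of_mem c hc]
    · obtain ⟨hQQ, -⟩ := hQ c hc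
      rw [Finsupp.single_apply, Finsupp.single_apply]
      by_cases h1 : Q c = v
      · have h2 : Q' c ≠ v := fun h2 => hQQ (h1.trans h2.symm)
        rw [if_pos h1, if_neg h2]; norm_num
      · rw [if_neg h1]
        split_ifs <;> norm_num
    · intro c' hc' hcc'
      have h1 : Q c' ≠ v := fun h => hcc' (hdisj c' hc' c hc v (Or.inl h.symm) hv)
      have h2 : Q' c' ≠ v := fun h => hcc' (hdisj c' hc' c hc v (Or.inr h.symm) hv)
      rw [Finsupp.single_apply, Finsupp.single_apply, if_neg h1, if_neg h2, add_zero]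
  have hSg_zero : ∀ v : Place K F, (¬ ∃ c ∈ T, v = Q c ∨ v = Q' c) → Sg v = 0 := by
    intro v hv
    rw [hSgv]
    refine Finset.sum_eq_zero fun c hc => ?_
    have h1 : Q c ≠ v := fun h => hv ⟨c, hc, Or.inl h.symm⟩
    have h2 : Q' c ≠ v := fun h => hv ⟨c, hc, Or.inr h.symm⟩
    rw [Finsupp.single_apply, Finsupp.single_apply, if_neg h1, if_neg h2, add_zero]
  -- the monomials
  set mono : Fin (a + 1) × Fin n → F := fun p => f ^ (p.1 : ℕ) * t ^ (p.2 : ℕ) with hmono
  have hli : LinearIndependent K mono :=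
    RR.linearIndependent_pow_mul f hf (fun j : Fin n => t ^ (j : ℕ))
      (linearIndependent_pow_of_coprime t f hcop) (a + 1)
  set W : Submodule K F := Submodule.span K (Set.range mono) with hW
  have hWfin : Module.Finite K W := FiniteDimensional.span_of_finite K (Set.finite_range mono)
  have hWrank : Module.finrank K W = (a + 1) * n := by
    rw [hW, finrank_span_eq_card hli]
    simp
  have hWL : W ≤ riemannRochSpace D := by
    rw [hW, Submodule.span_le]
    rintro _ ⟨p, rfl⟩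
    rw [SetLike.mem_coe, mem_riemannRochSpace_iff]
    intro v
    right
    rw [hmono]
    show -D v ≤ v.ord (f ^ (p.1 : ℕ) * t ^ (p.2 : ℕ))
    rw [v.ord_mul (pow_ne_zero _ hf0) (pow_ne_zero _ ht0), ord_npow, ord_npow, hDv]
    have hi : ((p.1 : ℕ) : ℤ) ≤ a := by
      have := p.1.2
      omega
    have hj : ((p.2 : ℕ) : ℤ) ≤ (n : ℤ) - 1 := by
      have := p.2.2
      omega
    have hi0 : (0 : ℤ) ≤ ((p.1 : ℕ) : ℤ) := Int.natCast_nonneg _
    have hj0 : (0 : ℤ) ≤ ((p.2 : ℕ) : ℤ) := Int.natCast_nonneg _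
    have e1 := mul_le_mul_of_nonneg_right hi (le_max_right (-(v.ord f)) 0)
    have e2 := mul_le_mul_of_nonneg_left (le_max_left (-(v.ord f)) 0) hi0
    have e3 := mul_le_mul_of_nonneg_right hj (le_max_right (-(v.ord t)) 0)
    have e4 := mul_le_mul_of_nonneg_left (le_max_left (-(v.ord t)) 0) hj0
    linarith
  have hWord : ∀ φ ∈ W, ∀ c ∈ T, ∀ v : Place K F, (v = Q c ∨ v = Q' c) → 0 ≤ v.ord φ := by
    intro φ hφ c hc v hv
    rcases (mem_riemannRochSpace_iff.mp (hWL hφ)) v with h0 | h1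
    · rw [h0, v.ord_zero]
    · rw [hDspec c hc v hv] at h1
      simpa using h1
  have hWreg : ∀ φ ∈ W, ∀ c ∈ T, ∀ v : Place K F, (v = Q c ∨ v = Q' c) →
      φ ∈ v.toValuationSubring := fun φ hφ c hc v hv =>
    Fermat.Agent.S24.mem_of_ord_nonneg v (hWord φ hφ c hc v hv)
  have hWeq : ∀ φ ∈ W, ∀ c ∈ T, HtM.pval (Q c) φ = HtM.pval (Q' c) φ := by
    intro φ hφ c hc
    induction hφ using Submodule.span_induction with
    | mem x hx =>
      obtain ⟨p, rfl⟩ := hx
      obtain ⟨-, h1, h2, h3, h4, h5⟩ := hQ c hc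
      have hs := hspec c hc (Q c) (Or.inl rfl)
      have hs' := hspec c hc (Q' c) (Or.inr rfl)
      have r1 := Fermat.Agent.S24.mem_of_ord_nonneg (Q c) hs.2.2
      have r2 := Fermat.Agent.S24.mem_of_ord_nonneg (Q c) hs.2.1
      have r1' := Fermat.Agent.S24.mem_of_ord_nonneg (Q' c) hs'.2.2
      have r2' := Fermat.Agent.S24.mem_of_ord_nonneg (Q' c) hs'.2.1
      show HtM.pval (Q c) (f ^ (p.1 : ℕ) * t ^ (p.2 : ℕ))
        = HtM.pval (Q' c) (f ^ (p.1 : ℕ) * t ^ (p.2 : ℕ))
      rw [HtM.pval_mul (hres _) (pow_mem r1 _) (pow_mem r2 _),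
        HtM.pval_mul (hres _) (pow_mem r1' _) (pow_mem r2' _),
        HtM.pval_pow (hres _) r1, HtM.pval_pow (hres _) r2,
        HtM.pval_pow (hres _) r1', HtM.pval_pow (hres _) r2', hs.1, hs'.1, h5]
    | zero => rw [HtM.pval_zero, HtM.pval_zero]
    | add x y hx hy ihx ihy =>
      rw [HtM.pval_add (hres _) (hWreg x hx c hc _ (Or.inl rfl)) (hWreg y hy c hc _ (Or.inl rfl)),
        HtM.pval_add (hres _) (hWreg x hx c hc _ (Or.inr rfl)) (hWreg y hy c hc _ (Or.inr rfl)),
        ihx, ihy]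
    | smul k x hx ihx =>
      rw [HtM.pval_smul (hres _) k (hWreg x hx c hc _ (Or.inl rfl)),
        HtM.pval_smul (hres _) k (hWreg x hx c hc _ (Or.inr rfl)), ihx]
  -- the evaluation map
  let Ψ : W →ₗ[K] (T → K) :=
    { toFun := fun φ c => HtM.pval (Q c) (φ : F)
      map_add' := fun φ ψ => by
        funext c
        exact HtM.pval_add (hres _) (hWreg φ φ.2 c c.2 _ (Or.inl rfl))
          (hWreg ψ ψ.2 c c.2 _ (Or.inl rfl))
      map_smul' := fun k φ => by
        funext c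
        exact HtM.pval_smul (hres _) k (hWreg φ φ.2 c c.2 _ (Or.inl rfl)) }
  have hrn := LinearMap.finrank_range_add_finrank_ker Ψ
  have hrange : Module.finrank K (LinearMap.range Ψ) ≤ T.card := by
    refine (Submodule.finrank_le _).trans ?_
    simp
  have hLfin : Module.Finite K (riemannRochSpace (D - Sg)) := RR.finite_L f hf _
  have hmap : (LinearMap.ker Ψ).map W.subtype ≤ riemannRochSpace (D - Sg) := by
    rintro _ ⟨φ, hφker, rfl⟩
    have hφ0 : ∀ c ∈ T, HtM.pval (Q c) (φ : F) = 0 := by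
      intro c hc
      have := LinearMap.mem_ker.mp hφker
      exact congrFun this ⟨c, hc⟩
    rw [Submodule.subtype_apply, mem_riemannRochSpace_iff]
    intro v
    by_cases hz : (φ : F) = 0
    · exact Or.inl hz
    right
    have hLD := ((mem_riemannRochSpace_iff.mp (hWL φ.2)) v).resolve_left hz
    rw [Finsupp.coe_sub, Pi.sub_apply]
    by_cases hv : ∃ c ∈ T, v = Q c ∨ v = Q' c
    · obtain ⟨c, hc, hvc⟩ := hv
      have h1 := hSg_le c hc v hvc
      have h2 := hDspec c hc v hvc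
      have h3 : HtM.pval v (φ : F) = 0 := by
        rcases hvc with rfl | rfl
        · exact hφ0 c hc
        · rw [← hWeq φ φ.2 c hc]; exact hφ0 c hc
      have h4 := (HtM.pval_eq_zero_iff_ord (hres v) hz (hWord φ φ.2 c hc v hvc)).mp h3
      omega
    · rw [hSg_zero v hv]
      simpa using hLD
  have hker : Module.finrank K (LinearMap.ker Ψ)
      ≤ Module.finrank K (riemannRochSpace (D - Sg)) := by
    rw [← Submodule.finrank_map_subtype_eq W (LinearMap.ker Ψ)]
    exact Submodule.finrank_mono hmap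
  have han : (a : ℤ) ≤ (a : ℤ) * n := by
    have : (1 : ℤ) ≤ (n : ℤ) := by exact_mod_cast hn1
    nlinarith [Int.natCast_nonneg a]
  have hnm : (0 : ℤ) ≤ ((n : ℤ) - 1) * m := by
    have h1 : (1 : ℤ) ≤ (n : ℤ) := by exact_mod_cast hn1
    have h2 : (1 : ℤ) ≤ (m : ℤ) := by exact_mod_cast hm1
    nlinarith
  have haZ : (a : ℤ) = 2 * (genusFF K F : ℤ) + 2 * (T.card : ℤ) := by
    rw [ha]; push_cast; ring
  have hL : (Module.finrank K (riemannRochSpace (D - Sg)) : ℤ)
      = Divisor.degree (D - Sg) + 1 - genusFF K F :=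
    WeilCanonical.finrank_L_of_degree hFF (by
      rw [map_sub, hdegD, hdegS]
      linarith)
  rw [map_sub, hdegD, hdegS] at hL
  have hfin : ((a : ℤ) + 1) * n ≤ (T.card : ℤ)
      + Module.finrank K (riemannRochSpace (D - Sg)) := by
    have h1 : (a + 1) * n ≤ T.card + Module.finrank K (riemannRochSpace (D - Sg)) := by
      rw [← hWrank, ← hrn]
      exact Nat.add_le_add hrange hker
    exact_mod_cast h1
  rw [hL] at hfin
  show (T.card : ℤ) + genusFF K F ≤ ((m : ℤ) - 1) * ((n : ℤ) - 1)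
  linarith

/-- **The bad values form a finite set** of at most `(m - 1) * (n - 1)` elements: outside it,
two places of the fibre `f = c` at which `t` is regular and takes the same value coincide. -/
theorem exists_finset_bad [IsAlgClosed K] [CharZero K] (t f : F) (ht : Transcendental K t)
    (hf : Transcendental K f) [FiniteDimensional K⟮t⟯ F] [FiniteDimensional K⟮f⟯ F]
    (hcop : Nat.Coprime (Module.finrank K⟮t⟯ F) (Module.finrank K⟮f⟯ F)) :
    ∃ Tb : Finset K,
      Tb.card ≤ (Module.finrank K⟮t⟯ F - 1) * (Module.finrank K⟮f⟯ F - 1) ∧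
      ∀ c ∉ Tb, ∀ Q Q' : Place K F, 0 ≤ Q.ord t → 0 ≤ Q'.ord t →
        Q.adicValuation (f - algebraMap K F c) < 1 →
        Q'.adicValuation (f - algebraMap K F c) < 1 →
        HtM.pval Q t = HtM.pval Q' t → Q = Q' := by
  classical
  have hm1 : 1 ≤ Module.finrank K⟮t⟯ F := Module.finrank_pos
  have hn1 : 1 ≤ Module.finrank K⟮f⟯ F := Module.finrank_pos
  set B : Set K := {c | ∃ Q Q' : Place K F, Q ≠ Q' ∧ 0 ≤ Q.ord t ∧ 0 ≤ Q'.ord t ∧
      Q.adicValuation (f - algebraMap K F c) < 1 ∧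
      Q'.adicValuation (f - algebraMap K F c) < 1 ∧
      HtM.pval Q t = HtM.pval Q' t} with hB
  have hbound : ∀ T : Finset K, (↑T : Set K) ⊆ B →
      T.card ≤ (Module.finrank K⟮t⟯ F - 1) * (Module.finrank K⟮f⟯ F - 1) := by
    intro T hTB
    have h := card_bad_values_le t f ht hf hcop T (fun c hc => hTB hc)
    have hg : (0 : ℤ) ≤ (genusFF K F : ℤ) := Int.natCast_nonneg _
    have h2 : (T.card : ℤ)
        ≤ (((Module.finrank K⟮t⟯ F - 1) * (Module.finrank K⟮f⟯ F - 1) : ℕ) : ℤ) := by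
      rw [Nat.cast_mul, Nat.cast_sub hm1, Nat.cast_sub hn1]
      push_cast
      linarith
    exact_mod_cast h2
  have hBfin : B.Finite := by
    by_contra hinf
    obtain ⟨T, hTB, hTcard⟩ := (Set.not_finite.mp hinf).exists_subset_card_eq
      ((Module.finrank K⟮t⟯ F - 1) * (Module.finrank K⟮f⟯ F - 1) + 1)
    have := hbound T hTB
    omega
  refine ⟨hBfin.toFinset, hbound _ (by rw [Set.Finite.coe_toFinset]), ?_⟩
  intro c hc Q Q' h1 h2 h3 h4 h5
  by_contra hne
  exact hc (hBfin.mem_toFinset.mpr ⟨Q, Q', hne, h1, h2, h3, h4, h5⟩)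

end Fermat.Agent.MW.Gen.DoublePtsB
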