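/-
MW / HT-Q, function-field row (helper89 #3377 (C); seat helper59): **`Γ`-fixed bases of
`L(M·∞)` on the modular function field, and divisors of zeros.**

Generic (`h : IsFF1 K F x`, a place `pinf`):

* `exists_isZDiv` : a nonzero function `φ` regular off `pinf` has a divisor of zeros
  `Z : Place K F →₀ ℕ` (`HG.IsZDiv pinf φ Z`), of degree `−ord_pinf φ`;
* `isZDiv_unique`, `deg_of_isZDiv` : it is unique, and every divisor of zeros has that degree;
* `exists_isZDiv_le` : pole order `≤ M` at `pinf` gives `deg Z ≤ M`;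
* `sum_smul_mem_rr`, `sum_smul_regOff`, `sum_smul_pole` : combinations of a family in `L(M·pinf)`.

Modular (`F = ℚ̄·F_N`, `∞ = placeInfL Qb N`, `g = genusFF`):

* `l N M = dim L(M·∞)`; `l_eq` : `l N M + g = M + 1` for `2g ≤ M + 1`; `l_canon`;
* `w N M : Fin (l N M) → ℚ̄·F_N` : a basis of `L(M·∞)` of `G_ℚ`-fixed functions
  (`w_fixed`, `w_li`, `w_span`, `w_mem`, `w_reg`, `w_pole`);
* `w_zdiv` : every nonzero combination `∑ a i • w N M i` has a divisor of zeros of degree `≤ M`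
  (the literal field `w_zdiv` of `HG.CurveData₀`);
* `w_fam` : the field `w_fam` (`𝒮.Fam (w N M) M`) for every `HG.Setting` whose group `Γ` consists
  of arithmetic Galois automorphisms;
* `exists_coeff`, `coeff_fixed` : coordinates in the basis, fixed by `σ` when the function is;
* `w1 N n hn : Fin (n + 1) → ℚ̄·F_N` (`hn : g ≤ n + 1`) : the same basis of `L((n + g)·∞)`
  indexed by `Fin (n + 1)` (fields `w₁`, `w₁_li`, `w₁_zdiv` of `HG.CurveData₀` with `M₁ = n + g`).
-/
import Mathlib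
import Fermat.Agent.MW.Ht.GalBridge
import Fermat.Agent.MW.Ht.RamDiv
import Fermat.Agent.MW.HG.Defs
import Fermat.Agent.Lib.FF.WeilCanonical

set_option autoImplicit false

noncomputable section

namespace Fermat.Agent.MW.Gen.FixedBasis

open AlgebraicCurve Module ModularCurve WithZero
open Fermat.Agent.Lib.FF Fermat.Agent.Lib.FF.PlaceInf Fermat.Agent.MW Fermat.Agent.MW.HtM
  Fermat.Agent.MW.HG Fermat.Agent.MW.Ht

local notation "Qb" => AlgebraicClosure ℚ
local notation "GQ" => (AlgebraicClosure ℚ ≃ₐ[ℚ] AlgebraicClosure ℚ)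

/-! ### Generic part: divisors of zeros -/

section Generic

variable {K F : Type*} [Field K] [Field F] [Algebra K F] {x : F}

/-- **The divisor of zeros** of a nonzero function regular off `pinf`, with its degree. -/
theorem exists_isZDiv (h : IsFF1 K F x) {pinf : Place K F} {φ : F} (hφ : φ ≠ 0)
    (hreg : ∀ P : Place K F, P ≠ pinf → 0 ≤ P.ord φ) :
    ∃ Z : Place K F →₀ ℕ, IsZDiv pinf φ Z ∧ (HQ.deg Z : ℤ) = -pinf.ord φ := by
  classical
  have := h.hasPrincipalDivisors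
  obtain ⟨D, hD, hdeg⟩ := HasPrincipalDivisors.exists_divisor (K := K) φ hφ
  set E : Divisor K F := D - Finsupp.single pinf (pinf.ord φ) with hE
  have hEinf : E pinf = 0 := by
    rw [hE, Finsupp.sub_apply, hD, Finsupp.single_eq_same, sub_self]
  have hEP : ∀ P, P ≠ pinf → E P = P.ord φ := by
    intro P hP
    rw [hE, Finsupp.sub_apply, hD, Finsupp.single_apply, if_neg (Ne.symm hP), sub_zero]
  have hE0 : ∀ P, 0 ≤ E P := by
    intro P
    by_cases hP : P = pinf
    · rw [hP, hEinf]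
    · rw [hEP P hP]; exact hreg P hP
  refine ⟨RamDiv.toNatDiv E, ⟨?_, fun P hP => ?_⟩, ?_⟩
  · rw [RamDiv.toNatDiv_apply, hEinf]; rfl
  · rw [RamDiv.coe_toNatDiv (hE0 P), hEP P hP]
  · have h1 := RamDiv.deg_toNatDiv h hE0
    rw [hE, map_sub, hdeg, Divisor.degree_single, h.deg_eq_one, zero_sub] at h1
    rw [h1]
    simp

/-- The divisor of zeros is unique. -/
theorem isZDiv_unique {pinf : Place K F} {φ : F} {Z Z' : Place K F →₀ ℕ}
    (hZ : IsZDiv pinf φ Z) (hZ' : IsZDiv pinf φ Z') : Z = Z' := by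
  ext P
  by_cases hP : P = pinf
  · rw [hP, hZ.1, hZ'.1]
  · have h1 := hZ.2 P hP
    have h2 := hZ'.2 P hP
    have : ((Z P : ℕ) : ℤ) = (Z' P : ℕ) := by rw [h1, h2]
    exact_mod_cast this

/-- Every divisor of zeros of `φ` has degree `−ord_pinf φ`. -/
theorem deg_of_isZDiv (h : IsFF1 K F x) {pinf : Place K F} {φ : F} (hφ : φ ≠ 0)
    {Z : Place K F →₀ ℕ} (hZ : IsZDiv pinf φ Z) : (HQ.deg Z : ℤ) = -pinf.ord φ := by
  have hreg : ∀ P : Place K F, P ≠ pinf → 0 ≤ P.ord φ := fun P hP => by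
    rw [← hZ.2 P hP]
    exact Int.natCast_nonneg _
  obtain ⟨Z', hZ', hdeg⟩ := exists_isZDiv h hφ hreg
  rw [isZDiv_unique hZ hZ']
  exact hdeg

/-- Pole order `≤ M` at `pinf`: the divisor of zeros has degree `≤ M`. -/
theorem exists_isZDiv_le (h : IsFF1 K F x) {pinf : Place K F} {φ : F} (hφ : φ ≠ 0)
    (hreg : ∀ P : Place K F, P ≠ pinf → 0 ≤ P.ord φ) (M : ℕ)
    (hpole : -(M : ℤ) ≤ pinf.ord φ) :
    ∃ Z : Place K F →₀ ℕ, IsZDiv pinf φ Z ∧ HQ.deg Z ≤ M := by
  obtain ⟨Z, hZ, hdeg⟩ := exists_isZDiv h hφ hreg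
  refine ⟨Z, hZ, ?_⟩
  have : (HQ.deg Z : ℤ) ≤ (M : ℤ) := by rw [hdeg]; omega
  exact_mod_cast this

/-- A combination of functions of `L(M·pinf)` lies in `L(M·pinf)`. -/
theorem sum_smul_mem_rr {ι : Type*} [Fintype ι] {pinf : Place K F} {M : ℕ} {w : ι → F}
    (hreg : ∀ i, ∀ P : Place K F, P ≠ pinf → 0 ≤ P.ord (w i))
    (hpole : ∀ i, -(M : ℤ) ≤ pinf.ord (w i)) (a : ι → K) :
    (∑ i, a i • w i) ∈ riemannRochSpace (Finsupp.single pinf (M : ℤ)) :=
  Submodule.sum_mem _ fun i _ => Submodule.smul_mem _ _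
    ((GalBridge.mem_rr_single_iff pinf M (w i)).2 ⟨hreg i, hpole i⟩)

theorem sum_smul_regOff {ι : Type*} [Fintype ι] {pinf : Place K F} {M : ℕ} {w : ι → F}
    (hreg : ∀ i, ∀ P : Place K F, P ≠ pinf → 0 ≤ P.ord (w i))
    (hpole : ∀ i, -(M : ℤ) ≤ pinf.ord (w i)) (a : ι → K) :
    ∀ P : Place K F, P ≠ pinf → 0 ≤ P.ord (∑ i, a i • w i) :=
  ((GalBridge.mem_rr_single_iff pinf M _).1 (sum_smul_mem_rr hreg hpole a)).1

theorem sum_smul_pole {ι : Type*} [Fintype ι] {pinf : Place K F} {M : ℕ} {w : ι → F}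
    (hreg : ∀ i, ∀ P : Place K F, P ≠ pinf → 0 ≤ P.ord (w i))
    (hpole : ∀ i, -(M : ℤ) ≤ pinf.ord (w i)) (a : ι → K) :
    -(M : ℤ) ≤ pinf.ord (∑ i, a i • w i) :=
  ((GalBridge.mem_rr_single_iff pinf M _).1 (sum_smul_mem_rr hreg hpole a)).2

/-- **`w_zdiv`, generic form**: every nonzero combination of a family in `L(M·pinf)` has a
divisor of zeros of degree `≤ M`. -/
theorem exists_isZDiv_sum (h : IsFF1 K F x) {ι : Type*} [Fintype ι] {pinf : Place K F} {M : ℕ}
    {w : ι → F} (hreg : ∀ i, ∀ P : Place K F, P ≠ pinf → 0 ≤ P.ord (w i))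
    (hpole : ∀ i, -(M : ℤ) ≤ pinf.ord (w i)) (a : ι → K) (hne : (∑ i, a i • w i) ≠ 0) :
    ∃ Z : Place K F →₀ ℕ, IsZDiv pinf (∑ i, a i • w i) Z ∧ HQ.deg Z ≤ M :=
  exists_isZDiv_le h hne (sum_smul_regOff hreg hpole a) M (sum_smul_pole hreg hpole a)

end Generic

/-! ### The modular function field -/

section Modular

variable (N : ℕ) [NeZero N]

/-- `l M = dim L(M·∞)`. -/
def l (M : ℕ) : ℕ :=
  finrank Qb (riemannRochSpace (Finsupp.single (placeInfL Qb N) (M : ℤ)))

/-- `l M + g = M + 1` for `2g ≤ M + 1` (Riemann–Roch). -/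
theorem l_eq {M : ℕ} (hM : 2 * genusFF Qb (modularFunctionFieldBar N) ≤ M + 1) :
    l N M + genusFF Qb (modularFunctionFieldBar N) = M + 1 := by
  have h := Fermat.Agent.Lib.FF.Res.isFF1_modular N
  have hdeg : Divisor.degree (Finsupp.single (placeInfL Qb N) (M : ℤ)) = (M : ℤ) := by
    rw [Divisor.degree_single, h.deg_eq_one]
    simp
  have h1 := WeilCanonical.finrank_L_of_degree h
    (D := Finsupp.single (placeInfL Qb N) (M : ℤ)) (by rw [hdeg]; omega)
  rw [hdeg] at h1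
  have h2 : ((l N M : ℕ) : ℤ) = (M : ℤ) + 1 - genusFF Qb (modularFunctionFieldBar N) := h1
  omega

/-- `l (2g − 1) = g` for `g ≥ 1`. -/
theorem l_canon (hg : 0 < genusFF Qb (modularFunctionFieldBar N)) :
    l N (2 * genusFF Qb (modularFunctionFieldBar N) - 1)
      = genusFF Qb (modularFunctionFieldBar N) := by
  have := l_eq N (M := 2 * genusFF Qb (modularFunctionFieldBar N) - 1) (by omega)
  omega

/-- A `G_ℚ`-fixed basis of `L(M·∞)`, indexed by `Fin (l N M)`. -/
theorem exists_basis (M : ℕ) :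
    ∃ f : Fin (l N M) → modularFunctionFieldBar N,
      (∀ i, ∀ σ : GQ, arithmeticGalois (modularFunctionFieldFull N) σ • f i = f i) ∧
      LinearIndependent Qb f ∧
      Submodule.span Qb (Set.range f)
        = riemannRochSpace (Finsupp.single (placeInfL Qb N) (M : ℤ)) ∧
      (∀ i, ∀ P : Place Qb (modularFunctionFieldBar N), P ≠ placeInfL Qb N → 0 ≤ P.ord (f i)) ∧
      (∀ i, -(M : ℤ) ≤ (placeInfL Qb N).ord (f i)) := by
  obtain ⟨r, f, hfix, hli, hspan, hreg, hpole⟩ := GalBridge.exists_rational_basis N M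
  have hr : r = l N M := by
    have h1 := finrank_span_eq_card hli
    rw [hspan, Fintype.card_fin] at h1
    exact h1.symm
  subst hr
  exact ⟨f, hfix, hli, hspan, hreg, hpole⟩

/-- **The `G_ℚ`-fixed basis of `L(M·∞)`.** -/
def w (M : ℕ) : Fin (l N M) → modularFunctionFieldBar N := (exists_basis N M).choose

theorem w_fixed (M : ℕ) (i : Fin (l N M)) (σ : GQ) :
    arithmeticGalois (modularFunctionFieldFull N) σ • w N M i = w N M i :=
  (exists_basis N M).choose_spec.1 i σ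

theorem w_li (M : ℕ) : LinearIndependent Qb (w N M) :=
  (exists_basis N M).choose_spec.2.1

theorem w_span (M : ℕ) :
    Submodule.span Qb (Set.range (w N M))
      = riemannRochSpace (Finsupp.single (placeInfL Qb N) (M : ℤ)) :=
  (exists_basis N M).choose_spec.2.2.1

theorem w_reg (M : ℕ) (i : Fin (l N M)) (P : Place Qb (modularFunctionFieldBar N))
    (hP : P ≠ placeInfL Qb N) : 0 ≤ P.ord (w N M i) :=
  (exists_basis N M).choose_spec.2.2.2.1 i P hP

theorem w_pole (M : ℕ) (i : Fin (l N M)) : -(M : ℤ) ≤ (placeInfL Qb N).ord (w N M i) :=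
  (exists_basis N M).choose_spec.2.2.2.2 i

theorem w_mem (M : ℕ) (i : Fin (l N M)) :
    w N M i ∈ riemannRochSpace (Finsupp.single (placeInfL Qb N) (M : ℤ)) := by
  rw [← w_span N M]
  exact Submodule.subset_span ⟨i, rfl⟩

/-- **The field `w_zdiv` of `HG.CurveData₀`.** -/
theorem w_zdiv (M : ℕ) (a : Fin (l N M) → Qb) (hne : (∑ i, a i • w N M i) ≠ 0) :
    ∃ Z : Place Qb (modularFunctionFieldBar N) →₀ ℕ,
      IsZDiv (placeInfL Qb N) (∑ i, a i • w N M i) Z ∧ HQ.deg Z ≤ M :=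
  exists_isZDiv_sum (Fermat.Agent.Lib.FF.Res.isFF1_modular N) (w_reg N M) (w_pole N M) a hne

/-- Every divisor of zeros of a nonzero combination has degree `≤ M`. -/
theorem deg_le_of_isZDiv (M : ℕ) (a : Fin (l N M) → Qb) (hne : (∑ i, a i • w N M i) ≠ 0)
    {Z : Place Qb (modularFunctionFieldBar N) →₀ ℕ}
    (hZ : IsZDiv (placeInfL Qb N) (∑ i, a i • w N M i) Z) : HQ.deg Z ≤ M := by
  obtain ⟨Z', hZ', hdeg⟩ := w_zdiv N M a hne
  rw [isZDiv_unique hZ hZ']
  exact hdeg

/-- **The field `w_fam` of `HG.CurveData₀`**, for every setting whose `Γ` consists of arithmetic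
Galois automorphisms. -/
theorem w_fam {V : Type*} {Ab : AbsFamily Qb V} {t : modularFunctionFieldBar N} {m : ℕ}
    (𝒮 : Setting Ab (placeInfL Qb N) t m)
    (hΓ : ∀ g ∈ 𝒮.Γ, ∃ σ : GQ, arithmeticGalois (modularFunctionFieldFull N) σ = g) (M : ℕ) :
    𝒮.Fam (w N M) M where
  reg := fun i P hP => w_reg N M i P hP
  pole := fun i => w_pole N M i
  fixed := fun g hg i => by
    obtain ⟨σ, rfl⟩ := hΓ g hg
    exact w_fixed N M i σ

/-- Coordinates in the basis `w N M`. -/
theorem exists_coeff (M : ℕ) {φ : modularFunctionFieldBar N}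
    (hφ : φ ∈ riemannRochSpace (Finsupp.single (placeInfL Qb N) (M : ℤ))) :
    ∃ a : Fin (l N M) → Qb, φ = ∑ i, a i • w N M i := by
  rw [← w_span N M] at hφ
  obtain ⟨a, ha⟩ := (Submodule.mem_span_range_iff_exists_fun Qb).1 hφ
  exact ⟨a, ha.symm⟩

/-- Coordinates, from orders. -/
theorem exists_coeff_of_ord (M : ℕ) {φ : modularFunctionFieldBar N}
    (hreg : ∀ P : Place Qb (modularFunctionFieldBar N), P ≠ placeInfL Qb N → 0 ≤ P.ord φ)
    (hpole : -(M : ℤ) ≤ (placeInfL Qb N).ord φ) :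
    ∃ a : Fin (l N M) → Qb, φ = ∑ i, a i • w N M i :=
  exists_coeff N M ((GalBridge.mem_rr_single_iff _ M φ).2 ⟨hreg, hpole⟩)

/-- The coordinates of a `σ`-fixed function are `σ`-fixed. -/
theorem coeff_fixed (M : ℕ) (σ : GQ) (a : Fin (l N M) → Qb)
    (hφ : arithmeticGalois (modularFunctionFieldFull N) σ • (∑ i, a i • w N M i)
      = ∑ i, a i • w N M i) (i : Fin (l N M)) : σ (a i) = a i :=
  GalBridge.coeff_fixed_of_fixed N (w N M) (w_li N M) σ (fun i => w_fixed N M i σ) a hφ i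

/-- A combination with `σ`-fixed coordinates is `σ`-fixed. -/
theorem smul_sum_of_coeff_fixed (M : ℕ) (σ : GQ) (a : Fin (l N M) → Qb)
    (ha : ∀ i, σ (a i) = a i) :
    arithmeticGalois (modularFunctionFieldFull N) σ • (∑ i, a i • w N M i)
      = ∑ i, a i • w N M i := by
  rw [GalBridge.galois_smul_sum N (w N M) σ (fun i => w_fixed N M i σ) a]
  exact Finset.sum_congr rfl fun i _ => by rw [ha i]

/-! ### The basis of `L((n + g)·∞)` indexed by `Fin (n + 1)` -/

/-- A `G_ℚ`-fixed basis of `L((n + g)·∞)` indexed by `Fin (n + 1)`, for `g ≤ n + 1`. -/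
theorem exists_basis_succ (n : ℕ) (hn : genusFF Qb (modularFunctionFieldBar N) ≤ n + 1) :
    ∃ f : Fin (n + 1) → modularFunctionFieldBar N,
      (∀ i, ∀ σ : GQ, arithmeticGalois (modularFunctionFieldFull N) σ • f i = f i) ∧
      LinearIndependent Qb f ∧
      Submodule.span Qb (Set.range f)
        = riemannRochSpace (Finsupp.single (placeInfL Qb N)
            ((n + genusFF Qb (modularFunctionFieldBar N) : ℕ) : ℤ)) ∧
      (∀ i, ∀ P : Place Qb (modularFunctionFieldBar N), P ≠ placeInfL Qb N → 0 ≤ P.ord (f i)) ∧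
      (∀ i, -((n + genusFF Qb (modularFunctionFieldBar N) : ℕ) : ℤ)
        ≤ (placeInfL Qb N).ord (f i)) := by
  obtain ⟨r, f, hfix, hli, hspan, hreg, hpole⟩ :=
    GalBridge.exists_rational_basis N (n + genusFF Qb (modularFunctionFieldBar N))
  have hr : r = n + 1 := by
    have h1 := finrank_span_eq_card hli
    rw [hspan, Fintype.card_fin] at h1
    have h2 := l_eq N (M := n + genusFF Qb (modularFunctionFieldBar N)) (by omega)
    have h3 : l N (n + genusFF Qb (modularFunctionFieldBar N)) = r := h1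
    omega
  subst hr
  exact ⟨f, hfix, hli, hspan, hreg, hpole⟩

/-- **The basis `w₁`** of `L(M₁·∞)`, `M₁ = n + g`, indexed by `Fin (n + 1)`. -/
def w1 (n : ℕ) (hn : genusFF Qb (modularFunctionFieldBar N) ≤ n + 1) :
    Fin (n + 1) → modularFunctionFieldBar N := (exists_basis_succ N n hn).choose

variable {n : ℕ} (hn : genusFF Qb (modularFunctionFieldBar N) ≤ n + 1)

theorem w1_fixed (i : Fin (n + 1)) (σ : GQ) :
    arithmeticGalois (modularFunctionFieldFull N) σ • w1 N n hn i = w1 N n hn i :=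
  (exists_basis_succ N n hn).choose_spec.1 i σ

theorem w1_li : LinearIndependent Qb (w1 N n hn) :=
  (exists_basis_succ N n hn).choose_spec.2.1

theorem w1_span :
    Submodule.span Qb (Set.range (w1 N n hn))
      = riemannRochSpace (Finsupp.single (placeInfL Qb N)
          ((n + genusFF Qb (modularFunctionFieldBar N) : ℕ) : ℤ)) :=
  (exists_basis_succ N n hn).choose_spec.2.2.1

theorem w1_reg (i : Fin (n + 1)) (P : Place Qb (modularFunctionFieldBar N))
    (hP : P ≠ placeInfL Qb N) : 0 ≤ P.ord (w1 N n hn i) :=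
  (exists_basis_succ N n hn).choose_spec.2.2.2.1 i P hP

theorem w1_pole (i : Fin (n + 1)) :
    -((n + genusFF Qb (modularFunctionFieldBar N) : ℕ) : ℤ)
      ≤ (placeInfL Qb N).ord (w1 N n hn i) :=
  (exists_basis_succ N n hn).choose_spec.2.2.2.2 i

/-- **The field `w₁_zdiv` of `HG.CurveData₀`** (with the degree bound). -/
theorem w1_zdiv (a : Fin (n + 1) → Qb) (hne : (∑ i, a i • w1 N n hn i) ≠ 0) :
    ∃ Z : Place Qb (modularFunctionFieldBar N) →₀ ℕ,
      IsZDiv (placeInfL Qb N) (∑ i, a i • w1 N n hn i) Z ∧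
        HQ.deg Z ≤ n + genusFF Qb (modularFunctionFieldBar N) :=
  exists_isZDiv_sum (Fermat.Agent.Lib.FF.Res.isFF1_modular N) (w1_reg N hn) (w1_pole N hn) a hne

/-- **The field `w₁_fam` of `HG.CurveData₀`.** -/
theorem w1_fam {V : Type*} {Ab : AbsFamily Qb V} {t : modularFunctionFieldBar N} {m : ℕ}
    (𝒮 : Setting Ab (placeInfL Qb N) t m)
    (hΓ : ∀ g ∈ 𝒮.Γ, ∃ σ : GQ, arithmeticGalois (modularFunctionFieldFull N) σ = g) :
    𝒮.Fam (w1 N n hn) (n + genusFF Qb (modularFunctionFieldBar N)) where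
  reg := fun i P hP => w1_reg N hn i P hP
  pole := fun i => w1_pole N hn i
  fixed := fun g hg i => by
    obtain ⟨σ, rfl⟩ := hΓ g hg
    exact w1_fixed N hn i σ

/-- Coordinates in the basis `w1`. -/
theorem exists_coeff1 {φ : modularFunctionFieldBar N}
    (hφ : φ ∈ riemannRochSpace (Finsupp.single (placeInfL Qb N)
      ((n + genusFF Qb (modularFunctionFieldBar N) : ℕ) : ℤ))) :
    ∃ a : Fin (n + 1) → Qb, φ = ∑ i, a i • w1 N n hn i := by
  rw [← w1_span N hn] at hφ
  obtain ⟨a, ha⟩ := (Submodule.mem_span_range_iff_exists_fun Qb).1 hφ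
  exact ⟨a, ha.symm⟩

/-- The coordinates of a `σ`-fixed function in `w1` are `σ`-fixed. -/
theorem coeff1_fixed (σ : GQ) (a : Fin (n + 1) → Qb)
    (hφ : arithmeticGalois (modularFunctionFieldFull N) σ • (∑ i, a i • w1 N n hn i)
      = ∑ i, a i • w1 N n hn i) (i : Fin (n + 1)) : σ (a i) = a i :=
  GalBridge.coeff_fixed_of_fixed N (w1 N n hn) (w1_li N hn) σ (fun i => w1_fixed N hn i σ) a hφ i

end Modular

end Fermat.Agent.MW.Gen.FixedBasis
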