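/-
MW / HT-Q, the field `translates` of `HG.CurveD` (helper50): ASSEMBLY OF `CurveD₀.Good`.

The literal body of `HG.CurveD₀.Good` (`MW/HG/Curve2.lean`) from the raw outputs of

* the good-translate lemma (`MW/Ht/GoodTranslateInj(C).lean`, `MW/Ht/GoodTranslateJ.lean`):
  a reduced effective divisor `E` of degree `γ` off `pinf`, stable under `U`, with `l(E) = 1`,
  `L((2γ − 1) · pinf − E) = 0`, `t` injective on its support;
* the residual/pencil lemma (`MW/Gen/PencilB.lean` and GEN-2): a `U`-fixed function `ψ` whose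
  divisor of zeros off `pinf` is `E + R`, reduced of degree `M₁`, `t` injective on the support of
  `R`, with `R` in `t`-general position with respect to `E` and to the ramification divisor.

Contents:
* `exists_tdiv_of_reduced`: a reduced divisor of degree `k` is the divisor of an injective
  `k`-tuple of places;
* `isZDiv_apply_smul`, `mapDomain_smul_eq_of_apply`, `apply_smul_of_mapDomain`: stability of the
  divisor of zeros of a fixed function;
* `ufix_of_fixed`: the coefficient vector of a `U`-fixed function in a `Γ`-fixed linearly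
  independent family is `U`-fixed;
* `good_of_raw`: the assembly, all inputs in the `ℕ`-valued vocabulary, `ψ` in the span of `w₁`;
* `mem_span_of_finrank`, `good_of_finrank`: the same with `l(M₁ · pinf) = n + 1` instead of the
  span hypothesis;
* `exists_fibres_finset`, `far_of_off`: the finite set of places to avoid and the resulting
  general position;
* `good_of_divisor`: the assembly from a `ℤ`-valued divisor with the literal conclusions of
  `GoodTranslateInj.exists_good_translate_inj`.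
-/
import Mathlib
import Fermat.Agent.MW.HG.Curve2
import Fermat.Agent.MW.Ht.DetMinor
import Fermat.Agent.MW.Ht.RamDiv

set_option autoImplicit false

noncomputable section

namespace Fermat.Agent.MW.Gen.GoodAsm

open AlgebraicCurve Module
open Fermat.Agent.Lib.FF Fermat.Agent.MW Fermat.Agent.MW.HtM Fermat.Agent.MW.HQ
open Fermat.Agent.MW.HG

variable {K F V : Type*} [Field K] [Field F] [Algebra K F]

/-! ### Enumeration of reduced divisors -/

open Classical in
/-- The value at `v` of the divisor of an injective tuple of places. -/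
theorem tdiv_apply_of_injective {n : ℕ} (P : Fin n → Place K F) (hP : Function.Injective P)
    (v : Place K F) : tdiv P v = if ∃ j, P j = v then 1 else 0 := by
  classical
  unfold tdiv
  rw [Finsupp.finsetSum_apply]
  split_ifs with hv
  · obtain ⟨j₀, rfl⟩ := hv
    rw [Finset.sum_eq_single j₀]
    · rw [Finsupp.single_eq_same]
    · intro j _ hj
      exact Finsupp.single_eq_of_ne (fun h => hj (hP h.symm))
    · intro h
      exact absurd (Finset.mem_univ j₀) h
  · refine Finset.sum_eq_zero fun j _ => ?_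
    exact Finsupp.single_eq_of_ne (fun h => hv ⟨j, h.symm⟩)

/-- The support of the divisor of a tuple. -/
theorem mem_support_tdiv {n : ℕ} (P : Fin n → Place K F) (v : Place K F) :
    v ∈ (tdiv P).support ↔ ∃ j, P j = v := by
  classical
  unfold tdiv
  rw [Finsupp.mem_support_iff, Finsupp.finsetSum_apply]
  constructor
  · intro h
    by_contra hv
    apply h
    refine Finset.sum_eq_zero fun j _ => ?_
    exact Finsupp.single_eq_of_ne (fun e => hv ⟨j, e.symm⟩)
  · rintro ⟨j, rfl⟩ h
    have h1 := Finset.sum_eq_zero_iff.mp h j (Finset.mem_univ j)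
    rw [Finsupp.single_eq_same] at h1
    exact one_ne_zero h1

/-- **A reduced divisor of degree `k` is the divisor of an injective `k`-tuple of places.** -/
theorem exists_tdiv_of_reduced (D : Place K F →₀ ℕ) (hD : ∀ v, D v ≤ 1) (k : ℕ)
    (hk : deg D = k) :
    ∃ P : Fin k → Place K F, Function.Injective P ∧ D = tdiv P ∧ ∀ j, P j ∈ D.support := by
  classical
  have hcard : D.support.card = k := by
    rw [← hk]
    unfold deg Finsupp.sum
    rw [Finset.card_eq_sum_ones]
    refine Finset.sum_congr rfl fun v hv => ?_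
    show 1 = D v
    have h1 := hD v
    have h2 := Finsupp.mem_support_iff.mp hv
    omega
  let e : Fin k ≃ D.support := (Finset.equivFinOfCardEq hcard).symm
  have hinj : Function.Injective fun j => (e j : Place K F) := fun i j hij =>
    e.injective (Subtype.ext hij)
  refine ⟨fun j => (e j : Place K F), hinj, ?_, fun j => (e j).2⟩
  ext v
  rw [tdiv_apply_of_injective _ hinj]
  split_ifs with hv
  · obtain ⟨j, rfl⟩ := hv
    have h1 := hD (e j : Place K F)
    have h2 := Finsupp.mem_support_iff.mp (e j).2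
    omega
  · by_contra hne
    apply hv
    have hmem : v ∈ D.support := Finsupp.mem_support_iff.mpr hne
    exact ⟨e.symm ⟨v, hmem⟩, by rw [Equiv.apply_symm_apply]⟩

/-! ### Stability of divisors of zeros -/

/-- The divisor of zeros of a function fixed by `u` is invariant under `u` (pointwise form). -/
theorem isZDiv_apply_smul {pinf : Place K F} (u : SemilinearAut K F) (hu : u • pinf = pinf)
    {ψ : F} (hψ : u • ψ = ψ) {Z : Place K F →₀ ℕ} (hZ : IsZDiv pinf ψ Z) (P : Place K F) :
    Z (u • P) = Z P := by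
  by_cases hP : P = pinf
  · rw [hP, hu]
  · have hP' : u • P ≠ pinf := by
      intro h
      apply hP
      rw [← hu] at h
      exact MulAction.injective u h
    have h1 := hZ.2 (u • P) hP'
    have h2 := hZ.2 P hP
    have h3 : (u • P).ord ψ = P.ord ψ := by
      conv_lhs => rw [← hψ]
      exact SemilinearAut.ord_smul u P ψ
    exact_mod_cast h1.trans (h3.trans h2.symm)

/-- Pointwise invariance gives invariance under `mapDomain`. -/
theorem mapDomain_smul_eq_of_apply (u : SemilinearAut K F) (D : Place K F →₀ ℕ)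
    (hD : ∀ P, D (u • P) = D P) : D.mapDomain (fun P => u • P) = D := by
  ext Q
  have h1 : (D.mapDomain (fun P => u • P)) (u • (u⁻¹ • Q)) = D (u⁻¹ • Q) :=
    Finsupp.mapDomain_apply (MulAction.injective u) D (u⁻¹ • Q)
  have h2 := hD (u⁻¹ • Q)
  rw [smul_inv_smul] at h1 h2
  rw [h1, h2]

/-- Invariance under `mapDomain` gives pointwise invariance. -/
theorem apply_smul_of_mapDomain (u : SemilinearAut K F) (D : Place K F →₀ ℕ)
    (hD : D.mapDomain (fun P => u • P) = D) (P : Place K F) : D (u • P) = D P := by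
  conv_lhs => rw [← hD]
  exact Finsupp.mapDomain_apply (MulAction.injective u) D P

/-! ### The coefficient vector of a fixed function -/

/-- **The coefficient vector of a `u`-fixed function in a `u`-fixed linearly independent family
is fixed by the base automorphism of `u`.** -/
theorem baseAut_coeff_eq (u : SemilinearAut K F) {ι : Type*} [Fintype ι] (w : ι → F)
    (hw : ∀ i, u • w i = w i) (hli : LinearIndependent K w) (a : ι → K)
    (hψ : u • (∑ i, a i • w i) = ∑ i, a i • w i) (i : ι) :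
    SemilinearAut.baseAut u (a i) = a i := by
  have h1 : u • (∑ i, a i • w i) = ∑ i, SemilinearAut.baseAut u (a i) • w i := by
    rw [Finset.smul_sum]
    refine Finset.sum_congr rfl fun i _ => ?_
    rw [Algebra.smul_def, smul_mul', SemilinearAut.smul_algebraMap, hw i, ← Algebra.smul_def]
  have h2 : ∑ i, (SemilinearAut.baseAut u (a i) - a i) • w i = 0 := by
    simp only [sub_smul, Finset.sum_sub_distrib]
    rw [← h1, hψ, sub_self]
  exact sub_eq_zero.mp (Fintype.linearIndependent_iff.mp hli _ h2 i)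

variable {Ab : AbsFamily K V} {pinf : Place K F} {t : F} {m : ℕ}

/-- The coefficient vector of a `U`-fixed function in a `Γ`-fixed linearly independent family is
`U`-fixed. -/
theorem ufix_of_fixed (𝒮 : Setting Ab pinf t m) {ι : Type*} [Fintype ι] (w : ι → F)
    (hw : ∀ g ∈ 𝒮.Γ, ∀ i, g • w i = w i) (hli : LinearIndependent K w) (a : ι → K)
    (hψ : ∀ u ∈ 𝒮.U, u • (∑ i, a i • w i) = ∑ i, a i • w i) : 𝒮.UFix a := fun u hu i =>
  baseAut_coeff_eq u w (fun i => hw u (𝒮.U_le hu) i) hli a (hψ u hu) i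

/-! ### The assembly -/

/-- **Assembly of `Good`** (all inputs in the `ℕ`-valued vocabulary).

`E` reduced of degree `γ`, rational, `L((2γ − 1) · pinf − E) = 0`, `l(E) = 1`, `t` injective on
its support, in general position with respect to the ramification divisor; `ψ` a `U`-fixed
element of the span of `w₁` with divisor of zeros `E + R` off `pinf`, reduced of degree `M₁`,
`t` injective on the support of `R`, `R` in general position with respect to `E` and to the
ramification divisor.  Then `E` is good. -/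
theorem good_of_raw {x : F} (h : IsFF1 K F x) (𝒮 : Setting Ab pinf t m) {J : Type*}
    [AddCommGroup J] (𝒟 : CurveD₀ 𝒮 J) (hκli : LinearIndependent K 𝒟.κ)
    (Ez : Divisor K F) (E : Place K F →₀ ℕ) (hEz : ∀ v, (E v : ℤ) = Ez v)
    (hE1 : ∀ v, E v ≤ 1) (hEU : E ∈ 𝒮.RatU) (hEdeg : deg E = 𝒟.γ)
    (hEL : riemannRochSpace ((2 * (𝒟.γ : ℤ) - 1) • Finsupp.single pinf (1 : ℤ) - Ez) = ⊥)
    (hlE : finrank K (riemannRochSpace Ez) = 1)
    (hEinj : ∀ v w, E v = 1 → E w = 1 → pval v t = pval w t → v = w)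
    (hE𝔯 : Far 𝒮.far E 𝒟.𝔯)
    (ψ : F) (hψU : ∀ u ∈ 𝒮.U, u • ψ = ψ)
    (hψspan : ψ ∈ Submodule.span K (Set.range 𝒟.w₁))
    (R : Place K F →₀ ℕ) (hZ : IsZDiv pinf ψ (E + R)) (hred : ∀ P, (E + R) P ≤ 1)
    (hRinj : ∀ P ∈ R.support, ∀ Q ∈ R.support, pval P t = pval Q t → P = Q)
    (hER : Far 𝒮.far E R) (hR𝔯 : Far 𝒮.far R 𝒟.𝔯)
    (hdeg : deg (E + R) = 𝒟.M₁) : 𝒟.Good E := by
  classical
  -- the degrees
  have hRdeg : deg R = 𝒟.n := by
    have h1 := deg_add E R
    have h2 := 𝒟.hM₁
    omega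
  have hR1 : ∀ v, R v ≤ 1 := fun v => by
    have h1 := hred v
    rw [Finsupp.add_apply] at h1
    omega
  have hEinf : E pinf = 0 := hEU.1
  have hRinf : R pinf = 0 := by
    have h1 := hZ.1
    rw [Finsupp.add_apply] at h1
    omega
  -- the enumerations
  obtain ⟨P, hPinj, hEP, hPmem⟩ := exists_tdiv_of_reduced E hE1 𝒟.γ hEdeg
  obtain ⟨R', hRinj', hRR', hRmem⟩ := exists_tdiv_of_reduced R hR1 𝒟.n hRdeg
  have hPinf : ∀ j, P j ≠ pinf := fun j e => by
    have h1 := Finsupp.mem_support_iff.mp (hPmem j)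
    rw [e] at h1
    exact h1 hEinf
  have hR'inf : ∀ j, R' j ≠ pinf := fun j e => by
    have h1 := Finsupp.mem_support_iff.mp (hRmem j)
    rw [e] at h1
    exact h1 hRinf
  -- the divisor `Ez` is the divisor of the tuple `P`
  have hEzP : Ez = ∑ j, Finsupp.single (P j) (1 : ℤ) := by
    ext v
    rw [← hEz v, hEP, Ht.DetMinor.tdiv_apply_cast]
  -- the coefficient vector
  obtain ⟨a, ha⟩ := (Submodule.mem_span_range_iff_exists_fun K).mp hψspan
  have hψ0 : ψ ≠ 0 := by
    intro h0
    have hγ : 0 < 𝒟.γ := by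
      have := 𝒟.hMK
      omega
    have h1 := hZ.2 (P ⟨0, hγ⟩) (hPinf _)
    rw [h0, Place.ord_zero] at h1
    have h2 := Finsupp.mem_support_iff.mp (hPmem ⟨0, hγ⟩)
    rw [Finsupp.add_apply] at h1
    have h3 : E (P ⟨0, hγ⟩) + R (P ⟨0, hγ⟩) = 0 := by exact_mod_cast h1
    omega
  have haψ : (∑ i, a i • 𝒟.w₁ i) ≠ 0 := by rw [ha]; exact hψ0
  have hUfix : 𝒮.UFix a := ufix_of_fixed 𝒮 𝒟.w₁ 𝒟.w₁_fam.fixed 𝒟.w₁_li a
    (fun u hu => by rw [ha]; exact hψU u hu)
  have hZ' : IsZDiv pinf (∑ i, a i • 𝒟.w₁ i) (tdiv P + tdiv R') := by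
    rw [ha, ← hEP, ← hRR']
    exact hZ
  -- `R` is rational
  have hRU : R ∈ 𝒮.RatU := by
    refine ⟨hRinf, fun u hu => mapDomain_smul_eq_of_apply u R fun Q => ?_⟩
    have h1 := isZDiv_apply_smul u (𝒮.inf_fixed u (𝒮.U_le hu)) (hψU u hu) hZ Q
    have h2 := apply_smul_of_mapDomain u E (hEU.2 u hu) Q
    rw [Finsupp.add_apply, Finsupp.add_apply] at h1
    omega
  -- the determinant of `κ`
  have hdet : Matrix.det (Matrix.of fun i j => pval (P j) (𝒟.κ i)) ≠ 0 := by
    have hγ : 1 ≤ 2 * 𝒟.γ := by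
      have := 𝒟.hMK
      omega
    have hcast : ((2 * 𝒟.γ - 1 : ℕ) : ℤ) = 2 * (𝒟.γ : ℤ) - 1 := by
      push_cast [Nat.cast_sub hγ]
      ring
    refine Ht.DetNZ.det_ne_zero h.resK (Finsupp.single pinf ((2 * 𝒟.γ - 1 : ℕ) : ℤ)) 𝒟.κ
      (fun i => ?_) hκli P hPinj (fun j => Finsupp.single_eq_of_ne (hPinf j)) ?_
    · rw [Ht.GalBridge.mem_rr_single_iff]
      refine ⟨fun v hv => 𝒟.κ_fam.reg i v hv, ?_⟩
      have h1 := 𝒟.κ_fam.pole i
      have h2 := 𝒟.hMK
      have h3 : (𝒟.MK : ℤ) ≤ ((2 * 𝒟.γ - 1 : ℕ) : ℤ) := by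
        rw [hcast]
        have : ((𝒟.MK + 1 : ℕ) : ℤ) ≤ ((2 * 𝒟.γ : ℕ) : ℤ) := by exact_mod_cast h2
        push_cast at this
        linarith
      linarith
    · rw [hcast, ← hEzP]
      have e : (2 * (𝒟.γ : ℤ) - 1) • Finsupp.single pinf (1 : ℤ)
          = (Finsupp.single pinf (2 * (𝒟.γ : ℤ) - 1) : Divisor K F) := by
        rw [Finsupp.smul_single, smul_eq_mul, mul_one]
      rw [← e]
      exact hEL
  -- the minor
  have hminor := Ht.DetMinor.exists_minor_of_isZDiv h pinf 𝒟.M₁ 𝒟.hM₁ 𝒟.w₁ 𝒟.w₁_fam.reg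
    𝒟.w₁_fam.pole 𝒟.w₁_li P hPinf R' hRinj' hR'inf a haψ hZ' (by rw [← hEzP]; exact hlE)
  refine ⟨P, R', a, hEP, hPinj, hPinf, by rw [← hEP]; exact hEU, hdet, hUfix, haψ, hZ', hRinj',
    hR'inf, by rw [← hRR']; exact hRU, by rw [← hEP, ← hRR']; exact hred, ?_,
    by rw [← hEP, ← hRR']; exact Far.add_left hE𝔯 hR𝔯, by rw [← hEP, ← hRR']; exact hER,
    hminor⟩
  -- `t` is injective on the support of `E + R`
  rw [← hEP, ← hRR']
  intro Q hQ Q' hQ' hval
  have hval' : pval Q t = pval Q' t := hval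
  have hsplit : ∀ Q₀ : Place K F, Q₀ ∈ ((E + R).support : Set (Place K F)) →
      Q₀ ∈ E.support ∨ Q₀ ∈ R.support := fun Q₀ hQ₀ =>
    Finset.mem_union.mp (Finsupp.support_add (Finset.mem_coe.mp hQ₀))
  have hE1' : ∀ Q₀ : Place K F, Q₀ ∈ E.support → E Q₀ = 1 := fun Q₀ hQ₀ => by
    have h1 := hE1 Q₀
    have h2 := Finsupp.mem_support_iff.mp hQ₀
    omega
  rcases hsplit Q hQ with h1 | h1 <;> rcases hsplit Q' hQ' with h2 | h2
  · exact hEinj Q Q' (hE1' Q h1) (hE1' Q' h2) hval'
  · exact absurd hval' (hER Q h1 Q' h2)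
  · exact absurd hval'.symm (hER Q' h2 Q h1)
  · exact hRinj Q h1 Q' h2 hval'

end Fermat.Agent.MW.Gen.GoodAsm
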