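/-
MW / HT-Q — the last mile of the field `translates` (second seat, helper21):
RAW DATA `(E, ψ, R)` ⟹ THE LITERAL BODY OF `CurveD₀.Good` (`HG/Curve2.lean`).

Generic vocabulary of `HG/Defs.lean` (no modular curve, no Jacobian).  Input:

* `E : Place K F →₀ ℕ`, reduced, rational (`E ∈ 𝒮.RatU`), of degree `γ`, non-special in the form
  `L(B − E) = 0` for a divisor `B` with `κ i ∈ L(B)` (`B = (2γ − 1) · pinf` in the instance),
  `l(E) = 1`, `t` injective on its support  [the good translates];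
* `ψ ≠ 0` fixed by `U`, in the span of the `Γ`-fixed family `w₁`, with divisor of zeros `E + R`
  off `pinf`, `E + R` reduced of degree `M₁ = n + γ`, `t` injective on the support of `R`
  [the residual pencil];
* the three general positions `Far E 𝔯`, `Far R 𝔯`, `Far E R` (from "`E`, `R` avoid a finite
  set": `exists_fibre_finset`, `far_of_avoid`).

Output: enumerations `P : Fin γ → Place`, `R' : Fin n → Place` of the supports and the coefficient
vector `a` of `ψ`, with all the clauses of `Good`: `good_body` (raw form) and `good_of`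
(`𝒟.Good E` for `𝒟 : CurveD₀ 𝒮 J`).
-/
import Mathlib
import Fermat.Agent.MW.HG.Curve2
import Fermat.Agent.MW.HG.Basic
import Fermat.Agent.MW.HG.DiscCore
import Fermat.Agent.MW.Ht.DetNZ
import Fermat.Agent.MW.Ht.DetMinor

set_option autoImplicit false

noncomputable section

namespace Fermat.Agent.MW.Gen.GoodAsmB

open AlgebraicCurve Fermat.Agent.Lib.FF Fermat.Agent.MW.HtM Fermat.Agent.MW.HQ
open Fermat.Agent.MW.HG

variable {K F V : Type*} [Field K] [Field F] [Algebra K F]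
variable {Ab : AbsFamily K V} {pinf : Place K F} {t : F} {m : ℕ}

/-! ### Enumerating a reduced divisor -/

/-- A reduced effective divisor of degree `γ` is the divisor of an injective `γ`-tuple. -/
theorem exists_enum (E : Place K F →₀ ℕ) (hE1 : ∀ P, E P ≤ 1) {γ : ℕ} (hdeg : deg E = γ) :
    ∃ P : Fin γ → Place K F, Function.Injective P ∧ (∀ j, P j ∈ E.support) ∧ tdiv P = E := by
  classical
  have hval : ∀ p ∈ E.support, E p = 1 := fun p hp => by
    have h1 := hE1 p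
    have h2 : E p ≠ 0 := Finsupp.mem_support_iff.mp hp
    omega
  have hcard : E.support.card = γ := by
    rw [← hdeg]
    unfold deg
    rw [Finsupp.sum, Finset.card_eq_sum_ones]
    exact (Finset.sum_congr rfl hval).symm
  let e : Fin γ ≃ E.support := (Finset.equivFinOfCardEq hcard).symm
  refine ⟨fun j => (e j : Place K F), Subtype.val_injective.comp e.injective, fun j => (e j).2, ?_⟩
  unfold tdiv
  have h1 : ∑ j, Finsupp.single ((e j : Place K F)) (1 : ℕ)
      = ∑ p : E.support, Finsupp.single (p : Place K F) (1 : ℕ) :=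
    Equiv.sum_comp e (fun p : E.support => Finsupp.single (p : Place K F) (1 : ℕ))
  rw [h1, Finset.sum_coe_sort E.support (fun p => Finsupp.single p (1 : ℕ))]
  conv_rhs => rw [← Finsupp.sum_single E]
  rw [Finsupp.sum]
  exact Finset.sum_congr rfl fun p hp => by rw [hval p hp]

/-- The `ℤ`-divisor of a tuple, when the `ℕ`-divisor is `E`. -/
theorem sum_single_eq {γ : ℕ} (P : Fin γ → Place K F) {E : Place K F →₀ ℕ} (hP : tdiv P = E)
    (EZ : Divisor K F) (hEZ : ∀ Q, EZ Q = (E Q : ℤ)) :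
    ∑ j, Finsupp.single (P j) (1 : ℤ) = EZ := by
  classical
  ext Q
  rw [hEZ, ← hP]
  unfold tdiv
  rw [Finsupp.finsetSum_apply, Finsupp.finsetSum_apply]
  push_cast
  refine Finset.sum_congr rfl fun j _ => ?_
  simp only [Finsupp.single_apply]
  split_ifs <;> simp

/-! ### Divisors of zeros -/

theorem isZDiv_unique {φ : F} {Z Z' : Place K F →₀ ℕ} (h : IsZDiv pinf φ Z)
    (h' : IsZDiv pinf φ Z') : Z = Z' := by
  ext P
  by_cases hP : P = pinf
  · rw [hP, h.1, h'.1]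
  · have h1 := h.2 P hP
    have h2 := h'.2 P hP
    exact_mod_cast h1.trans h2.symm

/-- The residual zeros of a `U`-fixed function through a rational divisor are rational. -/
theorem residual_mem_RatU (𝒮 : Setting Ab pinf t m) {ψ : F} (hψU : ∀ u ∈ 𝒮.U, u • ψ = ψ)
    {E R : Place K F →₀ ℕ} (hE : E ∈ 𝒮.RatU) (hZ : IsZDiv pinf ψ (E + R)) : R ∈ 𝒮.RatU := by
  refine ⟨?_, fun u hu => ?_⟩
  · have h1 := hZ.1
    rw [Finsupp.add_apply] at h1
    omega
  · have h1 := 𝒮.isZDiv_smul (𝒮.U_le hu) hZ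
    rw [hψU u hu] at h1
    have h2 := isZDiv_unique h1 hZ
    rw [Finsupp.mapDomain_add, hE.2 u hu] at h2
    exact add_left_cancel h2

/-- The coefficient vector of a `U`-fixed function in a `Γ`-fixed linearly independent family is
`U`-fixed. -/
theorem uFix_of_fixed (𝒮 : Setting Ab pinf t m) {ι : Type*} [Fintype ι] {w : ι → F}
    (hw : ∀ g ∈ 𝒮.Γ, ∀ i, g • w i = w i) (hli : LinearIndependent K w) (a : ι → K)
    (hψU : ∀ u ∈ 𝒮.U, u • (∑ i, a i • w i) = ∑ i, a i • w i) : 𝒮.UFix a := by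
  intro u hu i
  have h1 : u • (∑ i, a i • w i) = ∑ i, SemilinearAut.baseAut u (a i) • w i := by
    rw [Finset.smul_sum]
    refine Finset.sum_congr rfl fun i _ => ?_
    rw [Algebra.smul_def, smul_mul', SemilinearAut.smul_algebraMap, hw u (𝒮.U_le hu) i,
      ← Algebra.smul_def]
  rw [hψU u hu] at h1
  have h2 : ∑ i, (a i - SemilinearAut.baseAut u (a i)) • w i = 0 := by
    simp only [sub_smul, Finset.sum_sub_distrib]
    rw [← h1, sub_self]
  have h3 := Fintype.linearIndependent_iff.mp hli _ h2 i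
  exact (sub_eq_zero.mp h3).symm

/-- All residue fields are `K`, in the form used by the value calculus. -/
theorem resK_of (𝒮 : Setting Ab pinf t m) (P : Place K F) : RR.ResK P := by
  intro a
  obtain ⟨c, hc⟩ := 𝒮.resK P (a : F) (Fermat.Agent.S24.ord_nonneg_of_mem P a.2)
  refine ⟨c, ?_⟩
  rw [← adicValuation_lt_one_iff]
  have e : ((a - algebraMap K P.toValuationSubring c : P.toValuationSubring) : F)
      = (a : F) - algebraMap K F c := by
    rw [← P.coe_algebraMap]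
    rfl
  rw [e]
  exact hc

/-! ### General position from "avoiding a finite set" -/

/-- The finite set of the places in the `t`-fibres of the points of `T`. -/
theorem exists_fibre_finset (𝒮 : Setting Ab pinf t m) (T : Finset (Place K F)) :
    ∃ S : Finset (Place K F), ∀ r ∈ T, ∀ Q : Place K F, Q ≠ pinf → pval Q t = pval r t →
      Q ∈ S := by
  classical
  refine ⟨T.biUnion fun r => (Disc.fibD 𝒮 (pval r t)).support, fun r hr Q hQ hval => ?_⟩
  refine Finset.mem_biUnion.mpr ⟨r, hr, ?_⟩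
  rw [Finsupp.mem_support_iff]
  have h1 := (Disc.ord_pos_iff_pval 𝒮 hQ (pval r t)).mpr hval
  have h2 := Disc.fibD_apply 𝒮 (pval r t) hQ
  intro h0
  rw [h0] at h2
  simp only [Nat.cast_zero] at h2
  omega

/-- A divisor off `pinf` which avoids the `t`-fibres of the points of `D'` is in `t`-general
position with respect to `D'`. -/
theorem far_of_avoid (𝒮 : Setting Ab pinf t m) {D D' : Place K F →₀ ℕ} (hD : D pinf = 0)
    {S : Finset (Place K F)}
    (hS : ∀ r ∈ D'.support, ∀ Q : Place K F, Q ≠ pinf → pval Q t = pval r t → Q ∈ S)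
    (havoid : ∀ Q ∈ S, D Q = 0) : Far 𝒮.far D D' := by
  intro p hp q hq hval
  have hp' : D p ≠ 0 := Finsupp.mem_support_iff.mp hp
  have hpinf : p ≠ pinf := fun e => hp' (e ▸ hD)
  exact hp' (havoid p (hS q hq p hpinf hval))

/-! ### The body of `Good` -/

/-- **The body of `Good` from raw data.**  See the header. -/
theorem good_body [IsAlgClosed K] {x : F} (h : IsFF1 K F x)
    (𝒮 : Setting Ab pinf t m) {γ n : ℕ} (M₁ : ℕ) (hM₁ : n + γ = M₁)
    (B : Divisor K F) (κ : Fin γ → F) (hκ : ∀ i, κ i ∈ riemannRochSpace B)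
    (hκli : LinearIndependent K κ)
    (w₁ : Fin (n + 1) → F) (hw₁ : 𝒮.Fam w₁ M₁) (hw₁li : LinearIndependent K w₁)
    (𝔯 : Place K F →₀ ℕ)
    -- the good divisor
    (E : Place K F →₀ ℕ) (hE1 : ∀ P, E P ≤ 1) (hEU : E ∈ 𝒮.RatU) (hEdeg : deg E = γ)
    (hBE : ∀ P ∈ E.support, B P = 0)
    (EZ : Divisor K F) (hEZ : ∀ Q, EZ Q = (E Q : ℤ))
    (hEns : riemannRochSpace (B - EZ) = ⊥)
    (hlE : Module.finrank K (riemannRochSpace EZ) = 1)
    (hEinj : ∀ v ∈ E.support, ∀ w ∈ E.support, pval v t = pval w t → v = w)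
    -- the residual
    (ψ : F) (hψ0 : ψ ≠ 0) (hψU : ∀ u ∈ 𝒮.U, u • ψ = ψ)
    (hψspan : ψ ∈ Submodule.span K (Set.range w₁))
    (R : Place K F →₀ ℕ) (hZ : IsZDiv pinf ψ (E + R)) (hred : ∀ P, (E + R) P ≤ 1)
    (hdeg : deg (E + R) = M₁)
    (hRinj : ∀ P ∈ R.support, ∀ Q ∈ R.support, pval P t = pval Q t → P = Q)
    -- general position
    (hE𝔯 : Far 𝒮.far E 𝔯) (hR𝔯 : Far 𝒮.far R 𝔯) (hER : Far 𝒮.far E R) :
    ∃ (P : Fin γ → Place K F) (R' : Fin n → Place K F) (a : Fin (n + 1) → K),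
      E = tdiv P ∧ Function.Injective P ∧ (∀ j, P j ≠ pinf) ∧ tdiv P ∈ 𝒮.RatU ∧
      Matrix.det (Matrix.of fun i j => pval (P j) (κ i)) ≠ 0 ∧
      𝒮.UFix a ∧ (∑ i, a i • w₁ i) ≠ 0 ∧
      IsZDiv pinf (∑ i, a i • w₁ i) (tdiv P + tdiv R') ∧
      Function.Injective R' ∧ (∀ j, R' j ≠ pinf) ∧ tdiv R' ∈ 𝒮.RatU ∧
      (∀ Q, (tdiv P + tdiv R') Q ≤ 1) ∧
      Set.InjOn (fun Q : Place K F => pval Q t)
        ((tdiv P + tdiv R').support : Set (Place K F)) ∧
      Far 𝒮.far (tdiv P + tdiv R') 𝔯 ∧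
      Far 𝒮.far (tdiv P) (tdiv R') ∧
      (∃ i : Fin (n + 1),
        Matrix.det (Matrix.of fun k j => pval (R' j) (w₁ (i.succAbove k))) ≠ 0) := by
  classical
  -- the residual is rational, reduced, of degree `n`
  have hRU : R ∈ 𝒮.RatU := residual_mem_RatU 𝒮 hψU hEU hZ
  have hR1 : ∀ P, R P ≤ 1 := fun P => by
    have := hred P
    rw [Finsupp.add_apply] at this
    omega
  have hRdeg : deg R = n := by
    have h1 := deg_add E R
    rw [hdeg, hEdeg] at h1
    omega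
  -- enumerations
  obtain ⟨P, hPinj, hPmem, hP⟩ := exists_enum E hE1 hEdeg
  obtain ⟨R', hR'inj, hR'mem, hR'⟩ := exists_enum R hR1 hRdeg
  have hPinf : ∀ j, P j ≠ pinf := fun j e => by
    have h1 : E (P j) ≠ 0 := Finsupp.mem_support_iff.mp (hPmem j)
    rw [e] at h1
    exact h1 hEU.1
  have hR'inf : ∀ j, R' j ≠ pinf := fun j e => by
    have h1 : R (R' j) ≠ 0 := Finsupp.mem_support_iff.mp (hR'mem j)
    rw [e] at h1
    exact h1 hRU.1
  -- the coefficient vector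
  obtain ⟨a, ha⟩ := (Submodule.mem_span_range_iff_exists_fun K).mp hψspan
  have haU : 𝒮.UFix a := uFix_of_fixed 𝒮 hw₁.fixed hw₁li a (by rw [ha]; exact hψU)
  have hZ' : IsZDiv pinf (∑ i, a i • w₁ i) (tdiv P + tdiv R') := by
    rw [ha, hP, hR']
    exact hZ
  have hne : (∑ i, a i • w₁ i) ≠ 0 := by rw [ha]; exact hψ0
  -- the `ℤ`-divisor of `P`
  have hPZ : ∑ j, Finsupp.single (P j) (1 : ℤ) = EZ := sum_single_eq P hP EZ hEZ
  refine ⟨P, R', a, hP.symm, hPinj, hPinf, by rw [hP]; exact hEU, ?_, haU, hne, hZ', hR'inj,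
    hR'inf, by rw [hR']; exact hRU, by rw [hP, hR']; exact hred, ?_, ?_, by rw [hP, hR']; exact hER,
    ?_⟩
  · -- the canonical determinant
    exact Fermat.Agent.MW.Ht.DetNZ.det_ne_zero (fun Q => resK_of 𝒮 Q) B κ hκ hκli P hPinj
      (fun j => hBE _ (hPmem j)) (by rw [hPZ]; exact hEns)
  · -- `t` is injective on the support of `E + R`
    rw [hP, hR']
    intro a₁ ha₁ a₂ ha₂ hval
    have hsub : ∀ q, q ∈ (E + R).support → q ∈ E.support ∨ q ∈ R.support := fun q hq =>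
      Finset.mem_union.mp (Finsupp.support_add hq)
    rcases hsub a₁ (Finset.mem_coe.mp ha₁) with h1 | h1 <;>
      rcases hsub a₂ (Finset.mem_coe.mp ha₂) with h2 | h2
    · exact hEinj a₁ h1 a₂ h2 hval
    · exact absurd hval (hER a₁ h1 a₂ h2)
    · exact absurd hval.symm (hER a₂ h2 a₁ h1)
    · exact hRinj a₁ h1 a₂ h2 hval
  · -- general position with respect to the ramification divisor
    rw [hP, hR']
    exact Far.add_left hE𝔯 hR𝔯
  · -- the minor
    exact Fermat.Agent.MW.Ht.DetMinor.exists_minor_of_isZDiv h pinf M₁ hM₁ w₁ hw₁.reg hw₁.pole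
      hw₁li P hPinf R' hR'inj hR'inf a hne hZ' (by rw [hPZ]; exact hlE)

/-- **`Good` from raw data**, for the facts `𝒟 : CurveD₀ 𝒮 J` of a curve. -/
theorem good_of [IsAlgClosed K] {x : F} (h : IsFF1 K F x)
    {𝒮 : Setting Ab pinf t m} {J : Type*} [AddCommGroup J] (𝒟 : CurveD₀ 𝒮 J)
    (B : Divisor K F) (hκ : ∀ i, 𝒟.κ i ∈ riemannRochSpace B)
    (hκli : LinearIndependent K 𝒟.κ)
    (E : Place K F →₀ ℕ) (hE1 : ∀ P, E P ≤ 1) (hEU : E ∈ 𝒮.RatU) (hEdeg : deg E = 𝒟.γ)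
    (hBE : ∀ P ∈ E.support, B P = 0)
    (EZ : Divisor K F) (hEZ : ∀ Q, EZ Q = (E Q : ℤ))
    (hEns : riemannRochSpace (B - EZ) = ⊥)
    (hlE : Module.finrank K (riemannRochSpace EZ) = 1)
    (hEinj : ∀ v ∈ E.support, ∀ w ∈ E.support, pval v t = pval w t → v = w)
    (ψ : F) (hψ0 : ψ ≠ 0) (hψU : ∀ u ∈ 𝒮.U, u • ψ = ψ)
    (hψspan : ψ ∈ Submodule.span K (Set.range 𝒟.w₁))
    (R : Place K F →₀ ℕ) (hZ : IsZDiv pinf ψ (E + R)) (hred : ∀ P, (E + R) P ≤ 1)
    (hdeg : deg (E + R) = 𝒟.M₁)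
    (hRinj : ∀ P ∈ R.support, ∀ Q ∈ R.support, pval P t = pval Q t → P = Q)
    (hE𝔯 : Far 𝒮.far E 𝒟.𝔯) (hR𝔯 : Far 𝒮.far R 𝒟.𝔯) (hER : Far 𝒮.far E R) :
    𝒟.Good E :=
  good_body h 𝒮 𝒟.M₁ 𝒟.hM₁ B 𝒟.κ hκ hκli 𝒟.w₁ 𝒟.w₁_fam 𝒟.w₁_li 𝒟.𝔯 E hE1 hEU hEdeg hBE EZ hEZ
    hEns hlE hEinj ψ hψ0 hψU hψspan R hZ hred hdeg hRinj hE𝔯 hR𝔯 hER

end Fermat.Agent.MW.Gen.GoodAsmB
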