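import Mathlib
import Fermat.Agent.MW.Ht.RamDiv
import Fermat.Agent.MW.Ht.RamCount
import Fermat.Agent.MW.HG.Defs

/-!
# MW / GEN-1 (second seat, helper16): the pencil lemma

`K` algebraically closed of characteristic `0`, `F/K` a function field of one variable, `t ∈ F`
transcendental with `[F : K(t)] < ∞`, `pinf` a place.

`ψ₀, ψ₁ ≠ 0` regular off `pinf`, `ord_pinf ψ₁ = -M ≤ ord_pinf ψ₀`, and `E` a reduced effective
divisor off `pinf` with `min (ord_P ψ₀) (ord_P ψ₁) = E P` for all `P ≠ pinf`, `deg E < M`.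

* `exists_zdiv` : the divisor of zeros off `pinf` of a function regular off `pinf`, with its degree;
* `finrank_adjoin_div` : `[F : K(ψ₀/ψ₁)] = M - deg E`;
* `pencil_of_bad` : for all `c` outside a finite set, the zero divisor of `ψ₀ + c ψ₁` off `pinf` is
  `E + R` with `E + R` reduced of degree `M`, `R` avoiding a given finite set `S` and `t` injective
  on the support of `R` — given a finite set `Tb` of values of `h = ψ₀/ψ₁` outside which the
  fibres of `h` contain no pair of distinct places with the same `t`-value (GEN-0);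
* `pencil_of_bp` : the same with GEN-0 as a hypothesis in its general (coprime degrees) form.
-/

set_option autoImplicit false
set_option linter.style.haveILetI false

noncomputable section

namespace Fermat.Agent.MW.Gen.PencilB

open AlgebraicCurve IntermediateField Fermat.Agent.Lib.FF Fermat.Agent.MW Fermat.Agent.MW.HtM
open WithZero Module

variable {K F : Type*} [Field K] [Field F] [Algebra K F] {x : F}

/-- The divisor of zeros off `pinf` of a function regular off `pinf` with a pole of order `M` at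
`pinf` has degree `M`. -/
theorem exists_zdiv (h : IsFF1 K F x) (pinf : Place K F) (φ : F) (hφ : φ ≠ 0)
    (hreg : ∀ P : Place K F, P ≠ pinf → 0 ≤ P.ord φ) (M : ℕ) (hM : pinf.ord φ = -(M : ℤ)) :
    ∃ Z : Place K F →₀ ℕ, HG.IsZDiv pinf φ Z ∧ HQ.deg Z = M := by
  classical
  have := h.hasPrincipalDivisors
  obtain ⟨D, hD, hdeg⟩ := HasPrincipalDivisors.exists_divisor (K := K) φ hφ
  set E : Divisor K F := D + Finsupp.single pinf (M : ℤ) with hE
  have hEinf : E pinf = 0 := by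
    rw [hE, Finsupp.add_apply, hD, hM, Finsupp.single_eq_same]
    omega
  have hEP : ∀ P, P ≠ pinf → E P = P.ord φ := by
    intro P hP
    rw [hE, Finsupp.add_apply, hD, Finsupp.single_apply, if_neg (Ne.symm hP), add_zero]
  have hE0 : ∀ P, 0 ≤ E P := by
    intro P
    by_cases hP : P = pinf
    · rw [hP, hEinf]
    · rw [hEP P hP]; exact hreg P hP
  refine ⟨Ht.RamDiv.toNatDiv E, ⟨?_, fun P hP => ?_⟩, ?_⟩
  · rw [Ht.RamDiv.toNatDiv_apply, hEinf]; rfl
  · rw [Ht.RamDiv.coe_toNatDiv (hE0 P), hEP P hP]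
  · have h1 := Ht.RamDiv.deg_toNatDiv h hE0
    rw [hE, map_add, hdeg, Divisor.degree_single, h.deg_eq_one, zero_add] at h1
    have h2 : (HQ.deg (Ht.RamDiv.toNatDiv E) : ℤ) = (M : ℤ) := by rw [h1]; simp
    exact_mod_cast h2

/-- A function regular at `P` whose value at `P` is not `τ`: `f - τ` is a unit at `P`. -/
theorem ord_sub_eq_zero (P : Place K F) {f : F} (hf : 0 ≤ P.ord f) {τ : K}
    (hτ : pval P f ≠ τ) : P.ord (f - algebraMap K F τ) = 0 := by
  have hne : f - algebraMap K F τ ≠ 0 := by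
    intro h0
    apply hτ
    rw [sub_eq_zero.mp h0, pval_algebraMap]
  have h1 : 0 ≤ P.ord (f - algebraMap K F τ) :=
    Fermat.Agent.S24.ord_nonneg_of_mem P
      (sub_mem (Fermat.Agent.S24.mem_of_ord_nonneg P hf) (P.algebraMap_mem' τ))
  by_contra hne0
  apply hτ
  refine pval_eq P ?_
  rw [P.adicValuation_eq_exp_neg_ord hne, ← exp_zero, exp_lt_exp]
  omega

/-- The integral divisor of a natural divisor. -/
def castDiv (Z : Place K F →₀ ℕ) : Divisor K F := Z.mapRange (Nat.cast : ℕ → ℤ) Nat.cast_zero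

theorem castDiv_apply (Z : Place K F →₀ ℕ) (P : Place K F) : castDiv Z P = (Z P : ℤ) :=
  Finsupp.mapRange_apply (hf := Nat.cast_zero) (g := Z) (a := P)

theorem degree_castDiv (h : IsFF1 K F x) (Z : Place K F →₀ ℕ) :
    Divisor.degree (castDiv Z) = (HQ.deg Z : ℤ) := by
  classical
  rw [h.degree_eq_sum]
  unfold HQ.deg castDiv
  rw [Finsupp.support_mapRange_of_injective Nat.cast_zero Z Nat.cast_injective]
  unfold Finsupp.sum
  push_cast
  exact Finset.sum_congr rfl fun P _ => Finsupp.mapRange_apply (hf := Nat.cast_zero) (g := Z) (a := P)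

/-- (H1) implies that `ψ₁` is regular off `pinf`. -/
theorem reg_right {pinf : Place K F} {E : Place K F →₀ ℕ} {ψ₀ ψ₁ : F}
    (hmin : ∀ P : Place K F, P ≠ pinf → min (P.ord ψ₀) (P.ord ψ₁) = (E P : ℤ)) :
    ∀ P : Place K F, P ≠ pinf → 0 ≤ P.ord ψ₁ := by
  intro P hP
  have h1 := hmin P hP
  have h2 := min_le_right (P.ord ψ₀) (P.ord ψ₁)
  have h3 := Int.natCast_nonneg (E P)
  omega

/-- A set all of whose finite subsets have at most `B` elements is contained in a finite set: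
the shape in which the double-point bound (GEN-0) is consumed. -/
theorem exists_bad_of_card_le (t f : F) (B : ℕ)
    (hcard : ∀ T : Finset K, (∀ c ∈ T, ∃ Q Q' : Place K F, Q ≠ Q' ∧ 0 ≤ Q.ord t ∧ 0 ≤ Q'.ord t ∧
      Q.adicValuation (f - algebraMap K F c) < 1 ∧ Q'.adicValuation (f - algebraMap K F c) < 1 ∧
      pval Q t = pval Q' t) → T.card ≤ B) :
    ∃ Tb : Finset K, ∀ c : K, c ∉ Tb → ∀ Q Q' : Place K F, 0 ≤ Q.ord t → 0 ≤ Q'.ord t →
      Q.adicValuation (f - algebraMap K F c) < 1 →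
      Q'.adicValuation (f - algebraMap K F c) < 1 → pval Q t = pval Q' t → Q = Q' := by
  classical
  set Sb : Set K := {c | ∃ Q Q' : Place K F, Q ≠ Q' ∧ 0 ≤ Q.ord t ∧ 0 ≤ Q'.ord t ∧
      Q.adicValuation (f - algebraMap K F c) < 1 ∧ Q'.adicValuation (f - algebraMap K F c) < 1 ∧
      pval Q t = pval Q' t} with hSb
  have hfin : Sb.Finite := by
    by_contra hinf
    obtain ⟨T, hTs, hTc⟩ := Set.Infinite.exists_subset_card_eq hinf (B + 1)
    have := hcard T fun c hc => hTs (Finset.mem_coe.mpr hc)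
    omega
  refine ⟨hfin.toFinset, fun c hc Q Q' hQ hQ' hv hv' hval => ?_⟩
  by_contra hne
  exact hc (hfin.mem_toFinset.mpr ⟨Q, Q', hne, hQ, hQ', hv, hv', hval⟩)

section Pencil

variable [IsAlgClosed K] [CharZero K]

/-- The common data of the pencil lemma: `h = ψ₀ / ψ₁` has a pole. -/
theorem exists_pole (pinf : Place K F) (t : F)
    (ht : Transcendental K t) [FiniteDimensional K⟮t⟯ F]
    (E : Place K F →₀ ℕ) (hEinf : E pinf = 0)
    (ψ₀ ψ₁ : F) (hψ₀ : ψ₀ ≠ 0) (hψ₁ : ψ₁ ≠ 0)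
    (M : ℕ) (hM₁ : pinf.ord ψ₁ = -(M : ℤ))
    (hmin : ∀ P : Place K F, P ≠ pinf → min (P.ord ψ₀) (P.ord ψ₁) = (E P : ℤ))
    (hdeg : HQ.deg E < M) :
    ∃ P : Place K F, P.ord (ψ₀ / ψ₁) < 0 := by
  have hFF : IsFF1 K F t := isFF1_of_charZero t ht
  obtain ⟨Z₁, hZ₁, hZ₁deg⟩ := exists_zdiv hFF pinf ψ₁ hψ₁ (reg_right hmin) M hM₁
  by_contra hcon
  replace hcon : ∀ P : Place K F, 0 ≤ P.ord (ψ₀ / ψ₁) := fun P => not_lt.mp fun hP => hcon ⟨P, hP⟩
  have hEZ : E = Z₁ := by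
    ext P
    by_cases hP : P = pinf
    · rw [hP, hEinf, hZ₁.1]
    · have h1 := hcon P
      rw [div_eq_mul_inv, P.ord_mul hψ₀ (inv_ne_zero hψ₁), P.ord_inv] at h1
      have h2 := hmin P hP
      have h3 := hZ₁.2 P hP
      have h4 : (E P : ℤ) = Z₁ P := by
        rw [h3]
        rcases min_choice (P.ord ψ₀) (P.ord ψ₁) with h5 | h5 <;> omega
      exact_mod_cast h4
  rw [hEZ, hZ₁deg] at hdeg
  exact lt_irrefl _ hdeg

/-- `h = ψ₀ / ψ₁` is transcendental. -/
theorem transcendental_div (pinf : Place K F) (t : F)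
    (ht : Transcendental K t) [FiniteDimensional K⟮t⟯ F]
    (E : Place K F →₀ ℕ) (hEinf : E pinf = 0)
    (ψ₀ ψ₁ : F) (hψ₀ : ψ₀ ≠ 0) (hψ₁ : ψ₁ ≠ 0)
    (M : ℕ) (hM₁ : pinf.ord ψ₁ = -(M : ℤ))
    (hmin : ∀ P : Place K F, P ≠ pinf → min (P.ord ψ₀) (P.ord ψ₁) = (E P : ℤ))
    (hdeg : HQ.deg E < M) : Transcendental K (ψ₀ / ψ₁) := by
  obtain ⟨P₀, hP₀⟩ := exists_pole pinf t ht E hEinf ψ₀ ψ₁ hψ₀ hψ₁ M hM₁ hmin hdeg
  exact Ht.RamCount.transcendental_of_ord_neg P₀ hP₀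

/-- **The degree of `h = ψ₀ / ψ₁`** : `[F : K(h)] = M - deg E`. -/
theorem finrank_adjoin_div (pinf : Place K F) (t : F)
    (ht : Transcendental K t) [FiniteDimensional K⟮t⟯ F]
    (E : Place K F →₀ ℕ) (hEinf : E pinf = 0)
    (ψ₀ ψ₁ : F) (hψ₀ : ψ₀ ≠ 0) (hψ₁ : ψ₁ ≠ 0)
    (M : ℕ) (hM₁ : pinf.ord ψ₁ = -(M : ℤ)) (hM₀ : -(M : ℤ) ≤ pinf.ord ψ₀)
    (hmin : ∀ P : Place K F, P ≠ pinf → min (P.ord ψ₀) (P.ord ψ₁) = (E P : ℤ))
    (hdeg : HQ.deg E < M) [FiniteDimensional K⟮ψ₀ / ψ₁⟯ F] :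
    finrank K⟮ψ₀ / ψ₁⟯ F = M - HQ.deg E := by
  have hFF : IsFF1 K F t := isFF1_of_charZero t ht
  have hhtr := transcendental_div pinf t ht E hEinf ψ₀ ψ₁ hψ₀ hψ₁ M hM₁ hmin hdeg
  obtain ⟨Z₁, hZ₁, hZ₁deg⟩ := exists_zdiv hFF pinf ψ₁ hψ₁ (reg_right hmin) M hM₁
  have hordh : ∀ P : Place K F, P.ord (ψ₀ / ψ₁) = P.ord ψ₀ - P.ord ψ₁ := by
    intro P
    rw [div_eq_mul_inv, P.ord_mul hψ₀ (inv_ne_zero hψ₁), P.ord_inv]
    ring
  have hpd : RR.poleDiv K (ψ₀ / ψ₁) = castDiv Z₁ - castDiv E := by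
    ext P
    rw [RR.poleDiv_apply, Finsupp.sub_apply, castDiv_apply, castDiv_apply, hordh]
    by_cases hP : P = pinf
    · rw [hP, hZ₁.1, hEinf, hM₁]
      simp only [Nat.cast_zero, sub_zero]
      rw [max_eq_right (by omega)]
    · have h2 := hmin P hP
      rw [hZ₁.2 P hP]
      rcases min_choice (P.ord ψ₀) (P.ord ψ₁) with h5 | h5
      · have := min_le_right (P.ord ψ₀) (P.ord ψ₁)
        rw [max_eq_left (by omega)]
        omega
      · have := min_le_left (P.ord ψ₀) (P.ord ψ₁)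
        rw [max_eq_right (by omega)]
        omega
  have h1 := RR.degree_poleDiv (K := K) (ψ₀ / ψ₁) hhtr
  rw [hpd, map_sub, degree_castDiv hFF, degree_castDiv hFF, hZ₁deg] at h1
  omega

/-- **The pencil lemma**, given a finite set `Tb` of values of `h = ψ₀ / ψ₁` outside of which no
fibre of `h` contains two distinct places (where `t` is regular) with the same `t`-value. -/
theorem pencil_of_bad (pinf : Place K F) (t : F)
    (ht : Transcendental K t) [FiniteDimensional K⟮t⟯ F]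
    (E : Place K F →₀ ℕ) (hE1 : ∀ P, E P ≤ 1) (hEinf : E pinf = 0)
    (ψ₀ ψ₁ : F) (hψ₀ : ψ₀ ≠ 0) (hψ₁ : ψ₁ ≠ 0)
    (M : ℕ) (hM₁ : pinf.ord ψ₁ = -(M : ℤ)) (hM₀ : -(M : ℤ) ≤ pinf.ord ψ₀)
    (hmin : ∀ P : Place K F, P ≠ pinf → min (P.ord ψ₀) (P.ord ψ₁) = (E P : ℤ))
    (hdeg : HQ.deg E < M)
    (Tb : Finset K)
    (hTb : ∀ c : K, c ∉ Tb → ∀ Q Q' : Place K F, 0 ≤ Q.ord t → 0 ≤ Q'.ord t →
      Q.adicValuation (ψ₀ / ψ₁ - algebraMap K F c) < 1 →
      Q'.adicValuation (ψ₀ / ψ₁ - algebraMap K F c) < 1 → pval Q t = pval Q' t → Q = Q')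
    (S : Finset (Place K F)) :
    ∃ T : Finset K, ∀ c : K, c ∉ T → ∃ R : Place K F →₀ ℕ,
      HG.IsZDiv pinf (ψ₀ + algebraMap K F c * ψ₁) (E + R) ∧ (∀ P, (E + R) P ≤ 1) ∧
      (∀ P ∈ S, R P = 0) ∧
      (∀ P ∈ R.support, ∀ Q ∈ R.support, pval P t = pval Q t → P = Q) ∧
      HQ.deg (E + R) = M := by
  classical
  have hFF : IsFF1 K F t := isFF1_of_charZero t ht
  have hhtr := transcendental_div pinf t ht E hEinf ψ₀ ψ₁ hψ₀ hψ₁ M hM₁ hmin hdeg
  set h : F := ψ₀ / ψ₁ with hh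
  have hordh : ∀ P : Place K F, P.ord h = P.ord ψ₀ - P.ord ψ₁ := by
    intro P
    rw [hh, div_eq_mul_inv, P.ord_mul hψ₀ (inv_ne_zero hψ₁), P.ord_inv]
    ring
  have hsub_ne : ∀ τ : K, h - algebraMap K F τ ≠ 0 := by
    intro τ h0
    apply hhtr
    rw [sub_eq_zero.mp h0]
    exact isAlgebraic_algebraMap τ
  -- the divisor of `dh`
  haveI : FiniteDimensional K⟮h⟯ F :=
    Fermat.Agent.S24.Transfer.finiteDimensional_adjoin_of_transcendental (K := K) t hhtr
  haveI : Algebra.IsSeparable K⟮h⟯ F := Res.isSeparable_adjoin_of_charZero h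
  obtain ⟨W, -, -, hWle, -⟩ :=
    Res.exists_divisor_D_of_span hFF h (Res.span_D_eq_top_of_isSeparable h)
  -- the divisor of `t`
  have ht0 : t ≠ 0 := by
    rintro rfl
    exact ht (isAlgebraic_zero)
  obtain ⟨Dt, hDt, -⟩ := hFF.hasPrincipalDivisors.exists_divisor t ht0
  refine ⟨((S ∪ E.support ∪ {pinf} ∪ W.support ∪ Dt.support).image fun P => -pval P h) ∪
    Tb.image fun c => -c, fun c hc => ?_⟩
  rw [Finset.mem_union, not_or] at hc
  obtain ⟨hc1, hc2⟩ := hc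
  have hval : ∀ P ∈ S ∪ E.support ∪ {pinf} ∪ W.support ∪ Dt.support, pval P h ≠ -c := by
    intro P hP hPc
    apply hc1
    rw [Finset.mem_image]
    exact ⟨P, hP, by rw [hPc, neg_neg]⟩
  have hcTb : -c ∉ Tb := by
    intro hmem
    apply hc2
    rw [Finset.mem_image]
    exact ⟨-c, hmem, neg_neg c⟩
  set ψ : F := ψ₀ + algebraMap K F c * ψ₁ with hψ
  have hψeq : ψ = ψ₁ * (h - algebraMap K F (-c)) := by
    rw [hψ, hh, map_neg]
    field_simp
    ring
  have hψne : ψ ≠ 0 := by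
    rw [hψeq]
    exact mul_ne_zero hψ₁ (hsub_ne (-c))
  have hordψ : ∀ P : Place K F, P.ord ψ = P.ord ψ₁ + P.ord (h - algebraMap K F (-c)) := by
    intro P
    rw [hψeq, P.ord_mul hψ₁ (hsub_ne (-c))]
  have hnn : ∀ P : Place K F, 0 ≤ P.ord h → 0 ≤ P.ord (h - algebraMap K F (-c)) := fun P hP =>
    Fermat.Agent.S24.ord_nonneg_of_mem P
      (sub_mem (Fermat.Agent.S24.mem_of_ord_nonneg P hP) (P.algebraMap_mem' (-c)))
  -- the two cases at a place `P ≠ pinf`
  have hcase : ∀ P : Place K F, P ≠ pinf → P.ord ψ = (E P : ℤ) ∨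
      (0 ≤ P.ord h ∧ P.ord ψ = (E P : ℤ) + P.ord (h - algebraMap K F (-c)) ∧
        0 ≤ P.ord (h - algebraMap K F (-c))) := by
    intro P hP
    have h2 := hmin P hP
    by_cases hlt : P.ord ψ₀ < P.ord ψ₁
    · left
      have hneg : P.ord h < 0 := by rw [hordh]; omega
      rw [hordψ, Fermat.Agent.S24.RH.ord_sub_const_of_neg P hneg, hordh]
      rw [min_eq_left hlt.le] at h2
      omega
    · right
      have hge : 0 ≤ P.ord h := by rw [hordh]; omega
      rw [min_eq_right (not_lt.mp hlt)] at h2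
      exact ⟨hge, by rw [hordψ, h2], hnn P hge⟩
  have hregψ : ∀ P : Place K F, P ≠ pinf → 0 ≤ P.ord ψ := by
    intro P hP
    rcases hcase P hP with h1 | ⟨-, h1, h2⟩
    · rw [h1]; exact Int.natCast_nonneg _
    · rw [h1]
      have := Int.natCast_nonneg (E P)
      omega
  have hinfh : 0 ≤ pinf.ord h := by rw [hordh]; omega
  have hMψ : pinf.ord ψ = -(M : ℤ) := by
    rw [hordψ, hM₁, ord_sub_eq_zero pinf hinfh (hval pinf (by simp)), add_zero]
  obtain ⟨Z, hZ, hZdeg⟩ := exists_zdiv hFF pinf ψ hψne hregψ M hMψ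
  have hEle : E ≤ Z := by
    intro P
    by_cases hP : P = pinf
    · rw [hP, hEinf]; exact Nat.zero_le _
    · have h3 := hZ.2 P hP
      have h4 : (E P : ℤ) ≤ Z P := by
        rw [h3]
        rcases hcase P hP with h1 | ⟨-, h1, h2⟩
        · rw [h1]
        · rw [h1]; omega
      exact_mod_cast h4
  have hER : E + (Z - E) = Z := add_tsub_cancel_of_le hEle
  have hRapp : ∀ P, (Z - E) P = Z P - E P := fun P => Finsupp.tsub_apply Z E P
  -- `R P = 0` as soon as `h(P) ≠ -c`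
  have hRzero : ∀ P : Place K F, pval P h ≠ -c → (Z - E) P = 0 := by
    intro P hPc
    rw [hRapp]
    by_cases hP : P = pinf
    · rw [hP, hZ.1, Nat.zero_sub]
    · have h3 := hZ.2 P hP
      rcases hcase P hP with h1 | ⟨h0, h1, -⟩
      · have : (Z P : ℤ) = E P := by rw [h3, h1]
        omega
      · rw [ord_sub_eq_zero P h0 hPc, add_zero] at h1
        have : (Z P : ℤ) = E P := by rw [h3, h1]
        omega
  -- on the support of `R`
  have hRsupp : ∀ P ∈ (Z - E).support, P ≠ pinf ∧ 0 ≤ P.ord t ∧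
      P.adicValuation (h - algebraMap K F (-c)) < 1 := by
    intro P hP
    rw [Finsupp.mem_support_iff] at hP
    have hPinf : P ≠ pinf := by
      rintro rfl
      apply hP
      rw [hRapp, hZ.1, Nat.zero_sub]
    have hPc : pval P h = -c := by
      by_contra hne
      exact hP (hRzero P hne)
    refine ⟨hPinf, ?_, ?_⟩
    · by_contra hneg
      have hmem : P ∈ Dt.support := by
        rw [Finsupp.mem_support_iff, hDt]
        omega
      exact hval P (by simp [hmem]) hPc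
    · have h3 := hZ.2 P hPinf
      rw [hRapp] at hP
      rcases hcase P hPinf with h1 | ⟨h0, h1, h2⟩
      · exfalso
        have : (Z P : ℤ) = E P := by rw [h3, h1]
        omega
      · rw [P.adicValuation_eq_exp_neg_ord (hsub_ne (-c)), ← exp_zero, exp_lt_exp]
        have : (Z P : ℤ) = (E P : ℤ) + P.ord (h - algebraMap K F (-c)) := by rw [h3, h1]
        omega
  refine ⟨Z - E, ?_, ?_, ?_, ?_, ?_⟩
  · rw [hER]; exact hZ
  · rw [hER]
    intro P
    by_cases hP : P = pinf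
    · rw [hP, hZ.1]; exact Nat.zero_le _
    · have h3 := hZ.2 P hP
      have hE1P := hE1 P
      rcases hcase P hP with h1 | ⟨h0, h1, h2⟩
      · have : (Z P : ℤ) = E P := by rw [h3, h1]
        omega
      · by_cases hmem : P ∈ E.support ∪ W.support
        · have hPc : pval P h ≠ -c := hval P (by
            rcases Finset.mem_union.mp hmem with hm | hm
            · simp [hm]
            · simp [hm])
          rw [ord_sub_eq_zero P h0 hPc, add_zero] at h1
          have : (Z P : ℤ) = E P := by rw [h3, h1]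
          omega
        · rw [Finset.mem_union, not_or, Finsupp.notMem_support_iff,
            Finsupp.notMem_support_iff] at hmem
          have h4 := hWle (-c) P
          rw [hmem.2] at h4
          have : (Z P : ℤ) = (E P : ℤ) + P.ord (h - algebraMap K F (-c)) := by rw [h3, h1]
          rw [hmem.1] at this
          omega
  · intro P hP
    exact hRzero P (hval P (by simp [hP]))
  · intro P hP Q hQ hPQ
    obtain ⟨-, hPt, hPv⟩ := hRsupp P hP
    obtain ⟨-, hQt, hQv⟩ := hRsupp Q hQ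
    exact hTb (-c) hcTb P Q hPt hQt hPv hQv hPQ
  · rw [hER]; exact hZdeg

/-- **The pencil lemma (GEN-1)**, with the double-point bound (GEN-0) as a hypothesis `hBP` in its
general form (coprime degrees). -/
theorem pencil_of_bp (pinf : Place K F) (t : F)
    (ht : Transcendental K t) [FiniteDimensional K⟮t⟯ F]
    (hBP : ∀ f : F, Transcendental K f → ∀ _ : FiniteDimensional K⟮f⟯ F,
      Nat.Coprime (finrank K⟮t⟯ F) (finrank K⟮f⟯ F) →
      ∃ Tb : Finset K, ∀ c : K, c ∉ Tb → ∀ Q Q' : Place K F, 0 ≤ Q.ord t → 0 ≤ Q'.ord t →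
        Q.adicValuation (f - algebraMap K F c) < 1 →
        Q'.adicValuation (f - algebraMap K F c) < 1 → pval Q t = pval Q' t → Q = Q')
    (E : Place K F →₀ ℕ) (hE1 : ∀ P, E P ≤ 1) (hEinf : E pinf = 0)
    (ψ₀ ψ₁ : F) (hψ₀ : ψ₀ ≠ 0) (hψ₁ : ψ₁ ≠ 0)
    (M : ℕ) (hM₁ : pinf.ord ψ₁ = -(M : ℤ)) (hM₀ : -(M : ℤ) ≤ pinf.ord ψ₀)
    (hmin : ∀ P : Place K F, P ≠ pinf → min (P.ord ψ₀) (P.ord ψ₁) = (E P : ℤ))
    (hdeg : HQ.deg E < M) (hcop : Nat.Coprime (finrank K⟮t⟯ F) (M - HQ.deg E))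
    (S : Finset (Place K F)) :
    ∃ T : Finset K, ∀ c : K, c ∉ T → ∃ R : Place K F →₀ ℕ,
      HG.IsZDiv pinf (ψ₀ + algebraMap K F c * ψ₁) (E + R) ∧ (∀ P, (E + R) P ≤ 1) ∧
      (∀ P ∈ S, R P = 0) ∧
      (∀ P ∈ R.support, ∀ Q ∈ R.support, pval P t = pval Q t → P = Q) ∧
      HQ.deg (E + R) = M := by
  have hhtr := transcendental_div pinf t ht E hEinf ψ₀ ψ₁ hψ₀ hψ₁ M hM₁ hmin hdeg
  haveI hfd : FiniteDimensional K⟮ψ₀ / ψ₁⟯ F :=
    Fermat.Agent.S24.Transfer.finiteDimensional_adjoin_of_transcendental (K := K) t hhtr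
  have hrank := finrank_adjoin_div pinf t ht E hEinf ψ₀ ψ₁ hψ₀ hψ₁ M hM₁ hM₀ hmin hdeg
  obtain ⟨Tb, hTb⟩ := hBP (ψ₀ / ψ₁) hhtr hfd (by rw [hrank]; exact hcop)
  exact pencil_of_bad pinf t ht E hE1 hEinf ψ₀ ψ₁ hψ₀ hψ₁ M hM₁ hM₀ hmin hdeg Tb hTb S

end Pencil

end Fermat.Agent.MW.Gen.PencilB
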