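import Mathlib
import Fermat.Agent.MW.Gen.PencilB
import Fermat.Agent.MW.Ht.TSep

/-!
# MW / GEN-1 (helper16): the pencil lemma, final form

`PencilB.pencil_of_bp` with the double-point bound discharged by `Ht.TSep.exists_bad_finset`
(coprime degrees).

* `bp` : the double-point bound in the shape consumed by `PencilB.pencil_of_bp`;
* `pencil` : for all `c` outside a finite set, the zero divisor of `ψ₀ + c ψ₁` off `pinf` is
  `E + R`, reduced of degree `M`, with `R` off a given finite set and `t` injective on `supp R`;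
* `pencil_nat` : the same for some natural number `c = n` (so that `ψ₀ + n ψ₁` is fixed by every
  automorphism fixing `ψ₀` and `ψ₁`).
-/

set_option autoImplicit false
set_option linter.style.haveILetI false

noncomputable section

namespace Fermat.Agent.MW.Gen.PencilBFinal

open AlgebraicCurve IntermediateField Fermat.Agent.Lib.FF Fermat.Agent.MW Fermat.Agent.MW.HtM
open WithZero Module

variable {K F : Type*} [Field K] [Field F] [Algebra K F] [IsAlgClosed K] [CharZero K]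

/-- The double-point bound (GEN-0, `Ht.TSep`) in the shape consumed by `PencilB.pencil_of_bp`. -/
theorem bp (t : F) (ht : Transcendental K t) [FiniteDimensional K⟮t⟯ F] :
    ∀ f : F, Transcendental K f → ∀ _ : FiniteDimensional K⟮f⟯ F,
      Nat.Coprime (finrank K⟮t⟯ F) (finrank K⟮f⟯ F) →
      ∃ Tb : Finset K, ∀ c : K, c ∉ Tb → ∀ Q Q' : Place K F, 0 ≤ Q.ord t → 0 ≤ Q'.ord t →
        Q.adicValuation (f - algebraMap K F c) < 1 →
        Q'.adicValuation (f - algebraMap K F c) < 1 → pval Q t = pval Q' t → Q = Q' := by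
  intro f hf hfd hco
  obtain ⟨Bad, -, hBad⟩ := Ht.TSep.exists_bad_finset t f ht hf
    (Ht.TSep.linearIndependent_pow_of_coprime t f hco)
  refine ⟨Bad, fun c hc Q Q' hQ hQ' hv hv' hval => ?_⟩
  by_contra hne
  have hmem : ∀ R : Place K F, R.adicValuation (f - algebraMap K F c) < 1 →
      0 ≤ R.ord f ∧ pval R f = c := by
    intro R hR
    refine ⟨?_, pval_eq R hR⟩
    have h1 : f - algebraMap K F c ∈ R.toValuationSubring := RR.mem_of_val_le_one R hR.le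
    have h2 : f - algebraMap K F c + algebraMap K F c ∈ R.toValuationSubring :=
      add_mem h1 (R.algebraMap_mem' c)
    rw [sub_add_cancel] at h2
    exact Fermat.Agent.S24.ord_nonneg_of_mem R h2
  obtain ⟨h1, h2⟩ := hmem Q hv
  obtain ⟨h3, h4⟩ := hmem Q' hv'
  exact hBad Q Q' hne hQ hQ' h1 h3 (by rw [h2, h4]) (by rw [h2]; exact hc) hval

/-- **The pencil lemma (GEN-1).**  `E` reduced off `pinf`, `ψ₀, ψ₁ ≠ 0` with
`ord_pinf ψ₁ = -M ≤ ord_pinf ψ₀` and `min (ord_P ψ₀) (ord_P ψ₁) = E P` off `pinf`, `deg E < M`,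
`gcd([F : K(t)], M - deg E) = 1`.  Then for all `c` outside a finite set the divisor of zeros of
`ψ₀ + c ψ₁` off `pinf` is `E + R`, reduced, of degree `M`, `R` avoids `S` and `t` is injective on
the support of `R`. -/
theorem pencil (pinf : Place K F) (t : F)
    (ht : Transcendental K t) [FiniteDimensional K⟮t⟯ F]
    (E : Place K F →₀ ℕ) (hE1 : ∀ P, E P ≤ 1) (hEinf : E pinf = 0)
    (ψ₀ ψ₁ : F) (hψ₀ : ψ₀ ≠ 0) (hψ₁ : ψ₁ ≠ 0)
    (M : ℕ) (hM₁ : pinf.ord ψ₁ = -(M : ℤ)) (hM₀ : -(M : ℤ) ≤ pinf.ord ψ₀)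
    (hmin : ∀ P : Place K F, P ≠ pinf → min (P.ord ψ₀) (P.ord ψ₁) = (E P : ℤ))
    (hdeg : HQ.deg E < M) (hcop : Nat.Coprime (finrank K⟮t⟯ F) (M - HQ.deg E))
    (S : Finset (Place K F)) :
    ∃ T : Finset K, ∀ c : K, c ∉ T → ∃ R : Place K F →₀ ℕ,
      HG.IsZDiv pinf (ψ₀ + algebraMap K F c * ψ₁) (E + R) ∧ (∀ P, (E + R) P ≤ 1) ∧
      (∀ P ∈ S, R P = 0) ∧
      (∀ P ∈ R.support, ∀ Q ∈ R.support, pval P t = pval Q t → P = Q) ∧
      HQ.deg (E + R) = M :=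
  PencilB.pencil_of_bp pinf t ht (bp t ht) E hE1 hEinf ψ₀ ψ₁ hψ₀ hψ₁ M hM₁ hM₀ hmin hdeg hcop S

/-- **The pencil lemma with a natural parameter**: some `ψ₀ + n ψ₁`, `n : ℕ`, has the divisor of
zeros `E + R` off `pinf` with the properties of `pencil`. -/
theorem pencil_nat (pinf : Place K F) (t : F)
    (ht : Transcendental K t) [FiniteDimensional K⟮t⟯ F]
    (E : Place K F →₀ ℕ) (hE1 : ∀ P, E P ≤ 1) (hEinf : E pinf = 0)
    (ψ₀ ψ₁ : F) (hψ₀ : ψ₀ ≠ 0) (hψ₁ : ψ₁ ≠ 0)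
    (M : ℕ) (hM₁ : pinf.ord ψ₁ = -(M : ℤ)) (hM₀ : -(M : ℤ) ≤ pinf.ord ψ₀)
    (hmin : ∀ P : Place K F, P ≠ pinf → min (P.ord ψ₀) (P.ord ψ₁) = (E P : ℤ))
    (hdeg : HQ.deg E < M) (hcop : Nat.Coprime (finrank K⟮t⟯ F) (M - HQ.deg E))
    (S : Finset (Place K F)) :
    ∃ (n : ℕ) (R : Place K F →₀ ℕ),
      HG.IsZDiv pinf (ψ₀ + (n : F) * ψ₁) (E + R) ∧ (∀ P, (E + R) P ≤ 1) ∧
      (∀ P ∈ S, R P = 0) ∧
      (∀ P ∈ R.support, ∀ Q ∈ R.support, pval P t = pval Q t → P = Q) ∧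
      HQ.deg (E + R) = M := by
  classical
  obtain ⟨T, hT⟩ := pencil pinf t ht E hE1 hEinf ψ₀ ψ₁ hψ₀ hψ₁ M hM₁ hM₀ hmin hdeg hcop S
  obtain ⟨n, hn⟩ := Infinite.exists_notMem_finset
    (T.preimage (Nat.cast : ℕ → K) (Nat.cast_injective.injOn))
  have hnT : (n : K) ∉ T := fun hmem => hn (Finset.mem_preimage.mpr hmem)
  obtain ⟨R, hR⟩ := hT (n : K) hnT
  rw [map_natCast] at hR
  exact ⟨n, R, hR⟩

end Fermat.Agent.MW.Gen.PencilBFinal
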