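import Mathlib
import Fermat.Agent.MW.HG.Defs
import Fermat.Agent.MW.Ht.Rep
import Fermat.Agent.Lib.FF.WeilCanonical
import Fermat.Agent.Lib.FF.CanonicalFF1
import Fermat.Agent.Lib.FF.PlaceInf
import Fermat.Agent.MW.Gen.PencilBFinal

/-!
# MW / GEN-2 (second seat): the rational pencil and the residual divisor

For an effective divisor `E` off `pinf` and `M ≥ 2g + deg E` the space `L(M·pinf − E)` is
base-point free; two sections `ψ₀, ψ₁` of it in general position satisfy
`min (ord_P ψ₀) (ord_P ψ₁) = E P` off `pinf` (`exists_pencil_pair`), and both can be taken fixed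
by any "descent-compatible" notion of rationality (abstract predicate `Fix` with the avoidance
property of `Ht.Rep.exists_fixed_notMem`).

`exists_residual_of_pencil` is the statement for the modular function field over `ℚ̄` with the
arithmetic Galois action, the pencil lemma (GEN-1) being a hypothesis in its literal shape;
`exists_residual` is the unconditional form (GEN-1 = `PencilBFinal.pencil`).
-/

set_option autoImplicit false

noncomputable section

namespace Fermat.Agent.MW.Gen.ResidualB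

open AlgebraicCurve Module WithZero
open Fermat.Agent.Lib.FF Fermat.Agent.Lib.FF.BasePoint Fermat.Agent.MW.HG Fermat.Agent.MW.HtM
open scoped IntermediateField

section Core

variable {K F : Type*} [Field K] [Field F] [Algebra K F] {x : F}

/-- the `ℤ`-valued divisor of an effective divisor -/
def castDiv (E : Place K F →₀ ℕ) : Divisor K F :=
  Finsupp.mapRange (Nat.castAddMonoidHom ℤ) (map_zero _) E

theorem castDiv_apply (E : Place K F →₀ ℕ) (P : Place K F) : castDiv E P = (E P : ℤ) := by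
  unfold castDiv
  rw [Finsupp.mapRange_apply]
  rfl

theorem degree_castDiv (h : IsFF1 K F x) (E : Place K F →₀ ℕ) :
    Divisor.degree (castDiv E) = (Fermat.Agent.MW.HQ.deg E : ℤ) := by
  rw [h.degree_eq_sum]
  have hs : (castDiv E).support = E.support := by
    ext P
    rw [Finsupp.mem_support_iff, Finsupp.mem_support_iff, castDiv_apply]
    exact_mod_cast Iff.rfl
  rw [hs]
  unfold Fermat.Agent.MW.HQ.deg Finsupp.sum
  push_cast
  exact Finset.sum_congr rfl fun P _ => castDiv_apply E P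

/-- the divisor `M·pinf − E` -/
def pdiv (pinf : Place K F) (E : Place K F →₀ ℕ) (M : ℕ) : Divisor K F :=
  (M : ℤ) • (Finsupp.single pinf (1 : ℤ) : Divisor K F) - castDiv E

theorem pdiv_apply_inf (pinf : Place K F) (E : Place K F →₀ ℕ) (M : ℕ) (hE : E pinf = 0) :
    pdiv pinf E M pinf = M := by
  unfold pdiv
  rw [Finsupp.sub_apply, Finsupp.smul_apply, Finsupp.single_eq_same, castDiv_apply, hE]
  simp

theorem pdiv_apply_ne (pinf : Place K F) (E : Place K F →₀ ℕ) (M : ℕ) {P : Place K F}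
    (hP : P ≠ pinf) : pdiv pinf E M P = -(E P : ℤ) := by
  unfold pdiv
  rw [Finsupp.sub_apply, Finsupp.smul_apply, Finsupp.single_eq_of_ne hP, castDiv_apply]
  simp

theorem degree_pdiv (h : IsFF1 K F x) (pinf : Place K F) (E : Place K F →₀ ℕ) (M : ℕ) :
    Divisor.degree (pdiv pinf E M) = (M : ℤ) - Fermat.Agent.MW.HQ.deg E := by
  unfold pdiv
  rw [map_sub, Fermat.Agent.MW.Ht.Rep.degree_zsmul_single h, degree_castDiv h]

/-- a section of `L(D)` outside `L(D − Q)` has order exactly `−D Q` at `Q` -/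
theorem ord_eq_of_notMem {D : Divisor K F} {Q : Place K F} {f : F}
    (hf : f ∈ riemannRochSpace D)
    (hf' : f ∉ riemannRochSpace (D - Finsupp.single Q (1 : ℤ))) :
    f ≠ 0 ∧ Q.ord f = -D Q := by
  have hf0 : f ≠ 0 := by
    rintro rfl
    exact hf' (Submodule.zero_mem _)
  refine ⟨hf0, ?_⟩
  rw [mem_riemannRochSpace_iff] at hf hf'
  have h1 : ∀ v : Place K F, -D v ≤ v.ord f := fun v => (hf v).resolve_left hf0
  by_contra hne
  apply hf'
  intro v
  right
  rw [Finsupp.sub_apply]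
  rcases eq_or_ne v Q with rfl | hv
  · rw [Finsupp.single_eq_same]
    have := h1 v
    omega
  · rw [Finsupp.single_eq_of_ne hv]
    have := h1 v
    omega

/-- base-point freeness in the subspace form -/
theorem not_le_of_bpf {D : Divisor K F} (hD : Bpf D) (Q : Place K F) :
    ¬ riemannRochSpace D ≤ riemannRochSpace (D - Finsupp.single Q (1 : ℤ)) := by
  intro hle
  obtain ⟨f, hf, hfQ⟩ := hD Q
  have h1 := hle hf Q
  rw [hfQ, exp_le_exp, Finsupp.sub_apply, Finsupp.single_eq_same] at h1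
  omega


/-- **The pencil pair.**  For `M ≥ 2g + deg E` there are two sections `ψ₀, ψ₁` of
`L(M·pinf − E)`, "rational" for any notion `Fix` of rationality with the avoidance property, with
exact pole order `M` at `pinf` and `min (ord_P ψ₀) (ord_P ψ₁) = E P` at every `P ≠ pinf`. -/
theorem exists_pencil_pair (h : IsFF1 K F x) (pinf : Place K F) (E : Place K F →₀ ℕ)
    (hEinf : E pinf = 0) (M : ℕ)
    (hM : 2 * genusFF K F + Fermat.Agent.MW.HQ.deg E ≤ M) (Fix : F → Prop)
    (hav : ∀ (T : Finset (Place K F)) (p : Place K F → Submodule K F),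
      (∀ Q ∈ T, ¬ riemannRochSpace (pdiv pinf E M) ≤ p Q) →
      ∃ f ∈ riemannRochSpace (pdiv pinf E M), Fix f ∧ ∀ Q ∈ T, f ∉ p Q) :
    ∃ ψ₀ ψ₁ : F, Fix ψ₀ ∧ Fix ψ₁ ∧ ψ₀ ≠ 0 ∧ ψ₁ ≠ 0 ∧ RegOff pinf ψ₀ ∧ RegOff pinf ψ₁ ∧
      pinf.ord ψ₀ = -(M : ℤ) ∧ pinf.ord ψ₁ = -(M : ℤ) ∧
      ∀ P : Place K F, P ≠ pinf → min (P.ord ψ₀) (P.ord ψ₁) = (E P : ℤ) := by
  classical
  set D := pdiv pinf E M with hD
  have hbpf : Bpf D := by
    apply WeilCanonical.bpf_of_two_genus h
    rw [hD, degree_pdiv h]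
    have : ((2 * genusFF K F + Fermat.Agent.MW.HQ.deg E : ℕ) : ℤ) ≤ (M : ℤ) := by
      exact_mod_cast hM
    push_cast at this
    linarith
  let p : Place K F → Submodule K F := fun Q => riemannRochSpace (D - Finsupp.single Q (1 : ℤ))
  have hp : ∀ (T : Finset (Place K F)), ∀ Q ∈ T, ¬ riemannRochSpace D ≤ p Q :=
    fun T Q _ => not_le_of_bpf hbpf Q
  have hreg : ∀ f : F, f ∈ riemannRochSpace D → f ≠ 0 → RegOff pinf f := by
    intro f hf hf0 P hP
    have h1 := (mem_riemannRochSpace_iff.mp hf P).resolve_left hf0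
    rw [hD, pdiv_apply_ne pinf E M hP] at h1
    have : (0 : ℤ) ≤ (E P : ℤ) := Int.natCast_nonneg _
    omega
  -- `ψ₁`
  obtain ⟨ψ₁, hψ₁, hF₁, hn₁⟩ := hav (insert pinf E.support) p (hp _)
  obtain ⟨hψ₁0, hord₁⟩ := ord_eq_of_notMem hψ₁ (hn₁ pinf (Finset.mem_insert_self _ _))
  rw [hD, pdiv_apply_inf pinf E M hEinf] at hord₁
  -- the zeros of `ψ₁`
  obtain ⟨Df, hDf, -⟩ := Fermat.Agent.MW.Ht.Rep.exists_div h hψ₁0
  -- `ψ₀`
  obtain ⟨ψ₀, hψ₀, hF₀, hn₀⟩ := hav (insert pinf Df.support) p (hp _)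
  obtain ⟨hψ₀0, hord₀⟩ := ord_eq_of_notMem hψ₀ (hn₀ pinf (Finset.mem_insert_self _ _))
  rw [hD, pdiv_apply_inf pinf E M hEinf] at hord₀
  refine ⟨ψ₀, ψ₁, hF₀, hF₁, hψ₀0, hψ₁0, hreg ψ₀ hψ₀ hψ₀0, hreg ψ₁ hψ₁ hψ₁0, hord₀, hord₁, ?_⟩
  intro P hP
  have h0 := (mem_riemannRochSpace_iff.mp hψ₀ P).resolve_left hψ₀0
  have h1 := (mem_riemannRochSpace_iff.mp hψ₁ P).resolve_left hψ₁0
  rw [hD, pdiv_apply_ne pinf E M hP, neg_neg] at h0 h1
  by_cases hPE : P ∈ E.support
  · -- `ψ₁` has order exactly `E P`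
    have h2 := (ord_eq_of_notMem hψ₁
      (hn₁ P (Finset.mem_insert_of_mem hPE))).2
    rw [hD, pdiv_apply_ne pinf E M hP, neg_neg] at h2
    rw [h2]
    exact min_eq_right h0
  · have hE0 : E P = 0 := Finsupp.notMem_support_iff.mp hPE
    rw [hE0] at h0 h1 ⊢
    by_cases hz : P.ord ψ₁ = 0
    · rw [hz]
      exact min_eq_right h0
    · have hPD : P ∈ Df.support := by
        rw [Finsupp.mem_support_iff, hDf]
        exact hz
      have h2 := (ord_eq_of_notMem hψ₀ (hn₀ P (Finset.mem_insert_of_mem hPD))).2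
      rw [hD, pdiv_apply_ne pinf E M hP, neg_neg, hE0] at h2
      rw [h2]
      exact min_eq_left h1


/-- **The pencil lemma (GEN-1) in its literal shape** (chief ruling #2): for a reduced `E` off
`pinf` and two functions `ψ₀, ψ₁` regular off `pinf` with `min (ord ψ₀) (ord ψ₁) = E` off `pinf`
and `ord_pinf ψ₁ = -M ≤ ord_pinf ψ₀`, all but finitely many members `ψ₀ + c ψ₁` of the pencil
have divisor of zeros `E + R` with `E + R` reduced, `R` off a given finite set and `t` injective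
on `R`. -/
def PencilProp (pinf : Place K F) (t : F) : Prop :=
  ∀ (E : Place K F →₀ ℕ) (ψ₀ ψ₁ : F) (M : ℕ) (S : Finset (Place K F)),
    (∀ P, E P ≤ 1) → E pinf = 0 → ψ₀ ≠ 0 → ψ₁ ≠ 0 → RegOff pinf ψ₀ → RegOff pinf ψ₁ →
    pinf.ord ψ₁ = -(M : ℤ) → -(M : ℤ) ≤ pinf.ord ψ₀ →
    (∀ P : Place K F, P ≠ pinf → min (P.ord ψ₀) (P.ord ψ₁) = (E P : ℤ)) →
    Fermat.Agent.MW.HQ.deg E < M →
    Nat.Coprime (Module.finrank K⟮t⟯ F) (M - Fermat.Agent.MW.HQ.deg E) →
    ∃ T : Finset K, ∀ c : K, c ∉ T → ∃ R : Place K F →₀ ℕ,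
      IsZDiv pinf (ψ₀ + algebraMap K F c * ψ₁) (E + R) ∧ (∀ P, (E + R) P ≤ 1) ∧
      (∀ P ∈ S, R P = 0) ∧
      (∀ P ∈ R.support, ∀ Q ∈ R.support, pval P t = pval Q t → P = Q) ∧
      Fermat.Agent.MW.HQ.deg (E + R) = M

/-- stability of an effective divisor in the `mapDomain` form, pointwise -/
theorem apply_inv_smul_of_mapDomain (g : SemilinearAut K F) {E : Place K F →₀ ℕ}
    (hE : E.mapDomain (fun P => g • P) = E) (v : Place K F) : E (g⁻¹ • v) = E v := by
  have h1 := Finsupp.mapDomain_apply (MulAction.injective g) E (g⁻¹ • v)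
  rw [smul_inv_smul, hE] at h1
  exact h1.symm

theorem mapDomain_of_apply_inv_smul (g : SemilinearAut K F) {E : Place K F →₀ ℕ}
    (hE : ∀ v : Place K F, E (g⁻¹ • v) = E v) : E.mapDomain (fun P => g • P) = E := by
  ext v
  have h1 := Finsupp.mapDomain_apply (MulAction.injective g) E (g⁻¹ • v)
  rw [smul_inv_smul] at h1
  rw [h1, hE]

/-- `M·pinf − E` is stable under an automorphism fixing `pinf` and `E` -/
theorem smul_pdiv (g : SemilinearAut K F) {pinf : Place K F} (hg : g • pinf = pinf)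
    {E : Place K F →₀ ℕ} (hE : E.mapDomain (fun P => g • P) = E) (M : ℕ) :
    g • pdiv pinf E M = pdiv pinf E M := by
  ext v
  rw [SemilinearAut.divisor_smul_apply]
  unfold pdiv
  rw [Finsupp.sub_apply, Finsupp.sub_apply, castDiv_apply, castDiv_apply,
    apply_inv_smul_of_mapDomain g hE v, Finsupp.smul_apply, Finsupp.smul_apply]
  congr 2
  by_cases hv : v = pinf
  · have h1 : g⁻¹ • v = pinf := by rw [hv, inv_smul_eq_iff, hg]
    rw [h1, hv]
  · have h1 : g⁻¹ • v ≠ pinf := by
      intro h2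
      apply hv
      rw [inv_smul_eq_iff, hg] at h2
      exact h2
    rw [Finsupp.single_eq_of_ne h1, Finsupp.single_eq_of_ne hv]

end Core

/-! ### The modular function field over `ℚ̄` -/

section Modular

open ModularCurve Fermat.Agent.Lib.FF.PlaceInf

variable (N : ℕ) [NeZero N]

set_option maxHeartbeats 1600000 in
/-- **GEN-2: the rational residual divisor.**  `g` the genus, `t` a coordinate of degree
`2g + 1`, `M = g + 1 + 2g(2g + 1)`.  For every set `U` of Galois automorphisms, every reduced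
`U`-stable effective divisor `E` of degree `g` off the cusp `∞` and every finite set `S` of
places there is a `U`-fixed function `ψ`, regular off `∞`, whose divisor of zeros is `E + R`
with `E + R` reduced of degree `M`, `R` off `S`, `t` injective on `R`, and `R` is `U`-stable. -/
theorem exists_residual_of_pencil (t : ↥(modularFunctionFieldBar N))
    (hP : PencilProp (placeInfL (AlgebraicClosure ℚ) N) t)
    (hm : Module.finrank (AlgebraicClosure ℚ)⟮t⟯ ↥(modularFunctionFieldBar N)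
      = 2 * genusFF (AlgebraicClosure ℚ) ↥(modularFunctionFieldBar N) + 1)
    (U : Set (AlgebraicClosure ℚ ≃ₐ[ℚ] AlgebraicClosure ℚ))
    (E : Place (AlgebraicClosure ℚ) ↥(modularFunctionFieldBar N) →₀ ℕ)
    (hE1 : ∀ P, E P ≤ 1) (hEinf : E (placeInfL (AlgebraicClosure ℚ) N) = 0)
    (hEdeg : Fermat.Agent.MW.HQ.deg E
      = genusFF (AlgebraicClosure ℚ) ↥(modularFunctionFieldBar N))
    (hEU : ∀ σ ∈ U,
      E.mapDomain (fun P => arithmeticGalois (modularFunctionFieldFull N) σ • P) = E)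
    (S : Finset (Place (AlgebraicClosure ℚ) ↥(modularFunctionFieldBar N))) :
    ∃ ψ : ↥(modularFunctionFieldBar N),
      (∀ σ ∈ U, arithmeticGalois (modularFunctionFieldFull N) σ • ψ = ψ) ∧
      RegOff (placeInfL (AlgebraicClosure ℚ) N) ψ ∧
      ∃ R : Place (AlgebraicClosure ℚ) ↥(modularFunctionFieldBar N) →₀ ℕ,
        IsZDiv (placeInfL (AlgebraicClosure ℚ) N) ψ (E + R) ∧ (∀ P, (E + R) P ≤ 1) ∧
        (∀ P ∈ S, R P = 0) ∧
        (∀ P ∈ R.support, ∀ Q ∈ R.support, pval P t = pval Q t → P = Q) ∧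
        Fermat.Agent.MW.HQ.deg (E + R)
          = genusFF (AlgebraicClosure ℚ) ↥(modularFunctionFieldBar N) + 1
            + 2 * genusFF (AlgebraicClosure ℚ) ↥(modularFunctionFieldBar N)
              * (2 * genusFF (AlgebraicClosure ℚ) ↥(modularFunctionFieldBar N) + 1) ∧
        ∀ σ ∈ U,
          R.mapDomain (fun P => arithmeticGalois (modularFunctionFieldFull N) σ • P) = R := by
  classical
  have h := Fermat.Agent.Lib.FF.Res.isFF1_modular N
  generalize hg : genusFF (AlgebraicClosure ℚ) ↥(modularFunctionFieldBar N) = g at *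
  set pinf := placeInfL (AlgebraicClosure ℚ) N with hpinf
  set M : ℕ := g + 1 + 2 * g * (2 * g + 1) with hMdef
  have hfixinf : ∀ σ : AlgebraicClosure ℚ ≃ₐ[ℚ] AlgebraicClosure ℚ,
      arithmeticGalois (modularFunctionFieldFull N) σ • pinf = pinf :=
    fun σ => arithmeticGalois_smul_placeInfL (AlgebraicClosure ℚ) N σ
  have hDU : ∀ σ ∈ U, arithmeticGalois (modularFunctionFieldFull N) σ • pdiv pinf E M
      = pdiv pinf E M := fun σ hσ => smul_pdiv _ (hfixinf σ) (hEU σ hσ) M
  have hav : ∀ (T : Finset (Place (AlgebraicClosure ℚ) ↥(modularFunctionFieldBar N)))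
      (p : Place (AlgebraicClosure ℚ) ↥(modularFunctionFieldBar N) →
        Submodule (AlgebraicClosure ℚ) ↥(modularFunctionFieldBar N)),
      (∀ Q ∈ T, ¬ riemannRochSpace (pdiv pinf E M) ≤ p Q) →
      ∃ f ∈ riemannRochSpace (pdiv pinf E M),
        (∀ σ ∈ U, arithmeticGalois (modularFunctionFieldFull N) σ • f = f) ∧
        ∀ Q ∈ T, f ∉ p Q := by
    intro T p hp
    have : Module.Finite (AlgebraicClosure ℚ) (riemannRochSpace (pdiv pinf E M)) :=
      h.finite_L _
    exact Fermat.Agent.MW.Ht.Rep.exists_fixed_notMem (modularFunctionFieldFull N) U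
      (riemannRochSpace (pdiv pinf E M))
      (fun σ hσ f hf => Fermat.Agent.MW.Ht.Rep.smul_mem_L _ (hDU σ hσ) hf) T p hp
  obtain ⟨ψ₀, ψ₁, hF₀, hF₁, h00, h10, hr0, hr1, ho0, ho1, hmin⟩ :=
    exists_pencil_pair h pinf E hEinf M (by rw [hg, hEdeg, hMdef]; nlinarith)
      (fun f => ∀ σ ∈ U, arithmeticGalois (modularFunctionFieldFull N) σ • f = f) hav
  have hcop : Nat.Coprime (Module.finrank (AlgebraicClosure ℚ)⟮t⟯ ↥(modularFunctionFieldBar N))
      (M - Fermat.Agent.MW.HQ.deg E) := by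
    rw [hm, hEdeg, hMdef]
    have e : g + 1 + 2 * g * (2 * g + 1) - g = 1 + 2 * g * (2 * g + 1) := by omega
    rw [e, Nat.coprime_add_mul_right_right]
    exact Nat.coprime_one_right _
  obtain ⟨T, hT⟩ := hP E ψ₀ ψ₁ M S hE1 hEinf h00 h10 hr0 hr1 ho1 ho0.ge hmin
    (by rw [hEdeg, hMdef]; nlinarith) hcop
  -- a rational parameter outside `T`
  obtain ⟨c, hc⟩ : ∃ c : ℚ, algebraMap ℚ (AlgebraicClosure ℚ) c ∉ T := by
    by_contra hcon
    push Not at hcon
    have hinj : Function.Injective (algebraMap ℚ (AlgebraicClosure ℚ)) :=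
      (algebraMap ℚ (AlgebraicClosure ℚ)).injective
    exact (Set.infinite_range_of_injective hinj).not_finite
      (T.finite_toSet.subset (by rintro _ ⟨c, rfl⟩; exact hcon c))
  obtain ⟨R, hZ, hred, hS, hinj, hdeg⟩ := hT _ hc
  have hfixψ : ∀ σ ∈ U, arithmeticGalois (modularFunctionFieldFull N) σ •
      (ψ₀ + algebraMap (AlgebraicClosure ℚ) ↥(modularFunctionFieldBar N)
        (algebraMap ℚ (AlgebraicClosure ℚ) c) * ψ₁)
      = ψ₀ + algebraMap (AlgebraicClosure ℚ) ↥(modularFunctionFieldBar N)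
        (algebraMap ℚ (AlgebraicClosure ℚ) c) * ψ₁ := by
    intro σ hσ
    rw [smul_add, smul_mul', hF₀ σ hσ, hF₁ σ hσ, SemilinearAut.smul_algebraMap,
      baseAut_arithmeticGalois]
    congr 3
    exact σ.commutes c
  refine ⟨_, hfixψ, ?_, R, hZ, hred, hS, hinj, hdeg, ?_⟩
  · intro P hPne
    rw [← hZ.2 P hPne]
    exact Int.natCast_nonneg _
  · intro σ hσ
    apply mapDomain_of_apply_inv_smul
    intro v
    have hE' := apply_inv_smul_of_mapDomain _ (hEU σ hσ) v
    by_cases hv : v = pinf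
    · have h1 : (arithmeticGalois (modularFunctionFieldFull N) σ)⁻¹ • v = pinf := by
        rw [hv, inv_smul_eq_iff, hfixinf]
      have h2 : R pinf = 0 := by
        have := hZ.1
        rw [Finsupp.add_apply] at this
        omega
      rw [h1, hv]
    · have h1 : (arithmeticGalois (modularFunctionFieldFull N) σ)⁻¹ • v ≠ pinf := by
        intro h2
        apply hv
        rw [inv_smul_eq_iff, hfixinf] at h2
        exact h2
      have e1 := hZ.2 _ h1
      have e2 := hZ.2 v hv
      have e3 := SemilinearAut.ord_smul (arithmeticGalois (modularFunctionFieldFull N) σ)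
        ((arithmeticGalois (modularFunctionFieldFull N) σ)⁻¹ • v)
        (ψ₀ + algebraMap (AlgebraicClosure ℚ) ↥(modularFunctionFieldBar N)
          (algebraMap ℚ (AlgebraicClosure ℚ) c) * ψ₁)
      rw [smul_inv_smul, hfixψ σ hσ] at e3
      rw [Finsupp.add_apply] at e1 e2
      push_cast at e1 e2
      have : ((R ((arithmeticGalois (modularFunctionFieldFull N) σ)⁻¹ • v) : ℕ) : ℤ)
          = (R v : ℤ) := by
        have hE'' : ((E ((arithmeticGalois (modularFunctionFieldFull N) σ)⁻¹ • v) : ℕ) : ℤ)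
            = (E v : ℤ) := by rw [hE']
        linarith
      exact_mod_cast this


/-- the pencil lemma `PencilBFinal.pencil` in the shape `PencilProp` -/
theorem pencilProp {K F : Type*} [Field K] [Field F] [Algebra K F] [IsAlgClosed K] [CharZero K]
    (pinf : Place K F) (t : F) (ht : Transcendental K t) [FiniteDimensional K⟮t⟯ F] :
    PencilProp pinf t :=
  fun E ψ₀ ψ₁ M S hE1 hEinf h0 h1 _ _ hM1 hM0 hmin hdeg hcop =>
    Fermat.Agent.MW.Gen.PencilBFinal.pencil pinf t ht E hE1 hEinf ψ₀ ψ₁ h0 h1 M hM1 hM0 hmin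
      hdeg hcop S

/-- **GEN-2, unconditional.**  `g` the genus, `t` a transcendental coordinate of degree
`2g + 1`, `M = g + 1 + 2g(2g + 1)`: for every set `U` of Galois automorphisms, every reduced
`U`-stable effective divisor `E` of degree `g` off the cusp `∞` and every finite set `S` of
places there is a `U`-fixed function `ψ`, regular off `∞`, whose divisor of zeros is `E + R`
with `E + R` reduced of degree `M`, `R` off `S`, `t` injective on `R`, `R` `U`-stable. -/
theorem exists_residual (t : ↥(modularFunctionFieldBar N))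
    (ht : Transcendental (AlgebraicClosure ℚ) t)
    (hm : Module.finrank (AlgebraicClosure ℚ)⟮t⟯ ↥(modularFunctionFieldBar N)
      = 2 * genusFF (AlgebraicClosure ℚ) ↥(modularFunctionFieldBar N) + 1)
    (U : Set (AlgebraicClosure ℚ ≃ₐ[ℚ] AlgebraicClosure ℚ))
    (E : Place (AlgebraicClosure ℚ) ↥(modularFunctionFieldBar N) →₀ ℕ)
    (hE1 : ∀ P, E P ≤ 1) (hEinf : E (placeInfL (AlgebraicClosure ℚ) N) = 0)
    (hEdeg : Fermat.Agent.MW.HQ.deg E
      = genusFF (AlgebraicClosure ℚ) ↥(modularFunctionFieldBar N))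
    (hEU : ∀ σ ∈ U,
      E.mapDomain (fun P => arithmeticGalois (modularFunctionFieldFull N) σ • P) = E)
    (S : Finset (Place (AlgebraicClosure ℚ) ↥(modularFunctionFieldBar N))) :
    ∃ ψ : ↥(modularFunctionFieldBar N),
      (∀ σ ∈ U, arithmeticGalois (modularFunctionFieldFull N) σ • ψ = ψ) ∧
      RegOff (placeInfL (AlgebraicClosure ℚ) N) ψ ∧
      ∃ R : Place (AlgebraicClosure ℚ) ↥(modularFunctionFieldBar N) →₀ ℕ,
        IsZDiv (placeInfL (AlgebraicClosure ℚ) N) ψ (E + R) ∧ (∀ P, (E + R) P ≤ 1) ∧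
        (∀ P ∈ S, R P = 0) ∧
        (∀ P ∈ R.support, ∀ Q ∈ R.support, pval P t = pval Q t → P = Q) ∧
        Fermat.Agent.MW.HQ.deg (E + R)
          = genusFF (AlgebraicClosure ℚ) ↥(modularFunctionFieldBar N) + 1
            + 2 * genusFF (AlgebraicClosure ℚ) ↥(modularFunctionFieldBar N)
              * (2 * genusFF (AlgebraicClosure ℚ) ↥(modularFunctionFieldBar N) + 1) ∧
        ∀ σ ∈ U,
          R.mapDomain (fun P => arithmeticGalois (modularFunctionFieldFull N) σ • P) = R := by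
  have hfd : FiniteDimensional (AlgebraicClosure ℚ)⟮t⟯ ↥(modularFunctionFieldBar N) :=
    FiniteDimensional.of_finrank_pos (by rw [hm]; omega)
  exact exists_residual_of_pencil N t (pencilProp _ t ht) hm U E hE1 hEinf hEdeg hEU S

end Modular

end Fermat.Agent.MW.Gen.ResidualB
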