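/-
MW / HT-Q, function-field instance side (helper78) — the field `translates` of `HG.CurveD`
(`HG/Curve2.lean`) at the level of `J`, for `F = ℚ̄·F_N`.

`J` is any subgroup of `JZero N` consisting of `U₀`-fixed classes and containing all of them
(e.g. `FixedPoints.addSubgroup ↥U₀ (JZero N)`), `cl : (Pl N →₀ ℕ) →+ J` any class map equal to
`PlBridge.clPl` on the rational divisors (`PlBridge.exists_cl`).

* `natDiv E` : the effective divisor of places of an effective divisor `E` off `∞`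
  (`coe_natDiv`, `clPl_natDiv : clPl (natDiv E) = cls E`, `stable_natDiv`);
* `translates_of_asm` : the literal field `translates`
  `∃ 𝒞 : Finset J, ∀ x : J, ∃ c ∈ 𝒞, ∃ E, 𝒟.Good E ∧ 𝒟.cl E = x + c`
  from (1) good translates on `JZero N` for a predicate `G` on divisors (output of
  `Ht/GoodTranslateJInj.lean`) and (2) the assembly `hasm`: every `U₀`-invariant divisor with `G`
  is (the integral divisor of) a `𝒟.Good` divisor;
* `exists_translates_of_asm` : with (1) discharged by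
  `GoodTranslateJInj.exists_good_translate_inj_field`: there is a number field `K₀` such that for
  every `U₀ ≤ Gal(ℚ̄/K₀)` the field `translates` follows from the assembly of the `t`-injective
  good divisors avoiding `S₀`.
-/
import Mathlib
import Fermat.Agent.MW.Ht.GoodTranslateJInj
import Fermat.Agent.MW.Gen.PlBridge
import Fermat.Agent.MW.HG.Curve2

set_option autoImplicit false

noncomputable section

namespace Fermat.Agent.MW.Gen.Translates

open AlgebraicCurve ModularCurve Module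
open Fermat.Agent.MW Fermat.Agent.MW.Ht.Defs Fermat.Agent.MW.HtM Fermat.Agent.MW.Ht.AbsQb
open Fermat.Agent.Lib.FF Fermat.Agent.Lib.FF.PlaceInf
open Fermat.Agent.MW.Gen.PlBridge Fermat.Agent.MW.Ht.GoodTranslateJ
open scoped IntermediateField

local notation "Qb" => AlgebraicClosure ℚ
local notation "GQ" => (AlgebraicClosure ℚ ≃ₐ[ℚ] AlgebraicClosure ℚ)

variable (N : ℕ) [NeZero N]

/-! ### From integral divisors to effective divisors of places -/

/-- The effective divisor of places attached to a divisor of the function field (its positive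
part off `∞`). -/
def natDiv (E : Divisor Qb (FN N)) : Pl N →₀ ℕ := toPl N (Ht.RepPt.ofDiv N E)

theorem natDiv_pinf (E : Divisor Qb (FN N)) : natDiv N E (pinf N) = 0 := toPl_pinf N _

theorem coe_natDiv {E : Divisor Qb (FN N)} (hE : 0 ≤ E) (hinf : E (pinf N) = 0) (v : Pl N) :
    (natDiv N E v : ℤ) = E v := by
  by_cases hv : v = pinf N
  · rw [hv, natDiv_pinf, hinf]
    rfl
  · have h1 : natDiv N E v = Ht.RepPt.ofDiv N E ⟨v, hv⟩ := toPl_apply N _ ⟨v, hv⟩
    rw [h1, Ht.RepPt.ofDiv_apply]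
    exact Int.toNat_of_nonneg (Finsupp.le_def.mp hE v)

/-- An effective divisor of places with the same coefficients as `E` is `natDiv E`. -/
theorem eq_natDiv {E : Divisor Qb (FN N)} (hE : 0 ≤ E) (hinf : E (pinf N) = 0)
    {E' : Pl N →₀ ℕ} (h : ∀ v, (E' v : ℤ) = E v) : E' = natDiv N E := by
  ext v
  have h1 := coe_natDiv N hE hinf v
  rw [← h v] at h1
  exact_mod_cast h1.symm

theorem clPl_natDiv {E : Divisor Qb (FN N)} (hE : 0 ≤ E) (hinf : E (pinf N) = 0) :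
    clPl N (natDiv N E) = cls N E := by
  unfold natDiv
  rw [clPl_toPl, ← cls_toDiv, Ht.RepPt.toDiv_ofDiv N hE hinf]

theorem ofDiv_mem_RatU {U₀ : Subgroup GQ} {E : Divisor Qb (FN N)} (hE : 0 ≤ E)
    (hinf : E (pinf N) = 0)
    (hU : ∀ σ ∈ U₀, arithmeticGalois (modularFunctionFieldFull N) σ • E = E) :
    Ht.RepPt.ofDiv N E ∈ RatU N U₀ := by
  intro σ hσ
  apply Ht.RepPt.toDiv_injective N
  rw [← smul_toDiv, Ht.RepPt.toDiv_ofDiv N hE hinf]
  exact hU σ hσ

theorem stable_natDiv {U₀ : Subgroup GQ} {E : Divisor Qb (FN N)} (hE : 0 ≤ E)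
    (hinf : E (pinf N) = 0)
    (hU : ∀ σ ∈ U₀, arithmeticGalois (modularFunctionFieldFull N) σ • E = E) :
    ∀ σ ∈ U₀, (natDiv N E).mapDomain
      (fun P => arithmeticGalois (modularFunctionFieldFull N) σ • P) = natDiv N E :=
  stable_toPl N (ofDiv_mem_RatU N hE hinf hU)

/-! ### The field `translates` -/

/-- **The field `translates` of `HG.CurveD`**, from good translates on `JZero N` for a predicate
`G` and the assembly of `G`-divisors into `𝒟.Good` divisors. -/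
theorem translates_of_asm {t : FN N} {m : ℕ} (𝒮 : HG.Setting absFamily (placeInfL Qb N) t m)
    (U₀ : Subgroup GQ) (J : AddSubgroup (JZero N))
    (hJ : ∀ x : JZero N, (∀ σ ∈ U₀, σ • x = x) → x ∈ J)
    (hJ' : ∀ x ∈ J, ∀ σ ∈ U₀, σ • x = x)
    (𝒟 : HG.CurveD₀ 𝒮 J) (hcl : ∀ D ∈ 𝒮.RatU, (𝒟.cl D : JZero N) = clPl N D)
    (G : Divisor Qb (FN N) → Prop)
    (hG : ∀ E, G E → 0 ≤ E ∧ E (pinf N) = 0)
    (hasm : ∀ E : Divisor Qb (FN N), G E →
      (∀ σ ∈ U₀, arithmeticGalois (modularFunctionFieldFull N) σ • E = E) →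
      ∃ E' : Pl N →₀ ℕ, 𝒟.Good E' ∧ ∀ v, (E' v : ℤ) = E v)
    (C : Finset (JZero N)) (hC : ∀ c ∈ C, ∀ σ ∈ U₀, σ • c = c)
    (hx : ∀ x : JZero N, (∀ σ ∈ U₀, σ • x = x) →
      ∃ c ∈ C, ∃ E : Divisor Qb (FN N), G E ∧
        (∀ σ ∈ U₀, arithmeticGalois (modularFunctionFieldFull N) σ • E = E) ∧
        cls N E = x + c) :
    ∃ 𝒞 : Finset J, ∀ x : J, ∃ c ∈ 𝒞, ∃ E, 𝒟.Good E ∧ 𝒟.cl E = x + c := by
  classical
  refine ⟨C.subtype (fun c => c ∈ J), fun x => ?_⟩
  obtain ⟨c, hc, E, hGE, hinv, hcls⟩ := hx (x : JZero N) (hJ' _ x.2)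
  obtain ⟨hE0, hEinf⟩ := hG E hGE
  obtain ⟨E', hgood, hE'⟩ := hasm E hGE hinv
  have hcJ : c ∈ J := hJ c (hC c hc)
  refine ⟨⟨c, hcJ⟩, Finset.mem_subtype.mpr hc, E', hgood, Subtype.ext ?_⟩
  have hrat : E' ∈ 𝒮.RatU := by
    obtain ⟨P, R, a, hEP, -, -, hrat, -⟩ := hgood
    rw [hEP]
    exact hrat
  rw [hcl E' hrat, eq_natDiv N hE0 hEinf hE', clPl_natDiv N hE0 hEinf, hcls]
  rfl

/-- **The field `translates` over a number field.**  For `t` regular off `∞`, transcendental,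
with `[F : ℚ̄(t)]` coprime to `g + 1`, and a finite set `S₀` of places: there is a number field
`K₀` such that for EVERY `U₀ ≤ Gal(ℚ̄/K₀)`, every setting, every `J` and every `𝒟 : CurveD₀ 𝒮 J`
whose class map is `clPl` on the rational divisors, the field `translates` holds as soon as
every `U₀`-invariant effective reduced divisor `E` of degree `g`, off `∞` and `S₀`, with
`dim L(E) = 1`, `H¹(E) = 0`, `L((2g-1)∞ - E) = 0` and `t` injective on its support, is (the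
integral divisor of) a `𝒟.Good` divisor. -/
theorem exists_translates_of_asm (t : FN N)
    (ht : ∀ P : Pl N, P ≠ placeInfL Qb N → 0 ≤ P.ord t) (htt : Transcendental Qb t)
    (hco : Nat.Coprime (finrank Qb⟮t⟯ (FN N)) (genusFF Qb (FN N) + 1))
    (S₀ : Finset (Pl N)) :
    ∃ K₀ : IntermediateField ℚ Qb, FiniteDimensional ℚ K₀ ∧
    ∀ U₀ : Subgroup GQ, U₀ ≤ K₀.fixingSubgroup →
    ∀ {m : ℕ} (𝒮 : HG.Setting absFamily (placeInfL Qb N) t m) (J : AddSubgroup (JZero N)),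
      (∀ x : JZero N, (∀ σ ∈ U₀, σ • x = x) → x ∈ J) → (∀ x ∈ J, ∀ σ ∈ U₀, σ • x = x) →
      ∀ 𝒟 : HG.CurveD₀ 𝒮 J, (∀ D ∈ 𝒮.RatU, (𝒟.cl D : JZero N) = clPl N D) →
      (∀ E : Divisor Qb (FN N),
        (0 ≤ E ∧ (∀ v, E v ≤ 1) ∧ E (placeInfL Qb N) = 0 ∧ (∀ v ∈ S₀, E v = 0) ∧
          Divisor.degree E = genusFF Qb (FN N) ∧
          finrank Qb (riemannRochSpace E) = 1 ∧ RR.MD E = ⊤ ∧
          riemannRochSpace ((2 * (genusFF Qb (FN N) : ℤ) - 1) •
            Finsupp.single (placeInfL Qb N) (1 : ℤ) - E) = ⊥ ∧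
          (∀ v w, E v = 1 → E w = 1 → pval v t = pval w t → v = w)) →
        (∀ σ ∈ U₀, arithmeticGalois (modularFunctionFieldFull N) σ • E = E) →
        ∃ E' : Pl N →₀ ℕ, 𝒟.Good E' ∧ ∀ v, (E' v : ℤ) = E v) →
      ∃ 𝒞 : Finset J, ∀ x : J, ∃ c ∈ 𝒞, ∃ E, 𝒟.Good E ∧ 𝒟.cl E = x + c := by
  obtain ⟨K₀, hK₀, h⟩ :=
    Ht.GoodTranslateJInj.exists_good_translate_inj_field N t ht htt hco S₀
  refine ⟨K₀, hK₀, fun U₀ hU₀ m 𝒮 J hJ hJ' 𝒟 hcl hasm => ?_⟩
  obtain ⟨C, hC, hx⟩ := h U₀ hU₀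
  exact translates_of_asm N 𝒮 U₀ J hJ hJ' 𝒟 hcl _ (fun E hE => ⟨hE.1, hE.2.2.1⟩) hasm C hC hx

end Fermat.Agent.MW.Gen.Translates
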