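/-
MW / HT-Q — the assembly hypothesis `hasm` of `Translates.exists_translates_of_asm`, CLOSED
(helper21): for the modular curve, every `U₀`-invariant good divisor `E` (the output of the good
translates, `Ht/GoodTranslateJInj.lean`) is the integral divisor of a `𝒟.Good` divisor.

= `Translates.natDiv` (the effective divisor of places of `E`)
  + `ResidualB.exists_residual` (GEN-2: the rational residual pencil member `ψ`, `R`)
  + `GoodAsmB.good_of` (raw data ⟹ `Good`).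

The facts about `𝒟 : CurveD₀ 𝒮 J` that enter are named hypotheses, all of them properties of the
instance: `m = 2g + 1`, `𝒮.U` is the image of `U₀`, `γ = g`, `M₁ = g + 1 + 2g(2g + 1)`,
`κ` a linearly independent family in `L((2g − 1)·∞)`, `w₁` spans `L(M₁·∞)`, and `S₀` contains the
`t`-fibres of the ramification points.
-/
import Mathlib
import Fermat.Agent.MW.Gen.GoodAsmB
import Fermat.Agent.MW.Gen.Translates
import Fermat.Agent.MW.Gen.ResidualB
import Fermat.Agent.MW.HG.NormDataOf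

set_option autoImplicit false

noncomputable section

namespace Fermat.Agent.MW.Gen.HasmB

open AlgebraicCurve ModularCurve Module
open Fermat.Agent.MW Fermat.Agent.MW.Ht.Defs Fermat.Agent.MW.HtM Fermat.Agent.MW.Ht.AbsQb
open Fermat.Agent.Lib.FF Fermat.Agent.Lib.FF.PlaceInf
open Fermat.Agent.MW.Gen.PlBridge Fermat.Agent.MW.HQ Fermat.Agent.MW.HG
open scoped IntermediateField

local notation "Qb" => AlgebraicClosure ℚ
local notation "GQ" => (AlgebraicClosure ℚ ≃ₐ[ℚ] AlgebraicClosure ℚ)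

/-- A function with a divisor of zeros of positive degree is not zero. -/
theorem ne_zero_of_isZDiv {K F : Type*} [Field K] [Field F] [Algebra K F] {pinf : Place K F}
    {φ : F} {Z : Place K F →₀ ℕ} (hZ : IsZDiv pinf φ Z) (hdeg : 0 < deg Z) : φ ≠ 0 := by
  rintro rfl
  have hZ0 : Z = 0 := by
    ext P
    by_cases hP : P = pinf
    · rw [hP, hZ.1]
      rfl
    · have h1 := hZ.2 P hP
      rw [Place.ord_zero] at h1
      exact_mod_cast h1
  rw [hZ0] at hdeg
  simp at hdeg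

variable (N : ℕ) [NeZero N]

set_option maxHeartbeats 1600000 in
/-- **The assembly `hasm`** of `Translates.exists_translates_of_asm`, for the modular curve. -/
theorem hasm_modular {t : FN N} {m : ℕ} (𝒮 : HG.Setting absFamily (placeInfL Qb N) t m)
    (U₀ : Subgroup GQ) {J : Type*} [AddCommGroup J] (𝒟 : HG.CurveD₀ 𝒮 J)
    (hm : m = 2 * genusFF Qb (FN N) + 1)
    (h𝒮U : ∀ u ∈ 𝒮.U, ∃ σ ∈ U₀, arithmeticGalois (modularFunctionFieldFull N) σ = u)
    (hγ : 𝒟.γ = genusFF Qb (FN N))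
    (hM₁ : 𝒟.M₁ = genusFF Qb (FN N) + 1
      + 2 * genusFF Qb (FN N) * (2 * genusFF Qb (FN N) + 1))
    (hκ : ∀ i, 𝒟.κ i ∈ riemannRochSpace ((2 * (genusFF Qb (FN N) : ℤ) - 1) •
      Finsupp.single (placeInfL Qb N) (1 : ℤ)))
    (hκli : LinearIndependent Qb 𝒟.κ)
    (hw₁span : ∀ φ : FN N, RegOff (placeInfL Qb N) φ →
      -(𝒟.M₁ : ℤ) ≤ (placeInfL Qb N).ord φ → φ ∈ Submodule.span Qb (Set.range 𝒟.w₁))
    (S₀ : Finset (Pl N))
    (hS₀ : ∀ r ∈ 𝒟.𝔯.support, ∀ Q : Pl N, Q ≠ placeInfL Qb N → pval Q t = pval r t → Q ∈ S₀) :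
    ∀ E : Divisor Qb (FN N),
      (0 ≤ E ∧ (∀ v, E v ≤ 1) ∧ E (placeInfL Qb N) = 0 ∧ (∀ v ∈ S₀, E v = 0) ∧
        Divisor.degree E = genusFF Qb (FN N) ∧
        finrank Qb (riemannRochSpace E) = 1 ∧ RR.MD E = ⊤ ∧
        riemannRochSpace ((2 * (genusFF Qb (FN N) : ℤ) - 1) •
          Finsupp.single (placeInfL Qb N) (1 : ℤ) - E) = ⊥ ∧
        (∀ v w, E v = 1 → E w = 1 → pval v t = pval w t → v = w)) →
      (∀ σ ∈ U₀, arithmeticGalois (modularFunctionFieldFull N) σ • E = E) →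
      ∃ E' : Pl N →₀ ℕ, 𝒟.Good E' ∧ ∀ v, (E' v : ℤ) = E v := by
  classical
  rintro E ⟨hE0, hE1, hEinf, hES₀, hEdeg, hlE, -, hEns, hEinj⟩ hEU
  have h := Fermat.Agent.Lib.FF.Res.isFF1_modular N
  obtain ⟨E', hE'def⟩ : ∃ E' : Pl N →₀ ℕ, E' = Translates.natDiv N E := ⟨_, rfl⟩
  have hcoe : ∀ v, (E' v : ℤ) = E v := by
    rw [hE'def]
    exact Translates.coe_natDiv N hE0 hEinf
  have hE'1 : ∀ P, E' P ≤ 1 := fun P => by
    have h1 := hE1 P
    rw [← hcoe P] at h1
    exact_mod_cast h1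
  have hE'inf : E' (placeInfL Qb N) = 0 := by
    rw [hE'def]
    exact Translates.natDiv_pinf N E
  have hE'st : ∀ σ ∈ U₀, E'.mapDomain
      (fun P => arithmeticGalois (modularFunctionFieldFull N) σ • P) = E' := by
    rw [hE'def]
    exact Translates.stable_natDiv N hE0 hEinf hEU
  have hE'U : E' ∈ 𝒮.RatU := ⟨hE'inf, fun u hu => by
    obtain ⟨σ, hσ, rfl⟩ := h𝒮U u hu
    exact hE'st σ hσ⟩
  have hE'deg : deg E' = genusFF Qb (FN N) := by
    have h1 := ResidualB.degree_castDiv h E'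
    have h2 : ResidualB.castDiv E' = E := by
      ext v
      rw [ResidualB.castDiv_apply, hcoe]
    rw [h2, hEdeg] at h1
    exact_mod_cast h1.symm
  -- the avoided set: the fibres of the ramification points and of the points of `E`
  obtain ⟨SE, hSE⟩ := GoodAsmB.exists_fibre_finset 𝒮 E'.support
  -- the residual
  have ht : Transcendental Qb t := NormDataOf.transcendental_t 𝒮
  have hfin : finrank Qb⟮t⟯ (FN N) = 2 * genusFF Qb (FN N) + 1 := by
    rw [NormDataOf.finrank_eq h 𝒮, hm]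
  obtain ⟨ψ, hψfix, hψreg, R, hZ, hred, hRS, hRinj, hdeg, -⟩ :=
    ResidualB.exists_residual N t ht hfin (U₀ : Set GQ) E' hE'1 hE'inf hE'deg hE'st (S₀ ∪ SE)
  have hdeg' : deg (E' + R) = 𝒟.M₁ := by rw [hdeg, hM₁]
  have hψ0 : ψ ≠ 0 := ne_zero_of_isZDiv hZ (by rw [hdeg]; omega)
  have hψU : ∀ u ∈ 𝒮.U, u • ψ = ψ := fun u hu => by
    obtain ⟨σ, hσ, rfl⟩ := h𝒮U u hu
    exact hψfix σ hσ
  have hpole : -(𝒟.M₁ : ℤ) ≤ (placeInfL Qb N).ord ψ := by
    have h1 := NormDataOf.deg_eq_of_isZDiv h hψ0 hZ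
    rw [hdeg'] at h1
    omega
  have hR0 : R (placeInfL Qb N) = 0 := by
    have h1 := hZ.1
    rw [Finsupp.add_apply] at h1
    omega
  refine ⟨E', ?_, hcoe⟩
  refine GoodAsmB.good_of h 𝒟 _ hκ hκli E' hE'1 hE'U (hE'deg.trans hγ.symm) ?_ E
    (fun Q => (hcoe Q).symm) hEns hlE ?_ ψ hψ0 hψU (hw₁span ψ hψreg hpole) R hZ hred hdeg' hRinj
    ?_ ?_ ?_
  · intro P hP
    have hPne : placeInfL Qb N ≠ P := fun e =>
      (Finsupp.mem_support_iff.mp hP) (e ▸ hE'inf)
    show (2 * (genusFF Qb (FN N) : ℤ) - 1) • ((Finsupp.single (placeInfL Qb N) (1 : ℤ)) P) = 0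
    rw [Finsupp.single_apply, if_neg hPne, smul_zero]
  · intro v hv w hw hval
    have key : ∀ u ∈ E'.support, E u = 1 := fun u hu => by
      have h1 : E' u ≠ 0 := Finsupp.mem_support_iff.mp hu
      have h2 := hE'1 u
      have h3 : E' u = 1 := by omega
      have h4 := hcoe u
      rw [h3] at h4
      exact_mod_cast h4.symm
    exact hEinj v w (key v hv) (key w hw) hval
  · exact GoodAsmB.far_of_avoid 𝒮 hE'inf hS₀ fun Q hQ => by
      have h1 := hES₀ Q hQ
      rw [← hcoe Q] at h1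
      exact_mod_cast h1
  · exact GoodAsmB.far_of_avoid 𝒮 hR0 hS₀ fun Q hQ => hRS Q (Finset.mem_union_left _ hQ)
  · exact Far.symm 𝒮.far_symm
      (GoodAsmB.far_of_avoid 𝒮 hR0 hSE fun Q hQ => hRS Q (Finset.mem_union_right _ hQ))

end Fermat.Agent.MW.Gen.HasmB
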