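/-
MW / HT-Q, the field `north` of `HG.CurveD` in the literal `HG.Setting` vocabulary (helper65).

For a `Setting` over `Qb = AlgebraicClosure ℚ` with the family `AbsQb.absFamily` whose arithmetic
comes from a homomorphism `ρ : G_ℚ →* SemilinearAut Qb F` (`U ⊇ ρ U₀`, `Sg = ρ Sg₀`,
`Sg₀` covering `G_ℚ / U₀`): only finitely many `U`-stable effective divisors off `pinf` of
degree `≤ d` have height `ht etaU ≤ T`.

This is helper17's `North.finite_divisors_of_ht_le_act` for the points `Place Qb F`, the action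
`σ ↦ ρ σ • ·` and the function `P ↦ pval P t`.
-/
import Mathlib
import Fermat.Agent.MW.Ht.North
import Fermat.Agent.MW.Ht.AbsFamilyQb
import Fermat.Agent.MW.Ht.GalBridge
import Fermat.Agent.MW.Ht.RamDiv
import Fermat.Agent.MW.HG.Defs

set_option autoImplicit false

noncomputable section

namespace Fermat.Agent.MW.Gen.NorthSetting

open AlgebraicCurve ModularCurve
open Fermat.Agent.Lib.FF Fermat.Agent.MW.HtM Fermat.Agent.MW.HQ Fermat.Agent.MW.HG
open Fermat.Agent.MW.Ht.AbsQb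

local notation "Qb" => AlgebraicClosure ℚ
local notation "GQ" => (AlgebraicClosure ℚ ≃ₐ[ℚ] AlgebraicClosure ℚ)

section Generic

variable {F : Type*} [Field F] [Algebra Qb F] {pinf : Place Qb F} {t : F} {m : ℕ}

/-- `m · etaU p` is the sum of the global `log⁺`-heights of the conjugates of `t(p)`. -/
theorem mul_etaU_eq (𝒮 : Setting absFamily pinf t m) (ρ : GQ →* SemilinearAut Qb F)
    (hρ : ∀ (σ : GQ) (a : Qb), SemilinearAut.baseAut (ρ σ) a = σ a)
    (Sg₀ : Finset GQ) (hSg : ∀ s, s ∈ 𝒮.Sg ↔ ∃ σ ∈ Sg₀, ρ σ = s) (p : Place Qb F) :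
    (m : ℝ) * 𝒮.etaU p = ∑ s ∈ Sg₀, hplus (pval (ρ s • p) t) := by
  classical
  have hSg : 𝒮.Sg = Sg₀.image ρ := by
    ext s
    rw [Finset.mem_image, hSg]
  have hinj : Function.Injective ρ := by
    intro σ τ h
    ext a
    rw [← hρ σ a, ← hρ τ a, h]
  have hm : (m : ℝ) ≠ 0 := Nat.cast_ne_zero.mpr 𝒮.m_pos.ne'
  unfold Setting.etaU
  rw [hSg, Finset.sum_image (fun a _ b _ h => hinj h), Finset.mul_sum]
  refine Finset.sum_congr rfl fun s _ => ?_
  unfold Setting.eta hplus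
  have h1 : (fun v : Pla => Real.log (max 1 (absFamily.abv v (pval (ρ s • p) t))) / (m : ℝ))
      = fun v : Pla => Real.log (max 1 (abv v (pval (ρ s • p) t))) * (m : ℝ)⁻¹ := by
    funext v
    rw [div_eq_mul_inv]
    rfl
  rw [h1, ← finsum_mul, ← mul_assoc, mul_comm (m : ℝ), mul_assoc, mul_inv_cancel₀ hm, mul_one]

/-- **Northcott in the `HG.Setting` vocabulary** (the field `north` of `HG.CurveD`). -/
theorem north_setting {x : F} (h : IsFF1 Qb F x) (𝒮 : Setting absFamily pinf t m)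
    (ρ : GQ →* SemilinearAut Qb F)
    (hρ : ∀ (σ : GQ) (a : Qb), SemilinearAut.baseAut (ρ σ) a = σ a)
    (hΓ : ∀ σ : GQ, ρ σ ∈ 𝒮.Γ) (U₀ : Subgroup GQ) (Sg₀ : Finset GQ)
    (hU : ∀ u ∈ U₀, ρ u ∈ 𝒮.U) (hSg : ∀ s, s ∈ 𝒮.Sg ↔ ∃ σ ∈ Sg₀, ρ σ = s)
    (hcov : ∀ g : GQ, ∃ s ∈ Sg₀, s⁻¹ * g ∈ U₀) (d : ℕ) (T : ℝ) :
    {E | E ∈ 𝒮.RatU ∧ deg E ≤ d ∧ ht 𝒮.etaU E ≤ T}.Finite := by
  classical
  have hfib : ∀ c : Qb, {p : Place Qb F | pval p t = c}.Finite := by
    intro c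
    have h1 := Fermat.Agent.MW.Ht.RamDiv.finite_fibre h 𝒮.t_reg 𝒮.t_pole 𝒮.m_pos c
    refine (h1.union (Set.finite_singleton pinf)).subset fun p hp => ?_
    by_cases hpi : p = pinf
    · exact Or.inr hpi
    · exact Or.inl ⟨hpi, hp⟩
  have hη0 : ∀ p, 0 ≤ 𝒮.etaU p := fun p =>
    Finset.sum_nonneg fun _ _ => finsum_nonneg fun v =>
      div_nonneg (Real.log_nonneg (le_max_left _ _)) (Nat.cast_nonneg _)
  have key := Fermat.Agent.MW.Ht.North.finite_divisors_of_ht_le_act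
    (P := Place Qb F) (fun σ p => ρ σ • p)
    (fun p => by simp) (fun g k p => by rw [map_mul, mul_smul])
    (fun p => pval p t)
    (fun σ p => by
      have h1 := Fermat.Agent.MW.Ht.GalBridge.pval_smul (ρ σ) p t
      rw [𝒮.t_fixed _ (hΓ σ), hρ] at h1
      exact h1)
    hfib U₀ Sg₀ hcov 𝒮.etaU hη0 (m : ℝ) 0 (Nat.cast_nonneg _)
    (fun p => by rw [add_zero, mul_etaU_eq 𝒮 ρ hρ Sg₀ hSg p]) d T
  refine key.subset ?_
  rintro E ⟨hE, hdeg, hht⟩
  refine ⟨fun u hu p => ?_, hdeg, hht⟩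
  have h1 := hE.2 (ρ u) (hU u hu)
  have h2 : (E.mapDomain fun P : Place Qb F => ρ u • P) (ρ u • p) = E p :=
    Finsupp.mapDomain_apply (MulAction.injective (ρ u)) E p
  rw [h1] at h2
  exact h2

end Generic

/-! ### The modular function field -/

section Modular

variable (N : ℕ) [NeZero N]

/-- **`north` for the modular function field**: for a `Setting` on `ℚ̄·F_N` whose `U`, `Sg` are
the images of `U₀`, `Sg₀` under the arithmetic Galois action. -/
theorem north_modular {t : modularFunctionFieldBar N} {m : ℕ}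
    (𝒮 : Setting absFamily (PlaceInf.placeInfL Qb N) t m)
    (hΓ : ∀ σ : GQ, arithmeticGalois (modularFunctionFieldFull N) σ ∈ 𝒮.Γ)
    (U₀ : Subgroup GQ) (Sg₀ : Finset GQ)
    (hU : ∀ u ∈ U₀, arithmeticGalois (modularFunctionFieldFull N) u ∈ 𝒮.U)
    (hSg : ∀ s, s ∈ 𝒮.Sg ↔ ∃ σ ∈ Sg₀, arithmeticGalois (modularFunctionFieldFull N) σ = s)
    (hcov : ∀ g : GQ, ∃ s ∈ Sg₀, s⁻¹ * g ∈ U₀) (d : ℕ) (T : ℝ) :
    {E | E ∈ 𝒮.RatU ∧ deg E ≤ d ∧ ht 𝒮.etaU E ≤ T}.Finite :=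
  north_setting (Fermat.Agent.Lib.FF.Res.isFF1_modular N) 𝒮
    (arithmeticGalois (modularFunctionFieldFull N))
    (fun σ a => Fermat.Agent.MW.Ht.GalBridge.baseAut_arithmeticGalois N σ a)
    hΓ U₀ Sg₀ hU hSg hcov d T

end Modular

end Fermat.Agent.MW.Gen.NorthSetting
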