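/-
MW / GEN-1 (chief ruling #3 (c)) — THE PENCIL LEMMA.

`K` algebraically closed of characteristic `0`, `F/K` a function field, `pinf` a place,
`E` a reduced effective divisor off `pinf`, and two functions `ψ₀, ψ₁`, regular off `pinf`, with
`ord_pinf ψ₁ = -M ≤ ord_pinf ψ₀` and common zeros exactly `E`:
`min (ord_P ψ₀) (ord_P ψ₁) = E P` for `P ≠ pinf`; `deg E < M`.

Then for all `c` outside a finite set `T ⊆ K` the function `ψ₀ + c ψ₁` has divisor of zeros
`E + R` (off `pinf`) with `E + R` REDUCED, `R` avoiding any given finite set `S` of places, and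
`deg (E + R) = M` (`exists_pencil_residual`).

Proof: `u := ψ₀ / ψ₁` is non-constant (degree count), `ψ₀ + c ψ₁ = ψ₁ (u + c)`; away from the
finitely many values `-u(P)`, `P ∈ {pinf} ∪ supp E ∪ S ∪ supp (div du)`, the fibre `u = -c` is
reduced, avoids `S`, and `ord_P (ψ₀ + c ψ₁) = E P` at all other places.
-/
import Mathlib
import Fermat.Agent.Lib.FF.CanonicalIsFF1
import Fermat.Agent.MW.HtM.PVal
import Fermat.Agent.MW.Ht.RamDiv
import Fermat.Agent.MW.HG.Defs

set_option autoImplicit false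

noncomputable section

namespace Fermat.Agent.MW.Gen.Pencil

open AlgebraicCurve WithZero Module
open Fermat.Agent.Lib.FF Fermat.Agent.Lib.FF.Res Fermat.Agent.MW Fermat.Agent.MW.HtM
open scoped IntermediateField

variable {K F : Type*} [Field K] [Field F] [Algebra K F]

/-! ### Orders of `u + c` -/

/-- At a pole of `u`: `ord (u + c) = ord u`. -/
theorem ord_add_const_of_neg (P : Place K F) {u : F} (hu : P.ord u < 0) (c : K) :
    P.ord (u + algebraMap K F c) = P.ord u := by
  have hu0 : u ≠ 0 := by rintro rfl; simp at hu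
  have h1 : P.adicValuation (algebraMap K F c) < P.adicValuation u := by
    rw [P.adicValuation_eq_exp_neg_ord hu0]
    refine lt_of_le_of_lt (P.adicValuation_algebraMap_le_one c) ?_
    rw [← exp_zero, exp_lt_exp]
    omega
  have h2 : P.adicValuation (u + algebraMap K F c) = P.adicValuation u :=
    Valuation.map_add_eq_of_lt_left _ h1
  have hne : u + algebraMap K F c ≠ 0 := by
    intro h0
    rw [h0, map_zero] at h2
    exact P.adicValuation_ne_zero hu0 h2.symm
  rw [P.adicValuation_eq_exp_neg_ord hne, P.adicValuation_eq_exp_neg_ord hu0, exp_inj] at h2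
  omega

/-- If `v (u - a) < 1` and `a + c ≠ 0` then `ord (u + c) = 0`. -/
theorem ord_add_const_eq_zero (P : Place K F) {u : F} {a c : K}
    (hua : P.adicValuation (u - algebraMap K F a) < 1) (hac : a + c ≠ 0) :
    P.ord (u + algebraMap K F c) = 0 := by
  have h1 : P.adicValuation (algebraMap K F (a + c)) = 1 := adicValuation_algebraMap P hac
  have h2 : u + algebraMap K F c = algebraMap K F (a + c) + (u - algebraMap K F a) := by
    rw [map_add]; ring
  have h3 : P.adicValuation (u + algebraMap K F c) = 1 := by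
    rw [h2, Valuation.map_add_eq_of_lt_left _ (by rw [h1]; exact hua), h1]
  have hne : u + algebraMap K F c ≠ 0 := by
    intro h0
    rw [h0, map_zero] at h3
    exact zero_ne_one h3
  rw [P.adicValuation_eq_exp_neg_ord hne, ← exp_zero, exp_inj] at h3
  omega

/-- At a zero of `u`: `ord (u + c) = 0` for `c ≠ 0`. -/
theorem ord_add_const_of_pos (P : Place K F) {u : F} (hu : 0 < P.ord u) {c : K} (hc : c ≠ 0) :
    P.ord (u + algebraMap K F c) = 0 := by
  have hu0 : u ≠ 0 := by rintro rfl; simp at hu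
  refine ord_add_const_eq_zero P (a := 0) ?_ (by simpa using hc)
  rw [map_zero, sub_zero, P.adicValuation_eq_exp_neg_ord hu0, ← exp_zero, exp_lt_exp]
  omega

/-- Where `u` is regular and `u(P) ≠ -c`: `ord (u + c) = 0`. -/
theorem ord_add_const_of_pval_ne (P : Place K F) (hres : RR.ResK P) {u : F}
    (hu : 0 ≤ P.ord u) {c : K} (hc : pval P u ≠ -c) : P.ord (u + algebraMap K F c) = 0 := by
  refine ord_add_const_eq_zero P (a := pval P u)
    (pval_spec_of_mem P hres (Fermat.Agent.S24.mem_of_ord_nonneg P hu)) ?_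
  intro h0
  exact hc (eq_neg_of_add_eq_zero_left h0)

/-- Where `u` is regular, so is `u + c`. -/
theorem ord_add_const_nonneg (P : Place K F) {u : F} (hu : 0 ≤ P.ord u) (c : K) :
    0 ≤ P.ord (u + algebraMap K F c) :=
  Fermat.Agent.S24.ord_nonneg_of_mem P
    (add_mem (Fermat.Agent.S24.mem_of_ord_nonneg P hu) (P.algebraMap_mem' c))

/-! ### Divisors of zeros -/

/-- **The divisor of zeros** (off `pinf`) of a function regular off `pinf` with a pole of order
`M` at `pinf`: it has degree `M`. -/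
theorem exists_zdiv {x₀ : F} (h : IsFF1 K F x₀) {pinf : Place K F} {φ : F} (hφ : φ ≠ 0)
    (hreg : ∀ P : Place K F, P ≠ pinf → 0 ≤ P.ord φ) {M : ℕ} (hM : pinf.ord φ = -(M : ℤ)) :
    ∃ Z : Place K F →₀ ℕ, Z pinf = 0 ∧ (∀ P, P ≠ pinf → (Z P : ℤ) = P.ord φ) ∧
      HQ.deg Z = M := by
  classical
  have := h.hasPrincipalDivisors
  obtain ⟨D, hD, hdeg⟩ := HasPrincipalDivisors.exists_divisor (K := K) φ hφ
  set E : Divisor K F := D + Finsupp.single pinf (M : ℤ) with hE
  have hEinf : E pinf = 0 := by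
    rw [hE, Finsupp.add_apply, hD, hM, Finsupp.single_eq_same]
    omega
  have hEP : ∀ P, P ≠ pinf → E P = P.ord φ := by
    intro P hP
    rw [hE, Finsupp.add_apply, hD, Finsupp.single_apply, if_neg (Ne.symm hP), add_zero]
  have hE0 : ∀ P, 0 ≤ E P := by
    intro P
    by_cases hP : P = pinf
    · rw [hP, hEinf]
    · rw [hEP P hP]; exact hreg P hP
  refine ⟨Ht.RamDiv.toNatDiv E, ?_, fun P hP => ?_, ?_⟩
  · rw [Ht.RamDiv.toNatDiv_apply, hEinf]; rfl
  · rw [Ht.RamDiv.coe_toNatDiv (hE0 P), hEP P hP]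
  · have h1 := Ht.RamDiv.deg_toNatDiv h hE0
    rw [hE, map_add, hdeg, Divisor.degree_single, h.deg_eq_one, zero_add] at h1
    have h2 : (HQ.deg (Ht.RamDiv.toNatDiv E) : ℤ) = (M : ℤ) := by rw [h1]; simp
    exact_mod_cast h2

variable [IsAlgClosed K] [CharZero K]

set_option linter.unusedVariables false in
/-- **GEN-1, the pencil lemma.**  For all `c` outside a finite set, `ψ₀ + c ψ₁` has divisor of
zeros `E + R` with `E + R` reduced, `R` off `S`, `deg (E + R) = M`. -/
theorem exists_pencil_residual (x : F) (hx : Transcendental K x) [FiniteDimensional K⟮x⟯ F]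
    (pinf : Place K F) (E : Place K F →₀ ℕ) (hEred : ∀ P, E P ≤ 1) (hEinf : E pinf = 0)
    (ψ₀ ψ₁ : F) (h₀ : ψ₀ ≠ 0) (h₁ : ψ₁ ≠ 0)
    (hreg₀ : ∀ P : Place K F, P ≠ pinf → 0 ≤ P.ord ψ₀)
    (hreg₁ : ∀ P : Place K F, P ≠ pinf → 0 ≤ P.ord ψ₁)
    (M : ℕ) (hM₁ : pinf.ord ψ₁ = -(M : ℤ)) (hM₀ : -(M : ℤ) ≤ pinf.ord ψ₀)
    (hmin : ∀ P : Place K F, P ≠ pinf → min (P.ord ψ₀) (P.ord ψ₁) = (E P : ℤ))
    (hdeg : HQ.deg E < M) (S : Finset (Place K F)) :
    ∃ T : Finset K, ∀ c, c ∉ T → ∃ R : Place K F →₀ ℕ,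
      HG.IsZDiv pinf (ψ₀ + algebraMap K F c * ψ₁) (E + R) ∧ (∀ P, (E + R) P ≤ 1) ∧
      (∀ P ∈ S, R P = 0) ∧ HQ.deg (E + R) = M := by
  classical
  have h : IsFF1 K F x := isFF1_of_charZero x hx
  obtain ⟨u, hu⟩ : ∃ u : F, u = ψ₀ / ψ₁ := ⟨_, rfl⟩
  have hu0 : u ≠ 0 := by rw [hu]; exact div_ne_zero h₀ h₁
  have hordu : ∀ P : Place K F, P.ord u = P.ord ψ₀ - P.ord ψ₁ := by
    intro P
    rw [hu, div_eq_mul_inv, P.ord_mul h₀ (inv_ne_zero h₁), P.ord_inv]; ring
  -- `u` is not constant
  have hnc : ∀ c : K, u ≠ algebraMap K F c := by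
    intro c hc
    have hord : ∀ P : Place K F, P.ord ψ₀ = P.ord ψ₁ := by
      intro P
      have := hordu P
      rw [hc, Fermat.Agent.S24.ord_algebraMap] at this
      omega
    obtain ⟨Z, hZinf, hZ, hZdeg⟩ := exists_zdiv h h₁ hreg₁ hM₁
    have hZE : Z = E := by
      ext P
      by_cases hP : P = pinf
      · rw [hP, hZinf, hEinf]
      · have h1 := hZ P hP
        have h2 := hmin P hP
        rw [hord P, min_self] at h2
        have : (Z P : ℤ) = (E P : ℤ) := by rw [h1, h2]
        exact_mod_cast this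
    rw [hZE] at hZdeg
    omega
  have hnc' : ∀ c : K, u + algebraMap K F c ≠ 0 := by
    intro c h0
    exact hnc (-c) (by rw [map_neg]; exact eq_neg_of_add_eq_zero_left h0)
  have hutr : Transcendental K u := by
    intro halg
    obtain ⟨c, hc⟩ := exists_eq_algebraMap_of_isAlgebraic halg
    exact hnc c hc
  have hfd : FiniteDimensional K⟮u⟯ F :=
    Fermat.Agent.S24.Transfer.finiteDimensional_adjoin_of_transcendental (K := K) x hutr
  have hsep : Algebra.IsSeparable K⟮u⟯ F := by
    have : CharZero K⟮u⟯ := charZero_of_injective_algebraMap (algebraMap K K⟮u⟯).injective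
    have : Algebra.IsAlgebraic K⟮u⟯ F := Algebra.IsAlgebraic.of_finite _ _
    infer_instance
  obtain ⟨Wf, -, -, hWf, -⟩ := exists_divisor_D_of_isSeparable h u
  -- the exceptional places and values
  obtain ⟨Exc, hExc⟩ : ∃ Exc : Finset (Place K F), Exc = insert pinf (E.support ∪ S ∪ Wf.support) :=
    ⟨_, rfl⟩
  refine ⟨insert 0 (Exc.image fun P => -pval P u), fun c hc => ?_⟩
  have hc0 : c ≠ 0 := fun h0 => hc (h0 ▸ Finset.mem_insert_self _ _)
  have hcExc : ∀ P ∈ Exc, pval P u ≠ -c := by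
    intro P hP hPc
    apply hc
    refine Finset.mem_insert_of_mem (Finset.mem_image.2 ⟨P, hP, ?_⟩)
    rw [hPc, neg_neg]
  have hinfExc : pinf ∈ Exc := by rw [hExc]; exact Finset.mem_insert_self _ _
  have hEExc : ∀ P, E P ≠ 0 → P ∈ Exc := by
    intro P hP
    rw [hExc]
    exact Finset.mem_insert_of_mem (Finset.mem_union_left _ (Finset.mem_union_left _
      (Finsupp.mem_support_iff.2 hP)))
  have hSExc : ∀ P ∈ S, P ∈ Exc := by
    intro P hP
    rw [hExc]
    exact Finset.mem_insert_of_mem (Finset.mem_union_left _ (Finset.mem_union_right _ hP))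
  have hWExc : ∀ P, Wf P ≠ 0 → P ∈ Exc := by
    intro P hP
    rw [hExc]
    exact Finset.mem_insert_of_mem (Finset.mem_union_right _ (Finsupp.mem_support_iff.2 hP))
  obtain ⟨ψ, hψ⟩ : ∃ ψ : F, ψ = ψ₀ + algebraMap K F c * ψ₁ := ⟨_, rfl⟩
  have hψeq : ψ = ψ₁ * (u + algebraMap K F c) := by
    rw [hψ, hu]; field_simp
  have hψ0 : ψ ≠ 0 := by rw [hψeq]; exact mul_ne_zero h₁ (hnc' c)
  have hordψ : ∀ P : Place K F, P.ord ψ = P.ord ψ₁ + P.ord (u + algebraMap K F c) := by
    intro P; rw [hψeq, P.ord_mul h₁ (hnc' c)]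
  -- the order at `pinf`
  have hψinf : pinf.ord ψ = -(M : ℤ) := by
    rw [hordψ, hM₁]
    have h1 : 0 ≤ pinf.ord u := by rw [hordu, hM₁]; omega
    have h2 : pinf.ord (u + algebraMap K F c) = 0 := by
      rcases h1.lt_or_eq with h3 | h3
      · exact ord_add_const_of_pos pinf h3 hc0
      · exact ord_add_const_of_pval_ne pinf (h.resK pinf) h1 (hcExc pinf hinfExc)
    rw [h2, add_zero]
  -- the orders off `pinf`
  have key1 : ∀ P : Place K F, P ≠ pinf → P.ord u ≠ 0 → P.ord ψ = (E P : ℤ) := by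
    intro P hP hne
    have hm := hmin P hP
    have hu' := hordu P
    rw [hordψ]
    rcases lt_or_gt_of_ne hne with hlt | hgt
    · rw [ord_add_const_of_neg P hlt c, hu', ← hm, min_eq_left (by omega)]
      ring
    · rw [ord_add_const_of_pos P hgt hc0, add_zero, ← hm, min_eq_right (by omega)]
  have key2 : ∀ P : Place K F, P ≠ pinf → P.ord u = 0 →
      P.ord ψ = (E P : ℤ) + P.ord (u + algebraMap K F c) := by
    intro P hP h0
    have hm := hmin P hP
    have hu' := hordu P
    rw [hordψ, ← hm, min_eq_right (by omega)]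
  have key3 : ∀ P : Place K F, P ≠ pinf → pval P u ≠ -c → P.ord ψ = (E P : ℤ) := by
    intro P hP hpv
    by_cases h0 : P.ord u = 0
    · rw [key2 P hP h0, ord_add_const_of_pval_ne P (h.resK P) h0.ge hpv, add_zero]
    · exact key1 P hP h0
  have hge : ∀ P : Place K F, P ≠ pinf → (E P : ℤ) ≤ P.ord ψ := by
    intro P hP
    by_cases h0 : P.ord u = 0
    · rw [key2 P hP h0]
      have := ord_add_const_nonneg P h0.ge c
      omega
    · rw [key1 P hP h0]
  have hle1 : ∀ P : Place K F, P ≠ pinf → P.ord ψ ≤ 1 := by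
    intro P hP
    have hE1 : (E P : ℤ) ≤ 1 := by exact_mod_cast hEred P
    by_cases h0 : P.ord u = 0
    · by_cases hPExc : P ∈ Exc
      · rw [key3 P hP (hcExc P hPExc)]; exact hE1
      · have hPE : E P = 0 := by
          by_contra hne
          exact hPExc (hEExc P hne)
        have hPW : Wf P = 0 := by
          by_contra hne
          exact hPExc (hWExc P hne)
        have h5 := hWf (-c) P
        rw [map_neg, sub_neg_eq_add, hPW] at h5
        rw [key2 P hP h0, hPE]
        push_cast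
        omega
    · rw [key1 P hP h0]; exact hE1
  -- the divisor of zeros
  obtain ⟨Z, hZinf, hZ, hZdeg⟩ := exists_zdiv h hψ0
    (fun P hP => le_trans (Int.natCast_nonneg _) (hge P hP)) hψinf
  have hEZ : E ≤ Z := by
    refine Finsupp.le_def.2 fun P => ?_
    by_cases hP : P = pinf
    · rw [hP, hEinf]; exact Nat.zero_le _
    · have := hge P hP
      rw [← hZ P hP] at this
      exact_mod_cast this
  rw [← hψ]
  refine ⟨Z - E, ?_, ?_, ?_, ?_⟩
  · rw [add_tsub_cancel_of_le hEZ]; exact ⟨hZinf, hZ⟩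
  · rw [add_tsub_cancel_of_le hEZ]
    intro P
    by_cases hP : P = pinf
    · rw [hP, hZinf]; exact Nat.zero_le _
    · have := hle1 P hP
      rw [← hZ P hP] at this
      exact_mod_cast this
  · intro P hPS
    rw [Finsupp.tsub_apply]
    by_cases hP : P = pinf
    · rw [hP, hZinf, Nat.zero_sub]
    · have h5 := key3 P hP (hcExc P (hSExc P hPS))
      rw [← hZ P hP] at h5
      have : Z P = E P := by exact_mod_cast h5
      rw [this, Nat.sub_self]
  · rw [add_tsub_cancel_of_le hEZ]; exact hZdeg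

end Fermat.Agent.MW.Gen.Pencil
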