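/-
MW / function-field instance side (helper69) — the fields `cl`, `d₀`, `rep` of `HG.CurveD₀` for
`J := ↥(FixedPoints.addSubgroup ↥U₀ (JZero N))` (the `U₀`-fixed classes), in literal shape
(specialisation of `MW/Gen/PlBridge.lean`).
-/
import Mathlib
import Fermat.Agent.MW.Gen.PlBridge

set_option autoImplicit false
set_option linter.unusedSectionVars false

noncomputable section

namespace Fermat.Agent.MW.Gen.PlBridgeFix

open AlgebraicCurve ModularCurve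
open Fermat.Agent.MW Fermat.Agent.MW.Ht.Defs Fermat.Agent.MW.HtM Fermat.Agent.MW.Ht.AbsQb
open Fermat.Agent.Lib.FF.PlaceInf Fermat.Agent.MW.Gen.PlBridge

local notation "Qb" => AlgebraicClosure ℚ
local notation "GQ" => (AlgebraicClosure ℚ ≃ₐ[ℚ] AlgebraicClosure ℚ)

variable (N : ℕ) [NeZero N]

theorem mem_fixed_iff (U₀ : Subgroup GQ) (x : JZero N) :
    x ∈ FixedPoints.addSubgroup ↥U₀ (JZero N) ↔ ∀ σ ∈ U₀, σ • x = x :=
  ⟨fun h σ hσ => h ⟨σ, hσ⟩, fun h u => h u.1 u.2⟩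

/-- **The field `cl`**: a class map into the `U₀`-fixed classes, additive on all effective
divisors of places and equal to `clPl` (`D ↦ [D − deg D · ∞]`) on the `U₀`-stable ones. -/
theorem exists_cl_fixed (U₀ : Subgroup GQ) :
    ∃ cl : (Pl N →₀ ℕ) →+ ↥(FixedPoints.addSubgroup ↥U₀ (JZero N)), ∀ D : Pl N →₀ ℕ,
      (∀ σ ∈ U₀, D.mapDomain (fun P => arithmeticGalois (modularFunctionFieldFull N) σ • P)
        = D) → (cl D : JZero N) = clPl N D :=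
  exists_cl N U₀ (FixedPoints.addSubgroup ↥U₀ (JZero N))
    fun x hx => (mem_fixed_iff N U₀ x).mpr hx

/-- **The fields `d₀`, `rep`** for the `U₀`-fixed classes. -/
theorem rep_field_fixed {t : FN N} {m : ℕ} (𝒮 : HG.Setting absFamily (placeInfL Qb N) t m)
    (U₀ : Subgroup GQ)
    (h𝒮 : ∀ D : Pl N →₀ ℕ, D ∈ 𝒮.RatU ↔ D (placeInfL Qb N) = 0 ∧
      ∀ σ ∈ U₀, D.mapDomain (fun P => arithmeticGalois (modularFunctionFieldFull N) σ • P) = D)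
    (cl : (Pl N →₀ ℕ) →+ ↥(FixedPoints.addSubgroup ↥U₀ (JZero N)))
    (hcl : ∀ D ∈ 𝒮.RatU, (cl D : JZero N) = clPl N D) :
    ∃ d₀ : ℕ, ∀ (x : ↥(FixedPoints.addSubgroup ↥U₀ (JZero N))) (S : Finset (Pl N)),
      ∃ D ∈ 𝒮.RatU, cl D = x ∧ HQ.deg D ≤ d₀ ∧ ∀ p ∈ D.support, ∀ q ∈ S, 𝒮.far p q :=
  rep_field N 𝒮 U₀ h𝒮 (FixedPoints.addSubgroup ↥U₀ (JZero N))
    (fun x hx => (mem_fixed_iff N U₀ x).mp hx) cl hcl

/-- **The fields `cl`, `d₀`, `rep` together.** -/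
theorem exists_cl_rep {t : FN N} {m : ℕ} (𝒮 : HG.Setting absFamily (placeInfL Qb N) t m)
    (U₀ : Subgroup GQ)
    (h𝒮 : ∀ D : Pl N →₀ ℕ, D ∈ 𝒮.RatU ↔ D (placeInfL Qb N) = 0 ∧
      ∀ σ ∈ U₀, D.mapDomain (fun P => arithmeticGalois (modularFunctionFieldFull N) σ • P)
        = D) :
    ∃ (cl : (Pl N →₀ ℕ) →+ ↥(FixedPoints.addSubgroup ↥U₀ (JZero N))) (d₀ : ℕ),
      (∀ D ∈ 𝒮.RatU, (cl D : JZero N) = clPl N D) ∧
      ∀ (x : ↥(FixedPoints.addSubgroup ↥U₀ (JZero N))) (S : Finset (Pl N)),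
        ∃ D ∈ 𝒮.RatU, cl D = x ∧ HQ.deg D ≤ d₀ ∧ ∀ p ∈ D.support, ∀ q ∈ S, 𝒮.far p q := by
  obtain ⟨cl, hcl⟩ := exists_cl_fixed N U₀
  have hcl' : ∀ D ∈ 𝒮.RatU, (cl D : JZero N) = clPl N D :=
    fun D hD => hcl D ((h𝒮 D).mp hD).2
  obtain ⟨d₀, hrep⟩ := rep_field_fixed N 𝒮 U₀ h𝒮 cl hcl'
  exact ⟨cl, d₀, hcl', hrep⟩

/-- Transport of class equations: for `D ∈ 𝒮.RatU`, `cl D = x` in `J` if and only if
`clFull N (ofPl N D) = x` in `JZero N`. -/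
theorem cl_eq_iff {U₀ : Subgroup GQ} {D : Pl N →₀ ℕ}
    (cl : (Pl N →₀ ℕ) →+ ↥(FixedPoints.addSubgroup ↥U₀ (JZero N)))
    (hcl : (cl D : JZero N) = clPl N D) (x : ↥(FixedPoints.addSubgroup ↥U₀ (JZero N))) :
    cl D = x ↔ clFull N (ofPl N D) = (x : JZero N) := by
  rw [← clPl_apply, ← hcl]
  exact Subtype.ext_iff

end Fermat.Agent.MW.Gen.PlBridgeFix
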