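import Mathlib
import Fermat.Agent.MW.Gen.PencilBFinal
import Fermat.Agent.MW.Ht.CanonSpace
import Fermat.Agent.MW.Ht.Rep

/-!
# MW / GEN-2 (shadow seat, helper16): the residual divisor of a good divisor

`K` algebraically closed of characteristic `0`, `F/K` a function field of one variable, `pinf` a
place, `t` a non-constant function, `E` a reduced effective divisor off `pinf`, `M > deg E` with
`gcd([F : K(t)], M - deg E) = 1`, `D := M · pinf - E`.

* `residual_of_avoid` (generic core): if a class `Fix` of functions, stable under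
  `(ψ₀, ψ₁) ↦ ψ₀ + n ψ₁`, contains for every finite set `T` of places an element of `L(D)`
  outside all `L(D - Q)`, `Q ∈ T`, then there is `ψ ∈ L(D)` in the class whose divisor of zeros
  off `pinf` is `E + R`, reduced of degree `M`, with `R` off a given finite set `S` and `t`
  injective on the support of `R`.
* `residual_semilinear` : the same for the functions fixed by a set `U` of semilinear
  automorphisms fixing `pinf` and stabilising `E`, given Galois descent in the form "a `U`-stable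
  finite-dimensional space has a `U`-fixed element outside finitely many subspaces not containing
  it" and `2 g ≤ M - deg E`.
* `residual_modular` : the modular function field `ℚ̄ · F_N` with the arithmetic Galois action;
  `residual_modular_mapDomain` : the same in the `Finsupp.mapDomain` shapes of `HG.Setting.RatU`.
In all forms `R` is `U`-stable, `ψ ≠ 0`, `ψ` is regular off `pinf` with pole order `≤ M`.
-/

set_option autoImplicit false
set_option linter.style.haveILetI false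

noncomputable section

namespace Fermat.Agent.MW.Gen.ResidualC

open AlgebraicCurve IntermediateField Fermat.Agent.Lib.FF Fermat.Agent.MW Fermat.Agent.MW.HtM
open WithZero Module

variable {K F : Type*} [Field K] [Field F] [Algebra K F]

/-- The divisor `M · pinf - E`. -/
def dv (pinf : Place K F) (M : ℕ) (E : Place K F →₀ ℕ) : Divisor K F :=
  Finsupp.single pinf (M : ℤ) - PencilB.castDiv E

theorem dv_apply_inf (pinf : Place K F) (M : ℕ) (E : Place K F →₀ ℕ) (hE : E pinf = 0) :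
    dv pinf M E pinf = M := by
  rw [dv, Finsupp.sub_apply, Finsupp.single_eq_same, PencilB.castDiv_apply, hE]
  simp

theorem dv_apply_ne (pinf : Place K F) (M : ℕ) (E : Place K F →₀ ℕ) {P : Place K F}
    (hP : P ≠ pinf) : dv pinf M E P = -(E P : ℤ) := by
  classical
  rw [dv, Finsupp.sub_apply, Finsupp.single_apply, if_neg (Ne.symm hP), PencilB.castDiv_apply,
    zero_sub]

theorem degree_dv {x : F} (h : IsFF1 K F x) (pinf : Place K F) (M : ℕ) (E : Place K F →₀ ℕ) :
    Divisor.degree (dv pinf M E) = (M : ℤ) - HQ.deg E := by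
  rw [dv, map_sub, Divisor.degree_single, h.deg_eq_one, PencilB.degree_castDiv h]
  simp

/-- An element of `L(D)` outside `L(D - Q)` has exact order `-D Q` at `Q`. -/
theorem ord_eq_of_notMem {D : Divisor K F} {f : F} (hf : f ∈ riemannRochSpace D)
    (Q : Place K F) (hQ : f ∉ riemannRochSpace (D - Finsupp.single Q (1 : ℤ))) :
    f ≠ 0 ∧ Q.ord f = -D Q := by
  classical
  have hf0 : f ≠ 0 := by
    rintro rfl
    exact hQ (Submodule.zero_mem _)
  refine ⟨hf0, ?_⟩
  have h1 := (Ht.CanonSpace.mem_rr_iff hf0).1 hf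
  by_contra hne
  apply hQ
  rw [Ht.CanonSpace.mem_rr_iff hf0]
  intro v
  by_cases hv : v = Q
  · subst hv
    rw [Finsupp.sub_apply, Finsupp.single_eq_same]
    have := h1 v
    omega
  · rw [Finsupp.sub_apply, Finsupp.single_apply, if_neg (Ne.symm hv), sub_zero]
    exact h1 v

section Core

variable [IsAlgClosed K] [CharZero K]

/-- **The residual divisor, generic core.** -/
theorem residual_of_avoid (pinf : Place K F) (t : F)
    (ht : Transcendental K t) [FiniteDimensional K⟮t⟯ F]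
    (E : Place K F →₀ ℕ) (hE1 : ∀ P, E P ≤ 1) (hEinf : E pinf = 0)
    (M : ℕ) (hdeg : HQ.deg E < M) (hcop : Nat.Coprime (finrank K⟮t⟯ F) (M - HQ.deg E))
    (Fix : F → Prop)
    (hFix : ∀ (ψ₀ ψ₁ : F) (n : ℕ), Fix ψ₀ → Fix ψ₁ → Fix (ψ₀ + (n : F) * ψ₁))
    (hav : ∀ T : Finset (Place K F), ∃ ψ ∈ riemannRochSpace (dv pinf M E), Fix ψ ∧
      ∀ Q ∈ T, ψ ∉ riemannRochSpace (dv pinf M E - Finsupp.single Q (1 : ℤ)))
    (S : Finset (Place K F)) :
    ∃ ψ ∈ riemannRochSpace (dv pinf M E), Fix ψ ∧ ψ ≠ 0 ∧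
      (∀ P : Place K F, P ≠ pinf → 0 ≤ P.ord ψ) ∧ -(M : ℤ) ≤ pinf.ord ψ ∧
      ∃ R : Place K F →₀ ℕ,
        HG.IsZDiv pinf ψ (E + R) ∧ (∀ P, (E + R) P ≤ 1) ∧ (∀ P ∈ S, R P = 0) ∧
        (∀ P ∈ R.support, ∀ Q ∈ R.support, pval P t = pval Q t → P = Q) ∧
        HQ.deg (E + R) = M := by
  classical
  have hFF : IsFF1 K F t := isFF1_of_charZero t ht
  set D : Divisor K F := dv pinf M E with hD
  have hDinf : D pinf = M := dv_apply_inf pinf M E hEinf
  have hDne : ∀ P : Place K F, P ≠ pinf → D P = -(E P : ℤ) := fun P hP => dv_apply_ne pinf M E hP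
  -- orders of a nonzero element of `L(D)`
  have hordL : ∀ f : F, f ∈ riemannRochSpace D → f ≠ 0 →
      (∀ P : Place K F, P ≠ pinf → (E P : ℤ) ≤ P.ord f) ∧ -(M : ℤ) ≤ pinf.ord f := by
    intro f hf hf0
    have h1 := (Ht.CanonSpace.mem_rr_iff hf0).1 hf
    refine ⟨fun P hP => ?_, ?_⟩
    · have := h1 P
      rw [hDne P hP] at this
      omega
    · have := h1 pinf
      rw [hDinf] at this
      exact this
  -- `ψ₁` with exact pole order `M` at `pinf`
  obtain ⟨ψ₁, hψ₁mem, hψ₁fix, hψ₁av⟩ := hav {pinf}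
  obtain ⟨hψ₁, hψ₁inf⟩ := ord_eq_of_notMem hψ₁mem pinf (hψ₁av pinf (Finset.mem_singleton_self _))
  rw [hDinf] at hψ₁inf
  obtain ⟨hψ₁ge, -⟩ := hordL ψ₁ hψ₁mem hψ₁
  have hreg₁ : ∀ P : Place K F, P ≠ pinf → 0 ≤ P.ord ψ₁ := fun P hP =>
    le_trans (Int.natCast_nonneg _) (hψ₁ge P hP)
  obtain ⟨Z₁, hZ₁, hZ₁deg⟩ := PencilB.exists_zdiv hFF pinf ψ₁ hψ₁ hreg₁ M hψ₁inf
  -- `ψ₀` with exact order `E Q` at the zeros of `ψ₁`
  obtain ⟨ψ₀, hψ₀mem, hψ₀fix, hψ₀av⟩ := hav Z₁.support
  have hZ₁ne : Z₁.support.Nonempty := by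
    rw [Finsupp.support_nonempty_iff]
    rintro rfl
    have h0 : HQ.deg (0 : Place K F →₀ ℕ) = 0 := by simp [HQ.deg]
    rw [h0] at hZ₁deg
    omega
  obtain ⟨Q₀, hQ₀⟩ := hZ₁ne
  have hψ₀ : ψ₀ ≠ 0 := (ord_eq_of_notMem hψ₀mem Q₀ (hψ₀av Q₀ hQ₀)).1
  obtain ⟨hψ₀ge, hψ₀inf⟩ := hordL ψ₀ hψ₀mem hψ₀
  have hmin : ∀ P : Place K F, P ≠ pinf → min (P.ord ψ₀) (P.ord ψ₁) = (E P : ℤ) := by
    intro P hP
    have h0 := hψ₀ge P hP
    have h1 := hψ₁ge P hP
    by_cases hPZ : P ∈ Z₁.support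
    · have h2 := (ord_eq_of_notMem hψ₀mem P (hψ₀av P hPZ)).2
      rw [hDne P hP, neg_neg] at h2
      rw [h2]
      exact min_eq_left h1
    · have h2 := hZ₁.2 P hP
      rw [Finsupp.notMem_support_iff.mp hPZ] at h2
      have h3 : P.ord ψ₁ = 0 := by rw [← h2]; rfl
      rw [h3] at h1 ⊢
      have h4 : (E P : ℤ) = 0 := le_antisymm h1 (Int.natCast_nonneg _)
      rw [h4] at h0 ⊢
      exact min_eq_right h0
  obtain ⟨n, R, hR1, hR2, hR3, hR4, hR5⟩ := PencilBFinal.pencil_nat pinf t ht E hE1 hEinf ψ₀ ψ₁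
    hψ₀ hψ₁ M hψ₁inf hψ₀inf hmin hdeg hcop S
  have hψmem : ψ₀ + (n : F) * ψ₁ ∈ riemannRochSpace D := by
    have h1 : (n : F) * ψ₁ = (n : K) • ψ₁ := by
      rw [Algebra.smul_def, map_natCast]
    rw [h1]
    exact Submodule.add_mem _ hψ₀mem (Submodule.smul_mem _ _ hψ₁mem)
  have hψne : ψ₀ + (n : F) * ψ₁ ≠ 0 := by
    intro h0
    have hzero : E + R = 0 := by
      ext P
      by_cases hP : P = pinf
      · rw [hP, hR1.1]; rfl
      · have h1 := hR1.2 P hP
        rw [h0, Place.ord_zero] at h1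
        have : ((E + R) P : ℤ) = ((0 : Place K F →₀ ℕ) P : ℤ) := by rw [h1]; simp
        exact_mod_cast this
    rw [hzero] at hR5
    have h0' : HQ.deg (0 : Place K F →₀ ℕ) = 0 := by simp [HQ.deg]
    omega
  obtain ⟨hψge, hψinf⟩ := hordL _ hψmem hψne
  exact ⟨ψ₀ + (n : F) * ψ₁, hψmem, hFix ψ₀ ψ₁ n hψ₀fix hψ₁fix, hψne,
    fun P hP => le_trans (Int.natCast_nonneg _) (hψge P hP), hψinf, R, hR1, hR2, hR3, hR4, hR5⟩

/-- **The residual divisor for the functions fixed by a set of semilinear automorphisms.** -/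
theorem residual_semilinear (pinf : Place K F) (t : F)
    (ht : Transcendental K t) [FiniteDimensional K⟮t⟯ F]
    (U : Set (SemilinearAut K F)) (hUinf : ∀ u ∈ U, u • pinf = pinf)
    (hav : ∀ (W : Submodule K F) [FiniteDimensional K W], (∀ u ∈ U, ∀ f ∈ W, u • f ∈ W) →
      ∀ (T : Finset (Place K F)) (p : Place K F → Submodule K F), (∀ Q ∈ T, ¬ W ≤ p Q) →
      ∃ f ∈ W, (∀ u ∈ U, u • f = f) ∧ ∀ Q ∈ T, f ∉ p Q)
    (E : Place K F →₀ ℕ) (hE1 : ∀ P, E P ≤ 1) (hEinf : E pinf = 0)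
    (hEU : ∀ u ∈ U, ∀ P : Place K F, E (u • P) = E P)
    (M : ℕ) (hM : 2 * genusFF K F + HQ.deg E ≤ M) (hdeg : HQ.deg E < M)
    (hcop : Nat.Coprime (finrank K⟮t⟯ F) (M - HQ.deg E)) (S : Finset (Place K F)) :
    ∃ ψ : F, (∀ u ∈ U, u • ψ = ψ) ∧ ψ ≠ 0 ∧
      (∀ P : Place K F, P ≠ pinf → 0 ≤ P.ord ψ) ∧ -(M : ℤ) ≤ pinf.ord ψ ∧
      ∃ R : Place K F →₀ ℕ,
        HG.IsZDiv pinf ψ (E + R) ∧ (∀ P, (E + R) P ≤ 1) ∧ (∀ P ∈ S, R P = 0) ∧
        (∀ P ∈ R.support, ∀ Q ∈ R.support, pval P t = pval Q t → P = Q) ∧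
        HQ.deg (E + R) = M ∧ ∀ u ∈ U, ∀ P : Place K F, R (u • P) = R P := by
  classical
  have hFF : IsFF1 K F t := isFF1_of_charZero t ht
  set D : Divisor K F := dv pinf M E with hD
  haveI : FiniteDimensional K (riemannRochSpace D) := hFF.finite_L D
  -- `L(D)` is `U`-stable
  have hDU : ∀ u ∈ U, u • D = D := by
    intro u hu
    ext v
    rw [SemilinearAut.divisor_smul_apply]
    have hinf' : u⁻¹ • pinf = pinf := by rw [inv_smul_eq_iff, hUinf u hu]
    by_cases hv : v = pinf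
    · rw [hv, hinf']
    · have hv' : u⁻¹ • v ≠ pinf := by
        intro e
        apply hv
        rw [inv_smul_eq_iff] at e
        rw [e, hUinf u hu]
      rw [hD, dv_apply_ne pinf M E hv', dv_apply_ne pinf M E hv]
      have := hEU u hu (u⁻¹ • v)
      rw [smul_inv_smul] at this
      rw [this]
  have hstab : ∀ u ∈ U, ∀ f ∈ riemannRochSpace D, u • f ∈ riemannRochSpace D :=
    fun u hu f hf => Ht.Rep.smul_mem_L u (hDU u hu) hf
  -- base-point freeness
  have hbpf : BasePoint.Bpf D := WeilCanonical.bpf_of_two_genus hFF (by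
    rw [hD, degree_dv hFF]
    have : ((2 * genusFF K F + HQ.deg E : ℕ) : ℤ) ≤ (M : ℤ) := by exact_mod_cast hM
    push_cast at this
    linarith)
  have hproper : ∀ (T : Finset (Place K F)), ∀ Q ∈ T,
      ¬ riemannRochSpace D ≤ riemannRochSpace (D - Finsupp.single Q (1 : ℤ)) := by
    intro T Q _ hle
    obtain ⟨φ, hφ, hφv⟩ := hbpf Q
    have := hle hφ Q
    rw [hφv, exp_le_exp, Finsupp.sub_apply, Finsupp.single_eq_same] at this
    omega
  obtain ⟨ψ, -, hfix, hne, hreg, hpole, R, hR1, hR2, hR3, hR4, hR5⟩ :=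
    residual_of_avoid pinf t ht E hE1 hEinf M hdeg
    hcop (fun ψ => ∀ u ∈ U, u • ψ = ψ)
    (fun ψ₀ ψ₁ n h0 h1 u hu => by
      rw [smul_add, smul_mul', h0 u hu, h1 u hu, SemilinearAut.smul_def, map_natCast])
    (fun T => hav (riemannRochSpace D) hstab T
      (fun Q => riemannRochSpace (D - Finsupp.single Q (1 : ℤ))) (hproper T)) S
  refine ⟨ψ, hfix, hne, hreg, hpole, R, hR1, hR2, hR3, hR4, hR5, fun u hu P => ?_⟩
  -- `R` is `U`-stable: `E + R` is the divisor of zeros of the `U`-fixed `ψ`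
  have hsum : (E + R) (u • P) = (E + R) P := by
    by_cases hP : P = pinf
    · rw [hP, hUinf u hu]
    · have hP' : u • P ≠ pinf := by
        intro e
        apply hP
        rw [← hUinf u hu] at e
        exact MulAction.injective u e
      have h1 := hR1.2 (u • P) hP'
      have h2 := hR1.2 P hP
      have h3 : (u • P).ord ψ = P.ord ψ := by
        conv_lhs => rw [← hfix u hu]
        exact SemilinearAut.ord_smul u P ψ
      have : (((E + R) (u • P) : ℕ) : ℤ) = ((E + R) P : ℕ) := by rw [h1, h2, h3]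
      exact_mod_cast this
  rw [Finsupp.add_apply, Finsupp.add_apply, hEU u hu P] at hsum
  omega

end Core

/-! ### The modular function field -/

section Modular

open ModularCurve Fermat.Agent.Lib.FF.PlaceInf

local notation "Qb" => AlgebraicClosure ℚ
local notation "GQ" => (AlgebraicClosure ℚ ≃ₐ[ℚ] AlgebraicClosure ℚ)

variable (N : ℕ) [NeZero N]

/-- **The residual divisor on `X_0(N)`** : `E` a reduced effective divisor off `∞`, stable under
a set `U` of elements of `G_ℚ`, `M ≥ 2 g + deg E`, `gcd([F : ℚ̄(t)], M - deg E) = 1`.  Then there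
is a `U`-fixed `ψ ∈ L(M · ∞)` whose divisor of zeros off `∞` is `E + R`, reduced of degree `M`,
with `R` off `S` and `t` injective on the support of `R`. -/
theorem residual_modular (U : Set GQ) (t : modularFunctionFieldBar N)
    (ht : Transcendental Qb t) [FiniteDimensional Qb⟮t⟯ (modularFunctionFieldBar N)]
    (E : Place Qb (modularFunctionFieldBar N) →₀ ℕ) (hE1 : ∀ P, E P ≤ 1)
    (hEinf : E (placeInfL Qb N) = 0)
    (hEU : ∀ σ ∈ U, ∀ P : Place Qb (modularFunctionFieldBar N),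
      E (arithmeticGalois (modularFunctionFieldFull N) σ • P) = E P)
    (M : ℕ) (hM : 2 * genusFF Qb (modularFunctionFieldBar N) + HQ.deg E ≤ M)
    (hdeg : HQ.deg E < M)
    (hcop : Nat.Coprime (finrank Qb⟮t⟯ (modularFunctionFieldBar N)) (M - HQ.deg E))
    (S : Finset (Place Qb (modularFunctionFieldBar N))) :
    ∃ ψ : modularFunctionFieldBar N,
      (∀ σ ∈ U, arithmeticGalois (modularFunctionFieldFull N) σ • ψ = ψ) ∧ ψ ≠ 0 ∧
      (∀ P : Place Qb (modularFunctionFieldBar N), P ≠ placeInfL Qb N → 0 ≤ P.ord ψ) ∧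
      -(M : ℤ) ≤ (placeInfL Qb N).ord ψ ∧
      ∃ R : Place Qb (modularFunctionFieldBar N) →₀ ℕ,
        HG.IsZDiv (placeInfL Qb N) ψ (E + R) ∧ (∀ P, (E + R) P ≤ 1) ∧ (∀ P ∈ S, R P = 0) ∧
        (∀ P ∈ R.support, ∀ Q ∈ R.support, pval P t = pval Q t → P = Q) ∧
        HQ.deg (E + R) = M ∧
        ∀ σ ∈ U, ∀ P : Place Qb (modularFunctionFieldBar N),
          R (arithmeticGalois (modularFunctionFieldFull N) σ • P) = R P := by
  obtain ⟨ψ, hfix, hne, hreg, hpole, R, hR1, hR2, hR3, hR4, hR5, hR6⟩ :=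
    residual_semilinear (placeInfL Qb N) t ht
    ((fun σ : GQ => arithmeticGalois (L := Qb) (modularFunctionFieldFull N) σ) '' U)
    (by
      rintro _ ⟨σ, -, rfl⟩
      exact arithmeticGalois_smul_placeInfL Qb N σ)
    (fun W _ hW T p hp => by
      obtain ⟨f, hfW, hffix, hfT⟩ := Ht.Rep.exists_fixed_notMem (modularFunctionFieldFull N) U W
        (fun σ hσ f hf => hW _ ⟨σ, hσ, rfl⟩ f hf) T p hp
      refine ⟨f, hfW, ?_, hfT⟩
      rintro _ ⟨σ, hσ, rfl⟩
      exact hffix σ hσ)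
    E hE1 hEinf
    (by
      rintro _ ⟨σ, hσ, rfl⟩ P
      exact hEU σ hσ P)
    M hM hdeg hcop S
  exact ⟨ψ, fun σ hσ => hfix _ ⟨σ, hσ, rfl⟩, hne, hreg, hpole, R, hR1, hR2, hR3, hR4, hR5,
    fun σ hσ P => hR6 _ ⟨σ, hσ, rfl⟩ P⟩

/-- **The residual divisor on `X_0(N)`, in the `RatU` shapes** (`Finsupp.mapDomain`). -/
theorem residual_modular_mapDomain (U : Set GQ) (t : modularFunctionFieldBar N)
    (ht : Transcendental Qb t) [FiniteDimensional Qb⟮t⟯ (modularFunctionFieldBar N)]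
    (E : Place Qb (modularFunctionFieldBar N) →₀ ℕ) (hE1 : ∀ P, E P ≤ 1)
    (hEinf : E (placeInfL Qb N) = 0)
    (hEU : ∀ σ ∈ U,
      E.mapDomain (fun P => arithmeticGalois (modularFunctionFieldFull N) σ • P) = E)
    (M : ℕ) (hM : 2 * genusFF Qb (modularFunctionFieldBar N) + HQ.deg E ≤ M)
    (hdeg : HQ.deg E < M)
    (hcop : Nat.Coprime (finrank Qb⟮t⟯ (modularFunctionFieldBar N)) (M - HQ.deg E))
    (S : Finset (Place Qb (modularFunctionFieldBar N))) :
    ∃ ψ : modularFunctionFieldBar N,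
      (∀ σ ∈ U, arithmeticGalois (modularFunctionFieldFull N) σ • ψ = ψ) ∧ ψ ≠ 0 ∧
      HG.RegOff (placeInfL Qb N) ψ ∧ -(M : ℤ) ≤ (placeInfL Qb N).ord ψ ∧
      ∃ R : Place Qb (modularFunctionFieldBar N) →₀ ℕ,
        HG.IsZDiv (placeInfL Qb N) ψ (E + R) ∧ (∀ P, (E + R) P ≤ 1) ∧ (∀ P ∈ S, R P = 0) ∧
        (∀ P ∈ R.support, ∀ Q ∈ R.support, pval P t = pval Q t → P = Q) ∧
        HQ.deg (E + R) = M ∧
        ∀ σ ∈ U,
          R.mapDomain (fun P => arithmeticGalois (modularFunctionFieldFull N) σ • P) = R := by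
  obtain ⟨ψ, hfix, hne, hreg, hpole, R, hR1, hR2, hR3, hR4, hR5, hR6⟩ :=
    residual_modular N U t ht E hE1 hEinf
      (fun σ hσ P => by
        have h1 := Finsupp.mapDomain_apply
          (MulAction.injective (arithmeticGalois (L := Qb) (modularFunctionFieldFull N) σ)) E P
        rw [hEU σ hσ] at h1
        exact h1)
      M hM hdeg hcop S
  refine ⟨ψ, hfix, hne, hreg, hpole, R, hR1, hR2, hR3, hR4, hR5, fun σ hσ => ?_⟩
  ext v
  have h1 := Finsupp.mapDomain_apply
    (MulAction.injective (arithmeticGalois (L := Qb) (modularFunctionFieldFull N) σ)) R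
    ((arithmeticGalois (L := Qb) (modularFunctionFieldFull N) σ)⁻¹ • v)
  rw [smul_inv_smul] at h1
  rw [h1]
  have h2 := hR6 σ hσ ((arithmeticGalois (L := Qb) (modularFunctionFieldFull N) σ)⁻¹ • v)
  rw [smul_inv_smul] at h2
  exact h2.symm

end Modular

end Fermat.Agent.MW.Gen.ResidualC
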