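/-
MW / HT-Q — `TranslatesB` (second seat of the field `translates` of `HG.CurveD`).

`F = ℚ̄·F_N`, `∞` the cusp, `g` the genus, `ρ σ` the arithmetic Galois action, `t` a coordinate
regular off `∞` with a pole of order `m` at `∞` and `[F : ℚ̄(t)] = 2g + 1`, `𝔯` a divisor (the
affine ramification divisor of `t`), `n = 2g(2g + 1) + 1`.

* `RawGood N t U₀ 𝔯 γ n E ψ R` : the RAW data of a good divisor, exactly as produced by the landed
  bricks: `E` (from `Ht/GoodTranslateJInj`) reduced of degree `γ`, off `∞`, `U₀`-stable, `l(E) = 1`,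
  `H¹(E) = 0`, `L((2γ − 1)∞ − E) = 0`, `t` injective on `supp E`, `E` far from `𝔯`; `ψ ≠ 0`
  `U₀`-fixed, regular off `∞`, with divisor of zeros `E + R` (from `Gen/ResidualB`), `E + R`
  reduced of degree `n + γ`, `R` far from `E` and from `𝔯`, `t` injective on `supp R`, `R`
  `U₀`-stable.
* `exists_translates_of_asm` : there is a number field `K₀` such that for every `U₀ ≤ Gal(ℚ̄/K₀)`,
  every `J = {U₀-fixed classes}`, every class map `cl` and EVERY predicate `G` implied by `RawGood`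
  (the assembly into `Good`): finitely many translations `c ∈ J` move every `x ∈ J` to the class
  of a divisor `E` with `G E`.
* `exists_translates_goodRaw` : the instance `G := CurveInst.GoodRaw 𝒮 γ n κ w₁ 𝔯` for any
  `Setting` whose rational divisors are the `U₀`-stable ones — literally the hypothesis `htrans`
  of `CurveInst.nonempty_curveD` / the field `translates` of `CurveD`.
-/
import Mathlib
import Fermat.Agent.MW.HG.CurveInst
import Fermat.Agent.MW.Ht.GoodTranslateJInj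
import Fermat.Agent.MW.Gen.ResidualB
import Fermat.Agent.MW.Gen.PlBridge
import Fermat.Agent.MW.Gen.GoodAsmB
import Fermat.Agent.MW.HG.SettingInst

set_option autoImplicit false

noncomputable section

namespace Fermat.Agent.MW.Gen.TranslatesB

open AlgebraicCurve ModularCurve Module
open Fermat.Agent.Lib.FF Fermat.Agent.Lib.FF.PlaceInf
open Fermat.Agent.MW Fermat.Agent.MW.HtM Fermat.Agent.MW.HG Fermat.Agent.MW.Ht.Defs
open Fermat.Agent.MW.Ht.AbsQb
open scoped IntermediateField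

local notation "Qb" => AlgebraicClosure ℚ
local notation "GQ" => (AlgebraicClosure ℚ ≃ₐ[ℚ] AlgebraicClosure ℚ)

/-! ### Generic helpers -/

section Core

variable {K F : Type*} [Field K] [Field F] [Algebra K F]

/-- The effective divisor of a nonnegative divisor, cast back. -/
theorem castDiv_toNatDiv {E : Divisor K F} (hE : 0 ≤ E) :
    ResidualB.castDiv (Ht.RamDiv.toNatDiv E) = E := by
  ext P
  rw [ResidualB.castDiv_apply, Ht.RamDiv.coe_toNatDiv (hE P)]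

/-- Stability under an automorphism transfers to the effective divisor. -/
theorem mapDomain_toNatDiv (g : SemilinearAut K F) {E : Divisor K F} (hE : g • E = E) :
    (Ht.RamDiv.toNatDiv E).mapDomain (fun P => g • P) = Ht.RamDiv.toNatDiv E := by
  apply ResidualB.mapDomain_of_apply_inv_smul
  intro v
  rw [Ht.RamDiv.toNatDiv_apply, Ht.RamDiv.toNatDiv_apply, ← SemilinearAut.divisor_smul_apply, hE]

theorem coprime_aux (g : ℕ) : Nat.Coprime (2 * g + 1) (g + 1) := by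
  have e : 2 * g + 1 = g + (g + 1) := by ring
  rw [e]
  simp

/-- A finite set containing the `t`-fibres (off `pinf`) of the places of a finite set. -/
theorem exists_fibres {x : F} (h : IsFF1 K F x) {pinf : Place K F} {t : F} {m : ℕ}
    (ht : ∀ P : Place K F, P ≠ pinf → 0 ≤ P.ord t) (hm : pinf.ord t = -(m : ℤ)) (hm0 : 0 < m)
    (A : Finset (Place K F)) :
    ∃ S : Finset (Place K F), ∀ P, P ≠ pinf → ∀ Q ∈ A, pval P t = pval Q t → P ∈ S := by
  classical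
  choose T _ hT using fun τ : K => Ht.RamDiv.exists_fibre_finset h ht hm hm0 τ
  exact ⟨A.biUnion fun Q => T (pval Q t), fun P hP Q hQ hPQ =>
    Finset.mem_biUnion.mpr ⟨Q, hQ, (hT _ P).mpr ⟨hP, hPQ⟩⟩⟩

end Core

/-! ### The modular function field -/

section Modular

variable (N : ℕ) [NeZero N]

/-- The class of the effective divisor of a nonnegative divisor off `∞`. -/
theorem clPl_toNatDiv {E : Divisor Qb (FN N)} (hE : 0 ≤ E) (hinf : E (placeInfL Qb N) = 0) :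
    PlBridge.clPl N (Ht.RamDiv.toNatDiv E) = Ht.GoodTranslateJ.cls N E := by
  rw [PlBridge.clPl_apply, ← Ht.GoodTranslateJ.cls_toDiv]
  congr 1
  ext v
  by_cases hv : v = pinf N
  · rw [hv, Ht.RepPt.toDiv_apply_pinf]
    exact hinf.symm
  · have h1 := Ht.RepPt.toDiv_apply N (PlBridge.ofPl N (Ht.RamDiv.toNatDiv E)) ⟨v, hv⟩
    rw [PlBridge.ofPl_apply] at h1
    exact h1.trans (Ht.RamDiv.coe_toNatDiv (hE v))

/-- **The raw data of a good divisor** (see the file header). -/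
structure RawGood (t : FN N) (U₀ : Subgroup GQ) (𝔯 : Pl N →₀ ℕ) (γ n : ℕ)
    (E : Pl N →₀ ℕ) (ψ : FN N) (R : Pl N →₀ ℕ) : Prop where
  E_le : ∀ P, E P ≤ 1
  E_inf : E (placeInfL Qb N) = 0
  E_deg : HQ.deg E = γ
  E_stable : ∀ σ ∈ U₀,
    E.mapDomain (fun P => arithmeticGalois (modularFunctionFieldFull N) σ • P) = E
  E_rr : finrank Qb (riemannRochSpace (ResidualB.castDiv E)) = 1
  E_md : RR.MD (ResidualB.castDiv E) = ⊤
  E_ns : riemannRochSpace ((2 * (γ : ℤ) - 1) • Finsupp.single (placeInfL Qb N) (1 : ℤ)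
    - ResidualB.castDiv E) = ⊥
  E_inj : ∀ v w, E v = 1 → E w = 1 → pval v t = pval w t → v = w
  E_far : ∀ p ∈ E.support, ∀ q ∈ 𝔯.support, pval p t ≠ pval q t
  ψ_ne : ψ ≠ 0
  ψ_fix : ∀ σ ∈ U₀, arithmeticGalois (modularFunctionFieldFull N) σ • ψ = ψ
  ψ_reg : RegOff (placeInfL Qb N) ψ
  zdiv : IsZDiv (placeInfL Qb N) ψ (E + R)
  red : ∀ P, (E + R) P ≤ 1
  R_inf : R (placeInfL Qb N) = 0
  R_farE : ∀ p ∈ R.support, ∀ q ∈ E.support, pval p t ≠ pval q t
  R_far𝔯 : ∀ p ∈ R.support, ∀ q ∈ 𝔯.support, pval p t ≠ pval q t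
  R_inj : ∀ P ∈ R.support, ∀ Q ∈ R.support, pval P t = pval Q t → P = Q
  deg : HQ.deg (E + R) = n + γ
  R_stable : ∀ σ ∈ U₀,
    R.mapDomain (fun P => arithmeticGalois (modularFunctionFieldFull N) σ • P) = R

set_option maxHeartbeats 800000 in
/-- **Good translates, predicate-generic.**  See the file header. -/
theorem exists_translates_of_asm (t : FN N) {m : ℕ} (hm : 0 < m)
    (htreg : ∀ P : Pl N, P ≠ placeInfL Qb N → 0 ≤ P.ord t)
    (htpole : (placeInfL Qb N).ord t = -(m : ℤ))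
    (hfin : finrank Qb⟮t⟯ (FN N) = 2 * genusFF Qb (FN N) + 1)
    (𝔯 : Pl N →₀ ℕ) :
    ∃ K₀ : IntermediateField ℚ Qb, FiniteDimensional ℚ K₀ ∧
    ∀ U₀ : Subgroup GQ, U₀ ≤ K₀.fixingSubgroup →
    ∀ (J : AddSubgroup (JZero N)), (∀ x ∈ J, ∀ σ ∈ U₀, σ • x = x) →
      (∀ x : JZero N, (∀ σ ∈ U₀, σ • x = x) → x ∈ J) →
    ∀ (cl : (Pl N →₀ ℕ) →+ J),
      (∀ D : Pl N →₀ ℕ, D (placeInfL Qb N) = 0 →
        (∀ σ ∈ U₀, D.mapDomain
          (fun P => arithmeticGalois (modularFunctionFieldFull N) σ • P) = D) →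
        (cl D : JZero N) = PlBridge.clPl N D) →
    ∀ (G : (Pl N →₀ ℕ) → Prop),
      (∀ E ψ R, RawGood N t U₀ 𝔯 (genusFF Qb (FN N))
        (2 * genusFF Qb (FN N) * (2 * genusFF Qb (FN N) + 1) + 1) E ψ R → G E) →
      ∃ 𝒞 : Finset J, ∀ x : J, ∃ c ∈ 𝒞, ∃ E, G E ∧ cl E = x + c := by
  classical
  have h := Res.isFF1_modular N
  -- the `t`-fibres of the support of `𝔯`
  obtain ⟨S₀, hS₀⟩ := exists_fibres h htreg htpole hm 𝔯.support
  have hco : Nat.Coprime (finrank Qb⟮t⟯ (FN N)) (genusFF Qb (FN N) + 1) := by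
    rw [hfin]
    exact coprime_aux _
  obtain ⟨K₀, hK₀, hK⟩ :=
    Ht.GoodTranslateJInj.exists_good_translate_inj_field_ord N t m hm htreg htpole hco S₀
  refine ⟨K₀, hK₀, fun U₀ hU₀ J hJ hJ' cl hcl G hasm => ?_⟩
  obtain ⟨C, hC, hx⟩ := hK U₀ hU₀
  refine ⟨C.attach.image fun c => (⟨c.1, hJ' c.1 (hC c.1 c.2)⟩ : J), fun x => ?_⟩
  obtain ⟨c, hcC, E, ⟨hE0, hE1, hEinf, hES₀, hEdeg, hEl, hEmd, hEns, hEinj⟩, hEU, hcls⟩ :=
    hx x.1 (hJ x.1 x.2)
  have hcast : ResidualB.castDiv (Ht.RamDiv.toNatDiv E) = E := castDiv_toNatDiv hE0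
  have happ : ∀ P, ((Ht.RamDiv.toNatDiv E P : ℕ) : ℤ) = E P :=
    fun P => Ht.RamDiv.coe_toNatDiv (hE0 P)
  have hle : ∀ P, Ht.RamDiv.toNatDiv E P ≤ 1 := fun P => by
    have h1 := hE1 P
    have h2 := happ P
    omega
  have hinf : Ht.RamDiv.toNatDiv E (placeInfL Qb N) = 0 := by
    have h2 := happ (placeInfL Qb N)
    omega
  have hdeg : HQ.deg (Ht.RamDiv.toNatDiv E) = genusFF Qb (FN N) := by
    have h1 := Ht.RamDiv.deg_toNatDiv h (E := E) (fun P => hE0 P)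
    rw [hEdeg] at h1
    exact_mod_cast h1
  have hU : ∀ σ ∈ U₀, (Ht.RamDiv.toNatDiv E).mapDomain
      (fun P => arithmeticGalois (modularFunctionFieldFull N) σ • P) = Ht.RamDiv.toNatDiv E :=
    fun σ hσ => mapDomain_toNatDiv _ (hEU σ hσ)
  -- the residual divisor
  obtain ⟨S, hS⟩ := exists_fibres h htreg htpole hm ((Ht.RamDiv.toNatDiv E).support ∪ 𝔯.support)
  have htt : Transcendental Qb t :=
    Ht.RamCount.transcendental_of_ord_neg (placeInfL Qb N) (by rw [htpole]; omega)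
  obtain ⟨ψ, hψfix, hψreg, R, hZ, hred, hRS, hRinj, hdegR, hRU⟩ :=
    ResidualB.exists_residual N t htt hfin (U₀ : Set GQ) (Ht.RamDiv.toNatDiv E) hle hinf hdeg
      (fun σ hσ => hU σ hσ) S
  have hRinf : R (placeInfL Qb N) = 0 := by
    have h1 := hZ.1
    rw [Finsupp.add_apply] at h1
    omega
  have hsuppE : ∀ p ∈ (Ht.RamDiv.toNatDiv E).support, p ≠ placeInfL Qb N := by
    intro p hp hpe
    rw [hpe] at hp
    exact (Finsupp.mem_support_iff.mp hp) hinf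
  have hsuppR : ∀ p ∈ R.support, p ≠ placeInfL Qb N := by
    intro p hp hpe
    rw [hpe] at hp
    exact (Finsupp.mem_support_iff.mp hp) hRinf
  have hG : G (Ht.RamDiv.toNatDiv E) := by
    apply hasm _ ψ R
    refine
      { E_le := hle
        E_inf := hinf
        E_deg := hdeg
        E_stable := hU
        E_rr := by rw [hcast]; exact hEl
        E_md := by rw [hcast]; exact hEmd
        E_ns := by rw [hcast]; exact hEns
        E_inj := ?_
        E_far := ?_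
        ψ_ne := ?_
        ψ_fix := fun σ hσ => hψfix σ hσ
        ψ_reg := hψreg
        zdiv := hZ
        red := hred
        R_inf := hRinf
        R_farE := ?_
        R_far𝔯 := ?_
        R_inj := hRinj
        deg := ?_
        R_stable := fun σ hσ => hRU σ hσ }
    · intro v w hv hw hvw
      refine hEinj v w ?_ ?_ hvw
      · rw [← happ v, hv]; rfl
      · rw [← happ w, hw]; rfl
    · intro p hp q hq hpq
      have h1 := hES₀ p (hS₀ p (hsuppE p hp) q hq hpq)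
      have h2 := happ p
      rw [h1] at h2
      exact (Finsupp.mem_support_iff.mp hp) (by exact_mod_cast h2)
    · intro h0
      have hz : Ht.RamDiv.toNatDiv E + R = 0 := by
        ext P
        by_cases hP : P = placeInfL Qb N
        · rw [hP]; exact hZ.1
        · have h1 := hZ.2 P hP
          rw [h0, Place.ord_zero] at h1
          exact_mod_cast h1
      rw [hz, HQ.deg_zero] at hdegR
      omega
    · intro p hp q hq hpq
      exact (Finsupp.mem_support_iff.mp hp)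
        (hRS p (hS p (hsuppR p hp) q (Finset.mem_union_left _ hq) hpq))
    · intro p hp q hq hpq
      exact (Finsupp.mem_support_iff.mp hp)
        (hRS p (hS p (hsuppR p hp) q (Finset.mem_union_right _ hq) hpq))
    · rw [hdegR]; ring
  refine ⟨⟨c, hJ' c (hC c hcC)⟩, ?_, Ht.RamDiv.toNatDiv E, hG, ?_⟩
  · exact Finset.mem_image.mpr ⟨⟨c, hcC⟩, Finset.mem_attach _ _, rfl⟩
  · apply Subtype.ext
    rw [hcl _ hinf hU, clPl_toNatDiv N hE0 hEinf, hcls]
    rfl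

/-- **The assembly**: raw data ⟹ the body of `Good` (`GoodAsmB.good_body`), for any `Setting`
whose group `U` comes from `U₀`, any linearly independent `κ` in `L((2γ − 1)∞)` and any
`Γ`-fixed basis `w₁` of `L((n + γ)∞)`. -/
theorem goodRaw_of_rawGood {t : FN N} {m : ℕ} (𝒮 : HG.Setting absFamily (placeInfL Qb N) t m)
    (U₀ : Subgroup GQ)
    (h𝒮 : ∀ D : Pl N →₀ ℕ, D ∈ 𝒮.RatU ↔ D (placeInfL Qb N) = 0 ∧
      ∀ σ ∈ U₀, D.mapDomain (fun P => arithmeticGalois (modularFunctionFieldFull N) σ • P) = D)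
    (hU : ∀ u ∈ 𝒮.U, ∃ σ ∈ U₀, arithmeticGalois (modularFunctionFieldFull N) σ = u)
    (𝔯 : Pl N →₀ ℕ) {γ n : ℕ}
    (κ : Fin γ → FN N)
    (hκ : ∀ i, κ i ∈ riemannRochSpace
      ((2 * (γ : ℤ) - 1) • Finsupp.single (placeInfL Qb N) (1 : ℤ) : Divisor Qb (FN N)))
    (hκli : LinearIndependent Qb κ)
    (w₁ : Fin (n + 1) → FN N) (hw₁ : CurveInst.IsFixedBasis 𝒮 w₁ (n + γ))
    {E : Pl N →₀ ℕ} {ψ : FN N} {R : Pl N →₀ ℕ} (H : RawGood N t U₀ 𝔯 γ n E ψ R) :
    CurveInst.GoodRaw 𝒮 γ n κ w₁ 𝔯 E := by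
  classical
  have h := Res.isFF1_modular N
  have hsuppE : ∀ p ∈ E.support, p ≠ placeInfL Qb N := by
    intro p hp hpe
    rw [hpe] at hp
    exact (Finsupp.mem_support_iff.mp hp) H.E_inf
  have hψspan : ψ ∈ Submodule.span Qb (Set.range w₁) := by
    rw [hw₁.span]
    refine (CurveInst.mem_rr_single_iff H.ψ_ne).mpr ⟨H.ψ_reg, ?_⟩
    have h1 := NormDataOf.deg_eq_of_isZDiv h H.ψ_ne H.zdiv
    rw [H.deg] at h1
    rw [h1, neg_neg]
  refine GoodAsmB.good_body h 𝒮 (n + γ) rfl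
    ((2 * (γ : ℤ) - 1) • Finsupp.single (placeInfL Qb N) (1 : ℤ)) κ hκ hκli w₁ hw₁.fam hw₁.li 𝔯
    E H.E_le ((h𝒮 E).mpr ⟨H.E_inf, H.E_stable⟩) H.E_deg ?_
    (ResidualB.castDiv E) (fun Q => ResidualB.castDiv_apply E Q) H.E_ns H.E_rr ?_
    ψ H.ψ_ne ?_ hψspan R H.zdiv H.red H.deg H.R_inj
    (fun p hp q hq => H.E_far p hp q hq) (fun p hp q hq => H.R_far𝔯 p hp q hq)
    (fun p hp q hq hpq => H.R_farE q hq p hp hpq.symm)
  · intro P hP
    rw [Finsupp.smul_apply, Finsupp.single_eq_of_ne (hsuppE P hP), smul_zero]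
  · intro v hv w hw hvw
    have h1 : ∀ u ∈ E.support, E u = 1 := fun u hu => by
      have h2 := H.E_le u
      have h3 := Finsupp.mem_support_iff.mp hu
      omega
    exact H.E_inj v w (h1 v hv) (h1 w hw) hvw
  · intro u hu
    obtain ⟨σ, hσ, rfl⟩ := hU u hu
    exact H.ψ_fix σ hσ

set_option maxHeartbeats 800000 in
/-- **The field `translates` of `HG.CurveD`** (the hypothesis `htrans` of
`CurveInst.nonempty_curveD`), closed: `t` regular off `∞` with a pole of order `m > 0` at `∞` and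
`[F : ℚ̄(t)] = 2g + 1`, `𝔯` any divisor.  There is a number field `K₀` such that for every
`U₀ ≤ Gal(ℚ̄/K₀)`, every `Setting` `𝒮` with rational divisors the `U₀`-stable ones and `U` coming
from `U₀`, `J` the `U₀`-fixed classes, `cl` the class map, `γ = g`, `n = 2g(2g + 1) + 1`, `κ`
linearly independent in `L((2g − 1)∞)` and `w₁` a `Γ`-fixed basis of `L((n + g)∞)`: finitely many
translations move every class of `J` to the class of a good divisor. -/
theorem exists_translates_goodRaw (t : FN N) {m : ℕ} (hm : 0 < m)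
    (htreg : ∀ P : Pl N, P ≠ placeInfL Qb N → 0 ≤ P.ord t)
    (htpole : (placeInfL Qb N).ord t = -(m : ℤ))
    (hfin : finrank Qb⟮t⟯ (FN N) = 2 * genusFF Qb (FN N) + 1)
    (𝔯 : Pl N →₀ ℕ) :
    ∃ K₀ : IntermediateField ℚ Qb, FiniteDimensional ℚ K₀ ∧
    ∀ U₀ : Subgroup GQ, U₀ ≤ K₀.fixingSubgroup →
    ∀ (𝒮 : HG.Setting absFamily (placeInfL Qb N) t m),
      (∀ D : Pl N →₀ ℕ, D ∈ 𝒮.RatU ↔ D (placeInfL Qb N) = 0 ∧
        ∀ σ ∈ U₀, D.mapDomain
          (fun P => arithmeticGalois (modularFunctionFieldFull N) σ • P) = D) →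
      (∀ u ∈ 𝒮.U, ∃ σ ∈ U₀, arithmeticGalois (modularFunctionFieldFull N) σ = u) →
    ∀ (J : AddSubgroup (JZero N)), (∀ x ∈ J, ∀ σ ∈ U₀, σ • x = x) →
      (∀ x : JZero N, (∀ σ ∈ U₀, σ • x = x) → x ∈ J) →
    ∀ (cl : (Pl N →₀ ℕ) →+ J),
      (∀ D ∈ 𝒮.RatU, (cl D : JZero N) = PlBridge.clPl N D) →
    ∀ (γ n : ℕ), γ = genusFF Qb (FN N) → n = 2 * γ * (2 * γ + 1) + 1 →
    ∀ (κ : Fin γ → FN N),
      (∀ i, κ i ∈ riemannRochSpace
        ((2 * (γ : ℤ) - 1) • Finsupp.single (placeInfL Qb N) (1 : ℤ) : Divisor Qb (FN N))) →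
      LinearIndependent Qb κ →
    ∀ (w₁ : Fin (n + 1) → FN N), CurveInst.IsFixedBasis 𝒮 w₁ (n + γ) →
      ∃ 𝒞 : Finset J, ∀ x : J, ∃ c ∈ 𝒞, ∃ E,
        CurveInst.GoodRaw 𝒮 γ n κ w₁ 𝔯 E ∧ cl E = x + c := by
  obtain ⟨K₀, hK₀, hK⟩ := exists_translates_of_asm N t hm htreg htpole hfin 𝔯
  refine ⟨K₀, hK₀, fun U₀ hU₀ 𝒮 h𝒮 hU J hJ hJ' cl hcl γ n hγ hn κ hκ hκli w₁ hw₁ => ?_⟩
  subst hγ
  subst hn
  exact hK U₀ hU₀ J hJ hJ' cl (fun D hD0 hDU => hcl D ((h𝒮 D).mpr ⟨hD0, hDU⟩))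
    (CurveInst.GoodRaw 𝒮 _ _ κ w₁ 𝔯)
    (fun E ψ R H => goodRaw_of_rawGood N 𝒮 U₀ h𝒮 hU 𝔯 κ hκ hκli w₁ hw₁ H)

/-- **The field `translates` for the modular setting of record** (`HG.SettingInst.modSetting`,
with `Γ` the image of `G_ℚ`, `U` the image of `U₀`, `Sg` the image of a transversal). -/
theorem exists_translates_modSetting {t : FN N} {m : ℕ}
    (L : LocalHt absFamily (placeInfL Qb N) t m) (hm : 0 < m)
    (htfix : ∀ σ : GQ, SettingInst.gal N σ • t = t)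
    (htreg : ∀ P : Pl N, P ≠ placeInfL Qb N → 0 ≤ P.ord t)
    (htpole : (placeInfL Qb N).ord t = -(m : ℤ))
    (hfin : finrank Qb⟮t⟯ (FN N) = 2 * genusFF Qb (FN N) + 1)
    (𝔯 : Pl N →₀ ℕ) :
    ∃ K₀ : IntermediateField ℚ Qb, FiniteDimensional ℚ K₀ ∧
    ∀ U₀ : Subgroup GQ, U₀ ≤ K₀.fixingSubgroup →
    ∀ (Sg₀ : Finset GQ) (hS : Subgroup.IsComplement (Sg₀ : Set GQ) (U₀ : Set GQ))
      (J : AddSubgroup (JZero N)), (∀ x ∈ J, ∀ σ ∈ U₀, σ • x = x) →
      (∀ x : JZero N, (∀ σ ∈ U₀, σ • x = x) → x ∈ J) →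
    ∀ (cl : (Pl N →₀ ℕ) →+ J),
      (∀ D ∈ (SettingInst.modSetting L hm htfix htreg htpole U₀ Sg₀ hS).RatU,
        (cl D : JZero N) = PlBridge.clPl N D) →
    ∀ (γ n : ℕ), γ = genusFF Qb (FN N) → n = 2 * γ * (2 * γ + 1) + 1 →
    ∀ (κ : Fin γ → FN N),
      (∀ i, κ i ∈ riemannRochSpace
        ((2 * (γ : ℤ) - 1) • Finsupp.single (placeInfL Qb N) (1 : ℤ) : Divisor Qb (FN N))) →
      LinearIndependent Qb κ →
    ∀ (w₁ : Fin (n + 1) → FN N),
      CurveInst.IsFixedBasis (SettingInst.modSetting L hm htfix htreg htpole U₀ Sg₀ hS) w₁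
        (n + γ) →
      ∃ 𝒞 : Finset J, ∀ x : J, ∃ c ∈ 𝒞, ∃ E,
        CurveInst.GoodRaw (SettingInst.modSetting L hm htfix htreg htpole U₀ Sg₀ hS) γ n κ w₁ 𝔯 E
          ∧ cl E = x + c := by
  obtain ⟨K₀, hK₀, hK⟩ := exists_translates_goodRaw N t hm htreg htpole hfin 𝔯
  exact ⟨K₀, hK₀, fun U₀ hU₀ Sg₀ hS J hJ hJ' cl hcl γ n hγ hn κ hκ hκli w₁ hw₁ =>
    hK U₀ hU₀ _ (fun _ => SettingInst.mem_RatU_iff L hm htfix htreg htpole U₀ Sg₀ hS)
      (fun _ hu => (SettingInst.mem_U L hm htfix htreg htpole U₀ Sg₀ hS).mp hu)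
      J hJ hJ' cl hcl γ n hγ hn κ hκ hκli w₁ hw₁⟩

/-- `κ` in the shape of `CurveInst.IsFixedBasis`: a basis of `L(MK · ∞)` with `MK + 1 = 2γ` lies
in `L((2γ − 1)∞)`. -/
theorem mem_rr_of_isFixedBasis {t : FN N} {m : ℕ}
    (𝒮 : HG.Setting absFamily (placeInfL Qb N) t m) {γ MK : ℕ} (hMK : MK + 1 = 2 * γ)
    {κ : Fin γ → FN N} (hκ : CurveInst.IsFixedBasis 𝒮 κ MK) (i : Fin γ) :
    κ i ∈ riemannRochSpace
      ((2 * (γ : ℤ) - 1) • Finsupp.single (placeInfL Qb N) (1 : ℤ) : Divisor Qb (FN N)) := by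
  have h1 := hκ.mem i
  have e : ((2 * (γ : ℤ) - 1) • Finsupp.single (placeInfL Qb N) (1 : ℤ) : Divisor Qb (FN N))
      = Finsupp.single (placeInfL Qb N) (MK : ℤ) := by
    rw [Finsupp.smul_single, smul_eq_mul, mul_one]
    congr 1
    omega
  rw [e]
  exact h1

end Modular

end Fermat.Agent.MW.Gen.TranslatesB
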