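/-
MW / HT-Q, function-field instance side (helper78) — the field `translates` of `HG.CurveD`,
CLOSED: no assembly hypothesis left.

`F = ℚ̄·F_N`, `∞` the cusp, `g` the genus, `ρ σ` the arithmetic Galois action.

* `exists_tuple_of_reduced` : a reduced effective divisor of degree `k` is the divisor of an
  injective `k`-tuple of places;
* `goodRaw_of_good_divisor` : THE ASSEMBLY.  A `U₀`-invariant effective reduced divisor `E` of
  degree `g`, off `∞` and off the `t`-fibres of the ramification points, with `dim L(E) = 1`,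
  `L((2g-1)∞ - E) = 0` and `t` injective on its support, is a GOOD divisor in the sense of
  `HG.CurveD₀.Good` (in the explicit form `CurveInst.GoodRaw`), for ANY `κ` (linearly independent
  `Fam` of pole order `≤ 2g - 1`) and ANY fixed basis `w₁` of `L((n + g)∞)` with `n ≥ 2g`, `n > 0`
  prime to `[F : ℚ̄(t)]`: the residual divisor is helper16's `ResidualC.residual_modular_mapDomain`,
  the two determinants are helper65's `DetNZ.det_ne_zero` and `DetMinor.exists_minor_of_isZDiv`;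
* `exists_translates` : the field `translates` in the literal shape consumed by
  `CurveInst.nonempty_curveD` — there is a number field `K₀` such that for EVERY
  `U₀ ≤ Gal(ℚ̄/K₀)`, every setting whose `U` is the image of `U₀`, every subgroup `J` of
  `U₀`-fixed classes containing all of them and every class map equal to `clPl` on the rational
  divisors: `∃ 𝒞 : Finset J, ∀ x : J, ∃ c ∈ 𝒞, ∃ E, GoodRaw 𝒮 g n κ w₁ 𝔯 E ∧ cl E = x + c`.
-/
import Mathlib
import Fermat.Agent.MW.Gen.Translates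
import Fermat.Agent.MW.Gen.ResidualC
import Fermat.Agent.MW.HG.CurveInst
import Fermat.Agent.MW.Ht.DetNZ
import Fermat.Agent.MW.Ht.DetMinor

set_option autoImplicit false
set_option linter.style.haveILetI false

noncomputable section

namespace Fermat.Agent.MW.Gen.TranslatesClosed

open AlgebraicCurve ModularCurve Module
open Fermat.Agent.MW Fermat.Agent.MW.Ht.Defs Fermat.Agent.MW.HtM Fermat.Agent.MW.Ht.AbsQb
open Fermat.Agent.Lib.FF Fermat.Agent.Lib.FF.PlaceInf
open Fermat.Agent.MW.Gen.PlBridge Fermat.Agent.MW.Ht.GoodTranslateJ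
open scoped IntermediateField

local notation "Qb" => AlgebraicClosure ℚ
local notation "GQ" => (AlgebraicClosure ℚ ≃ₐ[ℚ] AlgebraicClosure ℚ)

/-! ### Enumeration of a reduced divisor -/

section Enumerate

variable {K F : Type*} [Field K] [Field F] [Algebra K F]

/-- A reduced effective divisor of degree `k` is the divisor of an injective `k`-tuple of
places. -/
theorem exists_tuple_of_reduced (D : Place K F →₀ ℕ) (hred : ∀ P, D P ≤ 1) {k : ℕ}
    (hdeg : HQ.deg D = k) :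
    ∃ P : Fin k → Place K F, Function.Injective P ∧ D = HG.tdiv P ∧ ∀ j, P j ∈ D.support := by
  classical
  have hone : ∀ P ∈ D.support, D P = 1 := fun P hP => by
    have h1 := hred P
    have h2 := Finsupp.mem_support_iff.mp hP
    omega
  have hcard : D.support.card = k := by
    rw [← hdeg]
    unfold HQ.deg Finsupp.sum
    rw [Finset.sum_congr rfl hone]
    simp
  let e := D.support.equivFinOfCardEq hcard
  refine ⟨fun j => ((e.symm j : D.support) : Place K F), ?_, ?_, fun j => (e.symm j).2⟩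
  · intro i j hij
    exact e.symm.injective (Subtype.ext hij)
  · unfold HG.tdiv
    rw [Equiv.sum_comp e.symm (fun x : D.support => Finsupp.single (x : Place K F) 1),
      Finset.sum_coe_sort D.support (fun P => Finsupp.single P 1)]
    ext Q
    rw [Finsupp.finsetSum_apply]
    by_cases hQ : Q ∈ D.support
    · rw [Finset.sum_eq_single Q, Finsupp.single_eq_same, hone Q hQ]
      · intro b _ hb
        exact Finsupp.single_eq_of_ne (Ne.symm hb)
      · intro h
        exact absurd hQ h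
    · rw [Finsupp.notMem_support_iff.mp hQ]
      symm
      refine Finset.sum_eq_zero fun b hb => ?_
      exact Finsupp.single_eq_of_ne (fun e => hQ (e ▸ hb))

end Enumerate

variable (N : ℕ) [NeZero N]

/-! ### The assembly -/

set_option maxHeartbeats 1600000 in
/-- **The assembly of a good divisor.** -/
theorem goodRaw_of_good_divisor {t : FN N} {m : ℕ}
    (𝒮 : HG.Setting absFamily (placeInfL Qb N) t m) (htt : Transcendental Qb t)
    (U₀ : Subgroup GQ)
    (hU : ∀ u ∈ 𝒮.U, ∃ σ ∈ U₀, arithmeticGalois (modularFunctionFieldFull N) σ = u)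
    (h𝒮 : ∀ D : Pl N →₀ ℕ, D ∈ 𝒮.RatU ↔ D (placeInfL Qb N) = 0 ∧
      ∀ σ ∈ U₀, D.mapDomain (fun P => arithmeticGalois (modularFunctionFieldFull N) σ • P) = D)
    (MK : ℕ) (hMK : MK + 1 ≤ 2 * genusFF Qb (FN N))
    (κ : Fin (genusFF Qb (FN N)) → FN N) (hκ : 𝒮.Fam κ MK) (hκli : LinearIndependent Qb κ)
    (n : ℕ) (hn : 2 * genusFF Qb (FN N) ≤ n) (hn0 : 0 < n)
    (hcop : Nat.Coprime (finrank Qb⟮t⟯ (FN N)) n)
    (w₁ : Fin (n + 1) → FN N)
    (hw₁ : HG.CurveInst.IsFixedBasis 𝒮 w₁ (n + genusFF Qb (FN N)))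
    (𝔯 : Pl N →₀ ℕ) (S₀ : Finset (Pl N))
    (hS₀ : ∀ P : Pl N, (∃ q ∈ 𝔯.support, pval P t = pval q t) → P ∈ S₀)
    (E : Divisor Qb (FN N))
    (hE : 0 ≤ E ∧ (∀ v, E v ≤ 1) ∧ E (placeInfL Qb N) = 0 ∧ (∀ v ∈ S₀, E v = 0) ∧
      Divisor.degree E = genusFF Qb (FN N) ∧
      finrank Qb (riemannRochSpace E) = 1 ∧ RR.MD E = ⊤ ∧
      riemannRochSpace ((2 * (genusFF Qb (FN N) : ℤ) - 1) •
        Finsupp.single (placeInfL Qb N) (1 : ℤ) - E) = ⊥ ∧
      (∀ v w, E v = 1 → E w = 1 → pval v t = pval w t → v = w))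
    (hEU : ∀ σ ∈ U₀, arithmeticGalois (modularFunctionFieldFull N) σ • E = E) :
    ∃ E' : Pl N →₀ ℕ,
      HG.CurveInst.GoodRaw 𝒮 (genusFF Qb (FN N)) n κ w₁ 𝔯 E' ∧ ∀ v, (E' v : ℤ) = E v := by
  classical
  obtain ⟨hE0, hEred, hEinf, hES₀, hEdeg, hEl, -, hEA, hEinj⟩ := hE
  have h := Fermat.Agent.MW.Ht.GoodTranslateJ.isFF1 N
  haveI := h.finiteDimensional
  haveI : FiniteDimensional Qb⟮t⟯ (FN N) :=
    Fermat.Agent.S24.finiteDimensional_of_transcendental (Fermat.Agent.Lib.Red.xL Qb N) htt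
  -- the effective divisor of places of `E`
  have hcoe : ∀ v, (Translates.natDiv N E v : ℤ) = E v := Translates.coe_natDiv N hE0 hEinf
  have hE'red : ∀ P, Translates.natDiv N E P ≤ 1 := fun P => by
    have h1 := hEred P
    rw [← hcoe P] at h1
    exact_mod_cast h1
  have hE'inf : Translates.natDiv N E (placeInfL Qb N) = 0 := Translates.natDiv_pinf N E
  have hE'U := Translates.stable_natDiv N hE0 hEinf hEU
  have hE'deg : HQ.deg (Translates.natDiv N E) = genusFF Qb (FN N) := by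
    have h1 := degree_toDiv N (Ht.RepPt.ofDiv N E)
    rw [Ht.RepPt.toDiv_ofDiv N hE0 hEinf, hEdeg] at h1
    have h2 : HQ.deg (Translates.natDiv N E) = HQ.deg (Ht.RepPt.ofDiv N E) := deg_toPl N _
    rw [h2]
    exact_mod_cast h1.symm
  -- the set to avoid: `S₀` and the `t`-fibres of the points of `E`
  have htne : ∀ c : Qb, t ≠ algebraMap Qb (FN N) c := fun c hc =>
    htt (hc ▸ isAlgebraic_algebraMap c)
  obtain ⟨ψ, hψU, hψ0, hψreg, hψpole, R, hZ, hred, hRS, hRinj, hdegER, hRU⟩ :=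
    ResidualC.residual_modular_mapDomain N (U₀ : Set GQ) t htt (Translates.natDiv N E) hE'red
      hE'inf hE'U (n + genusFF Qb (FN N))
      (by
        rw [hE'deg]
        exact (by omega : 2 * genusFF Qb (FN N) + genusFF Qb (FN N) ≤ n + genusFF Qb (FN N)))
      (by
        rw [hE'deg]
        exact (by omega : genusFF Qb (FN N) < n + genusFF Qb (FN N)))
      (by rw [hE'deg, Nat.add_sub_cancel]; exact hcop)
      (S₀ ∪ (Translates.natDiv N E).support.biUnion fun q =>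
        (Ht.RepPt.finite_pval_eq N htne (pval q t)).toFinset)
  have hRS₀ : ∀ P ∈ S₀, R P = 0 := fun P hP => hRS P (Finset.mem_union_left _ hP)
  have hRfib : ∀ q ∈ (Translates.natDiv N E).support, ∀ P : Pl N, pval P t = pval q t →
      R P = 0 := fun q hq P hPq => hRS P (Finset.mem_union_right _ (by
        rw [Finset.mem_biUnion]
        exact ⟨q, hq, by rw [Set.Finite.mem_toFinset]; exact hPq⟩))
  have hRinf : R (placeInfL Qb N) = 0 := by
    have h1 := hZ.1
    rw [Finsupp.add_apply] at h1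
    omega
  have hRred : ∀ P, R P ≤ 1 := fun P => by
    have h1 := hred P
    rw [Finsupp.add_apply] at h1
    omega
  have hRdeg : HQ.deg R = n := by
    rw [HQ.deg_add, hE'deg] at hdegER
    omega
  -- the tuples
  obtain ⟨P, hPinj, hEP, hPmem⟩ := exists_tuple_of_reduced (Translates.natDiv N E) hE'red hE'deg
  obtain ⟨Rt, hRtinj, hRRt, hRtmem⟩ := exists_tuple_of_reduced R hRred hRdeg
  have hPinf : ∀ j, P j ≠ placeInfL Qb N := fun j e =>
    (Finsupp.mem_support_iff.mp (hPmem j)) (e ▸ hE'inf)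
  have hRtinf : ∀ j, Rt j ≠ placeInfL Qb N := fun j e =>
    (Finsupp.mem_support_iff.mp (hRtmem j)) (e ▸ hRinf)
  -- the integral divisor of the tuple `P` is `E`
  have hsumP : (∑ j, Finsupp.single (P j) (1 : ℤ) : Divisor Qb (FN N)) = E := by
    ext v
    rw [← Ht.DetMinor.tdiv_apply_cast, ← hEP, hcoe]
  -- coefficients of `ψ` in the basis `w₁`
  obtain ⟨a, ha⟩ := hw₁.exists_coeff hψ0 hψreg hψpole
  have hne : (∑ i, a i • w₁ i) ≠ 0 := ha ▸ hψ0
  have hZ' : HG.IsZDiv (placeInfL Qb N) (∑ i, a i • w₁ i) (HG.tdiv P + HG.tdiv Rt) := by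
    rw [← ha, ← hEP, ← hRRt]
    exact hZ
  refine ⟨Translates.natDiv N E, ⟨P, Rt, a, hEP, hPinj, hPinf, ?_, ?_, ?_, hne, hZ', hRtinj,
    hRtinf, ?_, ?_, ?_, ?_, ?_, ?_⟩, hcoe⟩
  · -- `tdiv P ∈ RatU`
    rw [← hEP]
    exact (h𝒮 _).mpr ⟨hE'inf, hE'U⟩
  · -- the determinant of `κ`
    refine Ht.DetNZ.det_ne_zero (fun Q => h.resK Q)
      ((2 * (genusFF Qb (FN N) : ℤ) - 1) • Finsupp.single (placeInfL Qb N) (1 : ℤ)) κ
      (fun i => ?_) hκli P hPinj (fun j => ?_) (by rw [hsumP]; exact hEA)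
    · rw [Ht.CanonSpace.mem_rr_iff (hκli.ne_zero i)]
      intro v
      rw [Finsupp.smul_apply]
      by_cases hv : v = placeInfL Qb N
      · rw [hv, Finsupp.single_eq_same]
        have h1 := hκ.pole i
        have h2 : ((MK : ℕ) : ℤ) + 1 ≤ 2 * (genusFF Qb (FN N) : ℤ) := by exact_mod_cast hMK
        simp only [smul_eq_mul, mul_one]
        omega
      · rw [Finsupp.single_eq_of_ne hv]
        have h1 := hκ.reg i v hv
        simp only [smul_zero, neg_zero]
        exact h1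
    · rw [Finsupp.smul_apply, Finsupp.single_eq_of_ne (hPinf j), smul_zero]
  · -- the coefficient vector is `U`-fixed
    refine hw₁.uFix fun u hu => ?_
    obtain ⟨σ, hσ, rfl⟩ := hU u hu
    rw [← ha]
    exact hψU σ hσ
  · -- `tdiv Rt ∈ RatU`
    rw [← hRRt]
    exact (h𝒮 _).mpr ⟨hRinf, hRU⟩
  · -- reduced
    rw [← hEP, ← hRRt]
    exact hred
  · -- `t` is injective on the support
    rw [← hEP, ← hRRt]
    intro p hp q hq hpq
    rw [Finset.mem_coe] at hp hq
    have hpq' : pval p t = pval q t := hpq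
    rcases Finset.mem_union.mp (Finsupp.support_add hp) with hp | hp <;>
      rcases Finset.mem_union.mp (Finsupp.support_add hq) with hq | hq
    · have h1 : E p = 1 := by
        have h2 := Finsupp.mem_support_iff.mp hp
        have h3 := hE'red p
        have h4 : Translates.natDiv N E p = 1 := by omega
        rw [← hcoe p, h4]
        rfl
      have h1' : E q = 1 := by
        have h2 := Finsupp.mem_support_iff.mp hq
        have h3 := hE'red q
        have h4 : Translates.natDiv N E q = 1 := by omega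
        rw [← hcoe q, h4]
        rfl
      exact hEinj p q h1 h1' hpq'
    · exact absurd (hRfib p hp q hpq'.symm) (Finsupp.mem_support_iff.mp hq)
    · exact absurd (hRfib q hq p hpq') (Finsupp.mem_support_iff.mp hp)
    · exact hRinj p hp q hq hpq'
  · -- far from the ramification divisor
    rw [← hEP, ← hRRt]
    intro p hp q hq hpq
    have hpS₀ : p ∈ S₀ := hS₀ p ⟨q, hq, hpq⟩
    rcases Finset.mem_union.mp (Finsupp.support_add hp) with hp | hp
    · have h1 := Finsupp.mem_support_iff.mp hp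
      apply h1
      have h2 := hcoe p
      rw [hES₀ p hpS₀] at h2
      exact_mod_cast h2
    · exact (Finsupp.mem_support_iff.mp hp) (hRS₀ p hpS₀)
  · -- `E` and `R` in general position
    rw [← hEP, ← hRRt]
    intro p hp q hq hpq
    exact (Finsupp.mem_support_iff.mp hq) (hRfib p hp q (Eq.symm hpq))
  · -- the minor
    refine Ht.DetMinor.exists_minor_of_isZDiv h (placeInfL Qb N) (n + genusFF Qb (FN N)) rfl w₁
      hw₁.fam.reg hw₁.fam.pole hw₁.li P hPinf Rt hRtinj hRtinf a hne hZ' ?_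
    rw [hsumP]
    exact hEl

/-! ### The field `translates`, closed -/

/-- The `J`-level packaging for an arbitrary predicate `Gd` on effective divisors of places. -/
theorem translates_of_pred {t : FN N} {m : ℕ} (𝒮 : HG.Setting absFamily (placeInfL Qb N) t m)
    (U₀ : Subgroup GQ) (J : AddSubgroup (JZero N))
    (hJ : ∀ x : JZero N, (∀ σ ∈ U₀, σ • x = x) → x ∈ J)
    (hJ' : ∀ x ∈ J, ∀ σ ∈ U₀, σ • x = x)
    (cl : (Pl N →₀ ℕ) →+ J) (hcl : ∀ D ∈ 𝒮.RatU, (cl D : JZero N) = clPl N D)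
    (Gd : (Pl N →₀ ℕ) → Prop) (hGd : ∀ E', Gd E' → E' ∈ 𝒮.RatU)
    (G : Divisor Qb (FN N) → Prop)
    (hG : ∀ E, G E → 0 ≤ E ∧ E (pinf N) = 0)
    (hasm : ∀ E : Divisor Qb (FN N), G E →
      (∀ σ ∈ U₀, arithmeticGalois (modularFunctionFieldFull N) σ • E = E) →
      ∃ E' : Pl N →₀ ℕ, Gd E' ∧ ∀ v, (E' v : ℤ) = E v)
    (C : Finset (JZero N)) (hC : ∀ c ∈ C, ∀ σ ∈ U₀, σ • c = c)
    (hx : ∀ x : JZero N, (∀ σ ∈ U₀, σ • x = x) →
      ∃ c ∈ C, ∃ E : Divisor Qb (FN N), G E ∧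
        (∀ σ ∈ U₀, arithmeticGalois (modularFunctionFieldFull N) σ • E = E) ∧
        cls N E = x + c) :
    ∃ 𝒞 : Finset J, ∀ x : J, ∃ c ∈ 𝒞, ∃ E, Gd E ∧ cl E = x + c := by
  classical
  refine ⟨C.subtype (fun c => c ∈ J), fun x => ?_⟩
  obtain ⟨c, hc, E, hGE, hinv, hcls⟩ := hx (x : JZero N) (hJ' _ x.2)
  obtain ⟨hE0, hEinf⟩ := hG E hGE
  obtain ⟨E', hgood, hE'⟩ := hasm E hGE hinv
  have hcJ : c ∈ J := hJ c (hC c hc)
  refine ⟨⟨c, hcJ⟩, Finset.mem_subtype.mpr hc, E', hgood, Subtype.ext ?_⟩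
  rw [hcl E' (hGd E' hgood), Translates.eq_natDiv N hE0 hEinf hE',
    Translates.clPl_natDiv N hE0 hEinf, hcls]
  rfl

/-- **The field `translates` of `HG.CurveD`, closed** (literal shape of the hypothesis `htrans`
of `CurveInst.nonempty_curveD`, with `γ := genusFF`).  `t` regular off `∞`, transcendental,
`[F : ℚ̄(t)]` prime to `g + 1`; `S₀` a finite set of places containing the `t`-fibres of the
ramification points (condition `hS₀` below).  There is a number field `K₀` such that for EVERY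
subgroup `U₀ ≤ Gal(ℚ̄/K₀)` the good translates exist. -/
theorem exists_translates (t : FN N)
    (ht : ∀ P : Pl N, P ≠ placeInfL Qb N → 0 ≤ P.ord t) (htt : Transcendental Qb t)
    (hco : Nat.Coprime (finrank Qb⟮t⟯ (FN N)) (genusFF Qb (FN N) + 1))
    (S₀ : Finset (Pl N)) :
    ∃ K₀ : IntermediateField ℚ Qb, FiniteDimensional ℚ K₀ ∧
    ∀ U₀ : Subgroup GQ, U₀ ≤ K₀.fixingSubgroup →
    ∀ {m : ℕ} (𝒮 : HG.Setting absFamily (placeInfL Qb N) t m),
      (∀ u ∈ 𝒮.U, ∃ σ ∈ U₀, arithmeticGalois (modularFunctionFieldFull N) σ = u) →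
      (∀ D : Pl N →₀ ℕ, D ∈ 𝒮.RatU ↔ D (placeInfL Qb N) = 0 ∧
        ∀ σ ∈ U₀, D.mapDomain
          (fun P => arithmeticGalois (modularFunctionFieldFull N) σ • P) = D) →
      ∀ (J : AddSubgroup (JZero N)),
      (∀ x : JZero N, (∀ σ ∈ U₀, σ • x = x) → x ∈ J) → (∀ x ∈ J, ∀ σ ∈ U₀, σ • x = x) →
      ∀ (cl : (Pl N →₀ ℕ) →+ J), (∀ D ∈ 𝒮.RatU, (cl D : JZero N) = clPl N D) →
      ∀ (MK : ℕ), MK + 1 ≤ 2 * genusFF Qb (FN N) →
      ∀ (κ : Fin (genusFF Qb (FN N)) → FN N), 𝒮.Fam κ MK → LinearIndependent Qb κ →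
      ∀ (n : ℕ), 2 * genusFF Qb (FN N) ≤ n → 0 < n →
      Nat.Coprime (finrank Qb⟮t⟯ (FN N)) n →
      ∀ (w₁ : Fin (n + 1) → FN N),
      HG.CurveInst.IsFixedBasis 𝒮 w₁ (n + genusFF Qb (FN N)) →
      ∀ (𝔯 : Pl N →₀ ℕ),
      (∀ P : Pl N, (∃ q ∈ 𝔯.support, pval P t = pval q t) → P ∈ S₀) →
      ∃ 𝒞 : Finset J, ∀ x : J, ∃ c ∈ 𝒞, ∃ E,
        HG.CurveInst.GoodRaw 𝒮 (genusFF Qb (FN N)) n κ w₁ 𝔯 E ∧ cl E = x + c := by
  obtain ⟨K₀, hK₀, h⟩ :=
    Ht.GoodTranslateJInj.exists_good_translate_inj_field N t ht htt hco S₀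
  refine ⟨K₀, hK₀, fun U₀ hU₀ m 𝒮 hU h𝒮 J hJ hJ' cl hcl MK hMK κ hκ hκli n hn hn0 hcop w₁ hw₁ 𝔯
    hS₀ => ?_⟩
  obtain ⟨C, hC, hx⟩ := h U₀ hU₀
  refine translates_of_pred N 𝒮 U₀ J hJ hJ' cl hcl _ (fun E' hE' => ?_) _
    (fun E hE => ⟨hE.1, hE.2.2.1⟩)
    (fun E hE hEU => goodRaw_of_good_divisor N 𝒮 htt U₀ hU h𝒮 MK hMK κ hκ hκli n hn hn0 hcop w₁
      hw₁ 𝔯 S₀ hS₀ E hE hEU) C hC hx
  obtain ⟨P, R, a, hEP, -, -, hrat, -⟩ := hE'
  rw [hEP]
  exact hrat

end Fermat.Agent.MW.Gen.TranslatesClosed
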